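import Fermat.Agent.Corollaries.NOS.Crit

/-!
# Inertia at a prime of multiplicative reduction moves a point of `2`-power order

The node root `e` is the abscissa of a point `T` of order two of component value `h = v(Δ) / 2`.
The component value `c` of a `2 ^ m`-th part of `T` satisfies `2 ^ m c = ± h (1 - 2 j)`; it would be
an integer if the point were fixed by inertia. Hence the criterion of Néron-Ogg-Shafarevich holds
for the Tate module at every prime `p ≠ ℓ`.
-/

set_option autoImplicit false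

noncomputable section

open WeierstrassCurve WeierstrassCurve.Affine
open FermatAgent.ECVal FermatAgent.ECVal.QVal Fermat.Agent.ECRed
open Fermat.Agent.Cor.Mazur (Pt)

namespace Fermat.Agent.Cor.NOS

variable {W : WeierstrassCurve ℤ} {A : ValuationSubring (AlgebraicClosure ℚ)} {q ℓ p : ℕ}

theorem two_rel_aux {V : ℕ} (hV : 0 < V) {c j : ℤ}
    (h : (2 : ℤ) ^ (V + 1) * c = V * (1 - 2 * j) ∨ (2 : ℤ) ^ (V + 1) * c = -(V * (1 - 2 * j))) :
    False := by
  have h1 : (2 : ℤ) ^ (V + 1) ∣ V * (1 - 2 * j) := by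
    rcases h with h | h
    · exact ⟨c, h.symm⟩
    · exact ⟨-c, by linear_combination h⟩
  have h2 : IsCoprime ((2 : ℤ) ^ (V + 1)) (1 - 2 * j) :=
    IsCoprime.pow_left ⟨j, 1, by ring⟩
  have h3 := h2.dvd_of_dvd_mul_right h1
  have h4 := Int.le_of_dvd (by exact_mod_cast hV) h3
  have h5 : V < 2 ^ (V + 1) := Nat.lt_pow_self (n := V + 1) one_lt_two |>.trans_le' (by omega)
  have h6 : (2 : ℤ) ^ (V + 1) = ((2 ^ (V + 1) : ℕ) : ℤ) := by push_cast; rfl
  rw [h6] at h4
  omega

/-- **Inertia at a prime of multiplicative reduction moves a point of `2`-power order.** -/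
theorem exists_inertia_ne_two (hW : IsMultAt W q) (hA : A.LiesOverPrime q) :
    ∃ σ ∈ A.inertiaSubgroupIn ℚ, ∃ (n : ℕ) (x : Pt W), 2 ^ n • x = 0 ∧ σ • x ≠ x := by
  classical
  obtain ⟨e, D, NR⟩ := hW.exists_nodeRoot hA
  have N := NR.nodeData hW.prime hA hW.ne
  have h2D := two_mul_valOf_nodeD hW hA NR
  set V := padicValInt q W.Δ with hVdef
  set w := valOf hW.prime hA with hw
  set h := w.val D with hh
  have hh0 := N.hh
  have hV0 : 0 < V := by
    have : (0 : ℚ) < (V : ℚ) := by rw [← h2D]; linarith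
    exact_mod_cast this
  -- the point of order two
  have hΔ' : (EQ W).Δ ≠ 0 := by
    rw [EQ_Δ]
    exact_mod_cast hW.ne
  obtain ⟨y, hy⟩ := Torsion.exists_point_over hΔ' e
  have heq := (Affine.equation_iff _ _).mp hy.1
  have hψ : 2 * y + (EQ W).a₁ * e + (EQ W).a₃ = 0 := by
    have h1 : (2 * y + (EQ W).a₁ * e + (EQ W).a₃) ^ 2 = 0 := by
      have h6 := N.h6
      simp only [WeierstrassCurve.b₂, WeierstrassCurve.b₄, WeierstrassCurve.b₆] at h6
      linear_combination 4 * heq + h6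
    exact (pow_eq_zero_iff two_ne_zero).mp h1
  have hT : 2 • (Point.some e y hy : (EQ W).Point) = 0 := by
    rw [two_nsmul]
    exact Point.add_of_Y_eq rfl (by rw [Affine.negY]; linear_combination hψ)
  have hTc : pcomp w e h (Point.some e y hy : (EQ W).Point) = h := by
    rw [pcomp_some, sub_self]
    exact QVal.comp_of_ge hh0 (ge_zero _)
  obtain ⟨x, hx⟩ := exists_nsmul_eq hW.ne (n := 2 ^ V) (pow_ne_zero _ two_ne_zero)
    (Point.some e y hy)
  by_contra hcon
  push Not at hcon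
  have hx2 : 2 ^ (V + 1) • x = 0 := by rw [pow_succ', mul_smul, hx, hT]
  have hfix : ∀ σ ∈ A.inertiaSubgroupIn ℚ, σ • x = x := fun σ hσ => hcon σ hσ _ x hx2
  set c := pcomp w e h x with hc
  have hVQ : (0 : ℚ) < V := by exact_mod_cast hV0
  -- the component value of `x`
  obtain ⟨j, hj⟩ : ∃ j : ℤ, (2 : ℚ) ^ V * c = h * (1 - 2 * j) ∨
      (2 : ℚ) ^ V * c = -(h * (1 - 2 * j)) := by
    obtain ⟨j, hj | hj⟩ := pcomp_nsmul N x (2 ^ V)
    · rw [hx, hTc] at hj
      push_cast at hj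
      exact ⟨j, Or.inl (by linear_combination -hj)⟩
    · rw [hx, hTc] at hj
      push_cast at hj
      exact ⟨j, Or.inr (by linear_combination hj)⟩
  have hodd : (1 - 2 * j : ℤ) ≠ 0 := by omega
  have hoddQ : (1 - 2 * j : ℚ) ≠ 0 := by exact_mod_cast hodd
  have hc0 : c ≠ 0 := by
    intro h0
    rw [h0, mul_zero] at hj
    have h1 : h * (1 - 2 * (j : ℚ)) ≠ 0 := mul_ne_zero hh0.ne' hoddQ
    rcases hj with hj | hj
    · exact h1 hj.symm
    · exact h1 (by linarith)
  have hch : c ≠ h := by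
    intro h0
    rw [h0] at hj
    obtain ⟨m, hVm⟩ : ∃ m, V = m + 1 := ⟨V - 1, by omega⟩
    rw [hVm] at hj
    have h1 : (2 : ℤ) * 2 ^ m = 1 - 2 * j ∨ (2 : ℤ) * 2 ^ m = -(1 - 2 * j) := by
      rcases hj with hj | hj
      · left
        have h2 : (2 : ℚ) ^ (m + 1) = 1 - 2 * j := by
          apply mul_left_cancel₀ hh0.ne'
          linear_combination hj
        have h3 : ((2 * 2 ^ m : ℤ) : ℚ) = ((1 - 2 * j : ℤ) : ℚ) := by
          push_cast
          rw [← h2]
          ring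
        exact_mod_cast h3
      · right
        have h2 : (2 : ℚ) ^ (m + 1) = -(1 - 2 * j) := by
          apply mul_left_cancel₀ hh0.ne'
          linear_combination hj
        have h3 : ((2 * 2 ^ m : ℤ) : ℚ) = ((-(1 - 2 * j) : ℤ) : ℚ) := by
          push_cast
          rw [← h2]
          ring
        exact_mod_cast h3
    omega
  have hcpos : 0 < c := lt_of_le_of_ne (pcomp_nonneg N x) (Ne.symm hc0)
  have hclt : c < h := lt_of_le_of_ne (pcomp_le N x) hch
  have hx0 : x ≠ 0 := by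
    rintro rfl
    exact hc0 pcomp_zero
  obtain ⟨hxn, ex⟩ := exists_eq_some hx0
  have hcx : w.comp h (xc x - e) = c := by
    rw [hc]
    conv_rhs => rw [ex]
    rw [pcomp_some]
  have hX : w.Is c (xc x - e) := by
    rcases QVal.comp_cases (w := w) (h := h) (xc x - e) with ⟨r, hr, hr'⟩ | ⟨r, hr, hrh, hr'⟩ | hge
    · rw [QVal.comp_of_is_nonpos hr' hr] at hcx
      exact absurd hcx.symm hc0
    · rw [QVal.comp_of_is hr' hr.le hrh.le] at hcx
      rwa [← hcx]
    · rw [QVal.comp_of_ge hh0 hge] at hcx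
      exact absurd hcx.symm hch
  have hψx := psi_is N hx0 hcpos hclt hX
  obtain ⟨m, hm⟩ := val_int_of_inertia_fixed hW.prime hA hψx.1 (fun σ hσ => by
    rw [← psi_smul, hfix σ hσ])
  have hcm : c = m := hψx.unique hm
  refine two_rel_aux hV0 (c := m) (j := j) ?_
  have h2D' : (V : ℚ) = 2 * h := h2D.symm
  rcases hj with hj | hj
  · left
    have : (2 : ℚ) ^ (V + 1) * m = V * (1 - 2 * j) := by
      rw [← hcm, h2D', pow_succ]
      linear_combination 2 * hj
    exact_mod_cast this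
  · right
    have : (2 : ℚ) ^ (V + 1) * m = -(V * (1 - 2 * j)) := by
      rw [← hcm, h2D', pow_succ]
      linear_combination 2 * hj
    exact_mod_cast this

/-- Inertia at a prime of multiplicative reduction moves a point of `p`-power order, for every
prime `p`. -/
theorem exists_inertia_ne (hW : IsMultAt W q) (hA : A.LiesOverPrime q) (hp : p.Prime) :
    ∃ σ ∈ A.inertiaSubgroupIn ℚ, ∃ (n : ℕ) (x : Pt W), p ^ n • x = 0 ∧ σ • x ≠ x := by
  rcases eq_or_ne p 2 with rfl | hp2
  · exact exists_inertia_ne_two hW hA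
  · exact Isog.exists_inertia_ne hW hp hp2 hA

/-- **The criterion of Néron-Ogg-Shafarevich** for the Tate module at any prime `p ≠ ℓ`. -/
theorem good_iff_all (hΔ0 : W.Δ ≠ 0) (hℓ : ℓ.Prime) (hmin : MinimalAt W ℓ)
    (hA : A.LiesOverPrime ℓ) (hp : p.Prime) (hne : p ≠ ℓ) :
    ¬ (ℓ : ℤ) ∣ W.Δ ↔ ∀ (n : ℕ) (P : Pt W), p ^ n • P = 0 → FixedBy A P := by
  have hn : ∀ n : ℕ, ¬ ℓ ∣ p ^ n := fun n h =>
    hne ((Nat.prime_dvd_prime_iff_eq hℓ hp).mp (hℓ.dvd_of_dvd_pow h)).symm
  constructor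
  · intro hΔ n P hP
    exact fixedBy_of_good hℓ hA hΔ (hn n) hP
  · intro h hΔ
    by_cases hc : IsAdditiveAt W ℓ
    · obtain ⟨P, hP⟩ := exists_addOrderOf hΔ0 hp 3
      refine not_isAdditiveAt_of_point hΔ0 hℓ hmin hA (P := P) ?_ ?_ (h 3 P ?_) hc
      · rw [hP]
        calc 5 ≤ 2 ^ 3 := by norm_num
          _ ≤ p ^ 3 := Nat.pow_le_pow_left hp.two_le 3
      · rw [hP]
        exact hn 3
      · rw [← hP]
        exact addOrderOf_nsmul_eq_zero P
    · obtain ⟨σ, hσ, n, x, hx, hne'⟩ :=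
        exists_inertia_ne (isMultAt_of_not_additive hΔ0 hℓ hΔ hc) hA hp
      exact hne' (h n x hx σ hσ)

end Fermat.Agent.Cor.NOS
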