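import Fermat.Agent.Corollaries.NOS.Invar
import Fermat.Agent.Corollaries.NOS.Two
import Fermat.Agent.Corollaries.MinModel
import Fermat.Agent.S41.VarChange

/-!
# The criterion of Néron-Ogg-Shafarevich in Mathlib's terms

For an elliptic curve `E` over `ℚ` and a prime `ℓ` the minimal equation over `ℤ_[ℓ]` has good
(multiplicative, additive) reduction in Mathlib's sense iff an equation over `ℤ` with minimal
`|Δ|` has.
-/

set_option autoImplicit false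

noncomputable section

open WeierstrassCurve WeierstrassCurve.Affine
open Fermat.Agent.ECRed
open Fermat.Agent.Cor.Mazur (Pt)
open Fermat.Agent.Cor.K1 (Gam Pts)
open Fermat.Agent.Cor.MinModel

namespace Fermat.Agent.Cor.NOS

/-! ### The reduction type of the local minimal model -/

section Loc

variable {ℓ : ℕ} [hℓ : Fact ℓ.Prime]

/-- The local minimal model of `E` at `ℓ`. -/
abbrev Min (E : WeierstrassCurve ℚ) (ℓ : ℕ) [Fact ℓ.Prime] : WeierstrassCurve ℚ_[ℓ] :=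
  (E.map (algebraMap ℚ ℚ_[ℓ])).minimal ℤ_[ℓ]

/-- The valuation of `ℚ_[ℓ]`. -/
abbrev vl (ℓ : ℕ) [Fact ℓ.Prime] : Valuation ℚ_[ℓ] (WithZero (Multiplicative ℤ)) :=
  IsDedekindDomain.HeightOneSpectrum.valuation ℚ_[ℓ] (IsDiscreteValuationRing.maximalIdeal ℤ_[ℓ])

theorem vl_int_le (m : ℤ) : vl ℓ (m : ℚ_[ℓ]) ≤ 1 := by
  have e : (m : ℚ_[ℓ]) = algebraMap ℤ_[ℓ] ℚ_[ℓ] (m : ℤ_[ℓ]) := (PadicInt.coe_intCast _).symm
  rw [e]
  exact IsDedekindDomain.HeightOneSpectrum.valuation_le_one _ _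

theorem vl_int_lt_iff (m : ℤ) : vl ℓ (m : ℚ_[ℓ]) < 1 ↔ (ℓ : ℤ) ∣ m := by
  have e : (m : ℚ_[ℓ]) = algebraMap ℤ_[ℓ] ℚ_[ℓ] (m : ℤ_[ℓ]) := (PadicInt.coe_intCast _).symm
  rw [e, IsDedekindDomain.HeightOneSpectrum.valuation_lt_one_iff_mem]
  change (m : ℤ_[ℓ]) ∈ IsLocalRing.maximalIdeal ℤ_[ℓ] ↔ _
  rw [IsLocalRing.mem_maximalIdeal, PadicInt.mem_nonunits]
  exact PadicInt.norm_int_lt_one_iff_dvd m

theorem vl_int_eq_iff (m : ℤ) : vl ℓ (m : ℚ_[ℓ]) = 1 ↔ ¬ (ℓ : ℤ) ∣ m := by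
  rw [← vl_int_lt_iff (ℓ := ℓ) m, not_lt]
  exact ⟨fun h => h.ge, fun h => le_antisymm (vl_int_le m) h⟩

/-- Two minimal equations of the same curve differ by a change of variables with a unit `u`. -/
theorem vl_u_eq_one {V : WeierstrassCurve ℚ_[ℓ]} (hV : V.Δ ≠ 0) [h1 : V.IsMinimal ℤ_[ℓ]]
    {C : VariableChange ℚ_[ℓ]} [h2 : (C • V).IsMinimal ℤ_[ℓ]] :
    vl ℓ (((C.u)⁻¹ : (ℚ_[ℓ])ˣ) : ℚ_[ℓ]) = 1 := by
  have i1 : V.IsIntegral ℤ_[ℓ] := inferInstance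
  have i2 : (C • V).IsIntegral ℤ_[ℓ] := inferInstance
  have k1 : valuation_Δ_aux ℤ_[ℓ] (C • V) ≤ valuation_Δ_aux ℤ_[ℓ] V := by
    have h := h1.val_Δ_maximal.2 (j := C) i2
    beta_reduce at h
    rw [one_smul] at h
    rcases le_total (valuation_Δ_aux ℤ_[ℓ] (C • V)) (valuation_Δ_aux ℤ_[ℓ] V) with h' | h'
    · exact h'
    · exact h h'
  have k2 : valuation_Δ_aux ℤ_[ℓ] V ≤ valuation_Δ_aux ℤ_[ℓ] (C • V) := by
    have i3 : (C⁻¹ • (C • V)).IsIntegral ℤ_[ℓ] := by rwa [inv_smul_smul]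
    have h := h2.val_Δ_maximal.2 (j := C⁻¹) i3
    beta_reduce at h
    rw [one_smul, inv_smul_smul] at h
    rcases le_total (valuation_Δ_aux ℤ_[ℓ] V) (valuation_Δ_aux ℤ_[ℓ] (C • V)) with h' | h'
    · exact h'
    · exact h h'
  have k3 : vl ℓ (C • V).Δ = vl ℓ V.Δ := by
    rw [← valuation_Δ_aux_eq_of_isIntegral, ← valuation_Δ_aux_eq_of_isIntegral, le_antisymm k1 k2]
  rw [variableChange_Δ, map_mul, map_pow] at k3
  have hne : vl ℓ V.Δ ≠ 0 := (Valuation.ne_zero_iff _).mpr hV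
  have k4 : vl ℓ (((C.u)⁻¹ : (ℚ_[ℓ])ˣ) : ℚ_[ℓ]) ^ 12 = 1 := mul_eq_right₀ hne |>.mp k3
  exact (pow_eq_one_iff_of_nonneg zero_le (by norm_num)).mp k4

/-- The local minimal model comes from the global equation with minimal `|Δ|`. -/
theorem exists_change (E : WeierstrassCurve ℚ) {W : WeierstrassCurve ℤ} (h : IsDiscMinimal W E) :
    ∃ C : VariableChange ℚ_[ℓ], C • loc ℓ W = Min E ℓ := by
  obtain ⟨C₁, hC₁⟩ := h.1
  set C₂ := ((E.map (algebraMap ℚ ℚ_[ℓ])).exists_isMinimal ℤ_[ℓ]).choose with hC₂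
  have hmin : Min E ℓ = C₂ • E.map (algebraMap ℚ ℚ_[ℓ]) := rfl
  have hloc : loc ℓ W = C₁.map (algebraMap ℚ ℚ_[ℓ]) • E.map (algebraMap ℚ ℚ_[ℓ]) := by
    rw [map_variableChange, hC₁, map_map]
    congr 1
  refine ⟨C₂ * (C₁.map (algebraMap ℚ ℚ_[ℓ]))⁻¹, ?_⟩
  rw [hloc, ← mul_smul, mul_assoc, inv_mul_cancel, mul_one, hmin]

theorem vl_min {E : WeierstrassCurve ℚ} (hE : E.Δ ≠ 0) {W : WeierstrassCurve ℤ}
    (h : IsDiscMinimal W E) :
    vl ℓ (Min E ℓ).Δ = vl ℓ (W.Δ : ℚ_[ℓ]) ∧ vl ℓ (Min E ℓ).c₄ = vl ℓ (W.c₄ : ℚ_[ℓ]) := by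
  obtain ⟨C, hC⟩ := exists_change (ℓ := ℓ) E h
  have hW : (loc ℓ W).IsMinimal ℤ_[ℓ] := h.isMinimal hE
  have hCm : (C • loc ℓ W).IsMinimal ℤ_[ℓ] := by
    rw [hC]
    infer_instance
  have hΔ : (loc ℓ W).Δ ≠ 0 := by
    rw [map_Δ, eq_intCast]
    exact_mod_cast Δ_ne_zero_of_model hE h.1
  have hu := vl_u_eq_one (ℓ := ℓ) hΔ (C := C)
  rw [← hC, variableChange_Δ, variableChange_c₄, map_mul, map_mul, map_pow, map_pow, hu, one_pow,
    one_pow, one_mul, one_mul, map_Δ, map_c₄, eq_intCast, eq_intCast]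
  exact ⟨rfl, rfl⟩

theorem hasGoodReduction_iff_not_dvd {E : WeierstrassCurve ℚ} (hE : E.Δ ≠ 0)
    {W : WeierstrassCurve ℤ} (h : IsDiscMinimal W E) :
    (Min E ℓ).HasGoodReduction ℤ_[ℓ] ↔ ¬ (ℓ : ℤ) ∣ W.Δ := by
  rw [hasGoodReduction_iff, ← vl_int_eq_iff (ℓ := ℓ), ← (vl_min hE h).1]
  exact ⟨fun h => h.2, fun h => ⟨inferInstance, h⟩⟩

theorem hasMultiplicativeReduction_iff_dvd {E : WeierstrassCurve ℚ} (hE : E.Δ ≠ 0)
    {W : WeierstrassCurve ℤ} (h : IsDiscMinimal W E) :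
    (Min E ℓ).HasMultiplicativeReduction ℤ_[ℓ] ↔ (ℓ : ℤ) ∣ W.Δ ∧ ¬ (ℓ : ℤ) ∣ W.c₄ := by
  rw [hasMultiplicativeReduction_iff, ← vl_int_lt_iff (ℓ := ℓ), ← vl_int_eq_iff (ℓ := ℓ),
    ← (vl_min hE h).1, ← (vl_min hE h).2]
  exact ⟨fun h => h.2, fun h => ⟨inferInstance, h⟩⟩

theorem hasAdditiveReduction_iff_dvd {E : WeierstrassCurve ℚ} (hE : E.Δ ≠ 0)
    {W : WeierstrassCurve ℤ} (h : IsDiscMinimal W E) :
    (Min E ℓ).HasAdditiveReduction ℤ_[ℓ] ↔ IsAdditiveAt W ℓ := by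
  unfold IsAdditiveAt
  rw [hasAdditiveReduction_iff, ← vl_int_lt_iff (ℓ := ℓ), ← vl_int_lt_iff (ℓ := ℓ),
    ← (vl_min hE h).1, ← (vl_min hE h).2]
  exact ⟨fun h => h.2, fun h => ⟨inferInstance, h⟩⟩

end Loc

/-- An equation with minimal `|Δ|` is minimal at every prime. -/
theorem minimalAt_of_isDiscMinimal {E : WeierstrassCurve ℚ} (hE : E.Δ ≠ 0)
    {W : WeierstrassCurve ℤ} (h : IsDiscMinimal W E) {ℓ : ℕ} (hℓ : ℓ.Prime) : MinimalAt W ℓ := by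
  by_contra hmin
  obtain ⟨W₁, C, hC, h1, -⟩ := exists_model_of_not_minimalAt hℓ hmin
  obtain ⟨⟨C₁, hC₁⟩, hle⟩ := h
  have hW₁ : W₁.IsIntegralModelOf E := ⟨C * C₁, by rw [mul_smul, hC₁, hC]⟩
  have h2 := hle W₁ hW₁
  have h3 : 0 < W₁.Δ.natAbs := Int.natAbs_pos.mpr (Δ_ne_zero_of_model hE hW₁)
  rw [h1, Int.natAbs_mul, Int.natAbs_pow, Int.natAbs_natCast] at h2
  have h4 : 2 ≤ ℓ ^ 12 := hℓ.two_le.trans (Nat.le_self_pow (by norm_num) ℓ)
  nlinarith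

/-! ### The criteria -/

section Crit

variable {E : WeierstrassCurve ℚ} (hE : E.Δ ≠ 0) {ℓ : ℕ} [hℓ : Fact ℓ.Prime]
  {A : ValuationSubring (AlgebraicClosure ℚ)} (hA : A.LiesOverPrime ℓ) {p : ℕ}

include hE in
/-- A minimal equation over `ℤ` and the isomorphism on points. -/
theorem exists_model : ∃ W : WeierstrassCurve ℤ, IsDiscMinimal W E ∧ W.Δ ≠ 0 ∧
    ∃ e : Pt W ≃+ Pts E, ∀ (σ : Gam) (P : Pt W), e (σ • P) = σ • e P := by
  obtain ⟨W, hW⟩ := exists_isDiscMinimal E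
  obtain ⟨C, hC⟩ := hW.1
  obtain ⟨e, he⟩ := S41vc.exists_equiv_galois hE hC
  exact ⟨W, hW, Δ_ne_zero_of_model hE hW.1, e, he⟩

include hE hA in
/-- **The criterion of Néron-Ogg-Shafarevich.** An elliptic curve over `ℚ` has good reduction at
`ℓ` iff the inertia group of a place above `ℓ` acts trivially on its points of `p`-power order,
for one prime `p ≠ ℓ` (that is, iff the `p`-adic Tate module is unramified at `ℓ`). -/
theorem neron_ogg_shafarevich (hp : p.Prime) (hne : p ≠ ℓ) :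
    (Min E ℓ).HasGoodReduction ℤ_[ℓ] ↔ ∀ (n : ℕ) (P : Pts E), p ^ n • P = 0 →
      ∀ σ ∈ A.inertiaSubgroupIn ℚ, σ • P = P := by
  obtain ⟨W, hW, hΔ, e, he⟩ := exists_model hE
  rw [hasGoodReduction_iff_not_dvd hE hW, good_iff_all hΔ hℓ.out
    (minimalAt_of_isDiscMinimal hE hW hℓ.out) hA hp hne]
  constructor
  · intro h n P hP σ hσ
    have h1 := h n (e.symm P) (by rw [← map_nsmul, hP, _root_.map_zero]) σ hσ
    have h2 := congrArg e h1
    rwa [he, AddEquiv.apply_symm_apply] at h2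
  · intro h n P hP σ hσ
    apply e.injective
    rw [he]
    exact h n (e P) (by rw [← map_nsmul, hP, _root_.map_zero]) σ hσ

include hE hA in
/-- **The criterion of semistability.** -/
theorem not_hasAdditiveReduction_iff (hp : p.Prime) (hp5 : 5 ≤ p) (hne : p ≠ ℓ) :
    ¬ (Min E ℓ).HasAdditiveReduction ℤ_[ℓ] ↔
      ∃ P : Pts E, addOrderOf P = p ∧ ∀ σ ∈ A.inertiaSubgroupIn ℚ, σ • P = P := by
  obtain ⟨W, hW, hΔ, e, he⟩ := exists_model hE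
  have hfact : Fact p.Prime := ⟨hp⟩
  rw [hasAdditiveReduction_iff_dvd hE hW, semistable_iff hΔ hℓ.out
    (minimalAt_of_isDiscMinimal hE hW hℓ.out) hA hp hp5 hne]
  constructor
  · rintro ⟨P, hP0, hpP, hfix⟩
    refine ⟨e P, ?_, fun σ hσ => by rw [← he, hfix σ hσ]⟩
    rw [← addOrderOf_eq_prime hpP hP0]
    exact addOrderOf_injective e.toAddMonoidHom e.injective P
  · rintro ⟨P, hP, hfix⟩
    refine ⟨e.symm P, fun h => ?_, ?_, fun σ hσ => ?_⟩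
    · have h1 : P = 0 := by rw [← e.apply_symm_apply P, h, _root_.map_zero]
      rw [h1, addOrderOf_zero] at hP
      exact hp.ne_one hP.symm
    · rw [← map_nsmul, ← hP, addOrderOf_nsmul_eq_zero, _root_.map_zero]
    · apply e.injective
      rw [he, AddEquiv.apply_symm_apply, hfix σ hσ]

include hE hA in
/-- **Torsion and semistability.** A point of order `N ≥ 5`, prime to `ℓ`, fixed by inertia (for
instance a rational point) excludes additive reduction at `ℓ`. -/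
theorem not_hasAdditiveReduction_of_point {P : Pts E} (h5 : 5 ≤ addOrderOf P)
    (hℓP : ¬ ℓ ∣ addOrderOf P) (hfix : ∀ σ ∈ A.inertiaSubgroupIn ℚ, σ • P = P) :
    ¬ (Min E ℓ).HasAdditiveReduction ℤ_[ℓ] := by
  obtain ⟨W, hW, hΔ, e, he⟩ := exists_model hE
  have h1 : addOrderOf (e.symm P) = addOrderOf P :=
    addOrderOf_injective e.symm.toAddMonoidHom e.symm.injective P
  rw [hasAdditiveReduction_iff_dvd hE hW]
  refine not_isAdditiveAt_of_point hΔ hℓ.out (minimalAt_of_isDiscMinimal hE hW hℓ.out) hA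
    (P := e.symm P) (by rwa [h1]) (by rwa [h1]) fun σ hσ => ?_
  apply e.injective
  rw [he, AddEquiv.apply_symm_apply, hfix σ hσ]

end Crit

/-! ### Isogenies -/

section Isogeny

variable {E E' : WeierstrassCurve ℚ} (hE : E.Δ ≠ 0) (hE' : E'.Δ ≠ 0)
  (φ : Pts E →+ Pts E') (hker : Finite φ.ker)
  (hφ : ∀ (σ : Gam) (x : Pts E), φ (σ • x) = σ • φ x) (ℓ : ℕ) [hℓ : Fact ℓ.Prime]

include hE hE' hker hφ

/-- The type of reduction at `ℓ` of isogenous elliptic curves over `ℚ`. -/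
theorem reduction_iff :
    ((Min E ℓ).HasGoodReduction ℤ_[ℓ] ↔ (Min E' ℓ).HasGoodReduction ℤ_[ℓ]) ∧
    ((Min E ℓ).HasMultiplicativeReduction ℤ_[ℓ] ↔
      (Min E' ℓ).HasMultiplicativeReduction ℤ_[ℓ]) ∧
    ((Min E ℓ).HasAdditiveReduction ℤ_[ℓ] ↔ (Min E' ℓ).HasAdditiveReduction ℤ_[ℓ]) := by
  obtain ⟨W, hW, hΔ, e, he⟩ := exists_model hE
  obtain ⟨W', hW', hΔ', e', he'⟩ := exists_model hE'
  let ψ : Pt W →+ Pt W' := (e'.symm.toAddMonoidHom.comp φ).comp e.toAddMonoidHom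
  have hψx : ∀ x : Pt W, ψ x = e'.symm (φ (e x)) := fun x => rfl
  have hψ : ∀ (σ : Gam) (x : Pt W), ψ (σ • x) = σ • ψ x := by
    intro σ x
    apply e'.injective
    rw [he', hψx, hψx, AddEquiv.apply_symm_apply, AddEquiv.apply_symm_apply, he, hφ]
  have hker' : Finite ψ.ker := by
    refine Finite.of_injective (fun x : ψ.ker => (⟨e x.1, ?_⟩ : φ.ker)) ?_
    · have h1 : ψ x.1 = 0 := x.2
      rw [hψx] at h1
      have h2 := congrArg e' h1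
      rwa [AddEquiv.apply_symm_apply, _root_.map_zero] at h2
    · intro x y h
      exact Subtype.ext (e.injective (congrArg Subtype.val h))
  have hm := minimalAt_of_isDiscMinimal hE hW hℓ.out
  have hm' := minimalAt_of_isDiscMinimal hE' hW' hℓ.out
  have h1 := isAdditiveAt_iff hΔ hΔ' hℓ.out hm hm' ψ hker' hψ
  have h2 := dvd_Δ_iff hΔ hΔ' hℓ.out hm hm' ψ hker' hψ
  refine ⟨?_, ?_, ?_⟩
  · rw [hasGoodReduction_iff_not_dvd hE hW, hasGoodReduction_iff_not_dvd hE' hW', not_iff_not]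
    exact h2
  · rw [hasMultiplicativeReduction_iff_dvd hE hW, hasMultiplicativeReduction_iff_dvd hE' hW']
    unfold IsAdditiveAt at h1
    tauto
  · rw [hasAdditiveReduction_iff_dvd hE hW, hasAdditiveReduction_iff_dvd hE' hW']
    exact h1

end Isogeny

end Fermat.Agent.Cor.NOS
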