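import Fermat.Agent.Corollaries.NOS.Almost
import Fermat.Agent.S34

/-!
# Additive reduction and the square of a prime in the level

`f` a normalised eigenform of weight two and level `N`, `W` an integral model of an elliptic curve
over `ℚ` with `a_ℓ(f) = a_ℓ(W)` for almost all `ℓ`. Let `q` be a prime which divides `N` exactly once.
Inertia at `q` acts unipotently on the torsion of `J₀(N)` of order prime to `q`; by the
Eichler-Shimura relation, the density of Frobenius elements and the faithfulness of the Hecke algebra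
on `J₀(N)[p^∞]` the representation `W[p]` has trace two on inertia at `q`. So `W` is semistable at `q`.

* `trace_eq_two_of_exact` : `tr = 2` on inertia at `q ∥ N`, for every `p ≠ q`;
* `not_isAdditiveAt_of_exact` : no additive reduction at `q`;
* `sq_dvd_of_isAdditiveAt` : if `W`, minimal at `q`, is modular of level `N` and has additive reduction
  at `q`, then `q² ∣ N`.
-/

set_option autoImplicit false
set_option linter.style.haveILetI false

noncomputable section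

open Polynomial WeierstrassCurve
open Fermat.Agent Fermat.Agent.ECFrob Fermat.Agent.Torsion Fermat.Agent.ECRed Fermat.Agent.Ribet
open ModularFormClass CongruenceSubgroup
open CuspForm ModularCurve Fermat.Agent.GalRep

namespace Fermat.Agent.Cor.NOS

/-- Two names for the trace of a power. -/
theorem lucas_eq_tk {R : Type*} [CommRing R] (t d : R) : ∀ n : ℕ, lucas t d n = tk t d n
  | 0 => by rw [lucas, tk_zero]
  | 1 => by rw [lucas, tk_one]
  | (n + 2) => by rw [lucas, tk, lucas_eq_tk t d (n + 1), lucas_eq_tk t d n]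

/-- An integer which is `p` times an algebraic integer is divisible by `p`. -/
theorem dvd_of_eq_mul_isIntegral {p : ℕ} (hp : p ≠ 0) {n : ℤ} {z : ℂ} (hz : IsIntegral ℤ z)
    (h : (n : ℂ) = p * z) : (p : ℤ) ∣ n := by
  have hpC : (p : ℂ) ≠ 0 := by exact_mod_cast hp
  have hpQ : (p : ℚ) ≠ 0 := by exact_mod_cast hp
  have h1 : z = algebraMap ℚ ℂ ((n : ℚ) / p) := by
    rw [eq_ratCast]
    push_cast
    rw [eq_div_iff hpC, h]
    ring
  rw [h1, isIntegral_algebraMap_iff (algebraMap ℚ ℂ).injective] at hz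
  obtain ⟨m, hm⟩ := IsIntegrallyClosed.isIntegral_iff.mp hz
  refine ⟨m, ?_⟩
  rw [eq_intCast, eq_div_iff hpQ] at hm
  have h2 : (n : ℚ) = ((p * m : ℤ) : ℚ) := by
    push_cast
    rw [← hm]
    ring
  exact_mod_cast h2

theorem sub_two_smul_one {P E : Type*} [CommRing P] [Ring E] [Algebra P E] {t : P} {x y : E}
    (h1 : x * x = t • x - 1) (h2 : x * x = x + x - 1) (h3 : x * y = 1) :
    (t - 2) • (1 : E) = 0 := by
  have h4 : (t - 2) • x = 0 := by
    rw [sub_smul, two_smul]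
    have h5 := h1.symm.trans h2
    rw [sub_left_inj] at h5
    rw [h5, sub_self]
  rw [← h3, ← smul_mul_assoc, h4, zero_mul]

/-- If `τ` acts unipotently on `J[p^m]` and agrees there and on `μ_(p^m)` with the `k`-th power of a
Frobenius at `ℓ`, then the `k`-th trace polynomial at `ℓ` is `2` on `J[p^m]`. -/
theorem tracePoly_sub_two_smul {N p : ℕ} [NeZero N] {S₀ : Finset ℕ}
    {J : Type*} [AddCommGroup J] [Module HeckeAlg J] [DistribMulAction GQ J]
    [SMulCommClass GQ HeckeAlg J] (hJ : ESInput N p (↑S₀ : Set ℕ) J)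
    {m ℓ k : ℕ} (hℓ : ℓ.Prime) (hℓS : ℓ ∉ S₀) (hnd : ¬ ℓ ∣ N * p)
    {B : ValuationSubring (AlgebraicClosure ℚ)} (hB : B.LiesOverPrime ℓ) {φ τ : GQ}
    (hφ : B.IsFrobeniusAt φ ℓ) {L : IntermediateField ℚ (AlgebraicClosure ℚ)}
    (hL : ∀ σ : GQ, (∀ x ∈ L, σ x = x) → ∀ x : J, p ^ m • x = 0 → σ • x = x)
    (hk : ∀ x ∈ L, (φ ^ k) x = τ x)
    (hcong : ((ℓ ^ k : ℕ) : ZMod (p ^ m)) = ((1 : ℕ) : ZMod (p ^ m)))
    (hU : ∀ x : J, p ^ m • x = 0 → τ • (τ • x - x) = τ • x - x)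
    {x : J} (hx : p ^ m • x = 0) :
    inclS (↑S₀ : Set ℕ) (tracePoly S₀ ℓ hℓ hℓS k - 2) • x = 0 := by
  have hg : actTors J p m (φ ^ k) = actTors J p m τ := actTors_eq_of_agree hL hk
  have e := actTors_quadratic (N := N) (J := J) hJ.frobenius m hℓ hnd hB hφ k
  have hz := algebraMap_eq_of_congr (J := J) (p := p) m hcong
  rw [Nat.cast_pow, Nat.cast_one, map_one] at hz
  rw [hg, hz] at e
  have hu : actTors J p m τ * actTors J p m τ = actTors J p m τ + actTors J p m τ - 1 := by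
    refine LinearMap.ext fun x => Subtype.ext ?_
    have h2 := hU x x.2
    rw [smul_sub] at h2
    change τ • τ • (x : J) = τ • (x : J) + τ • (x : J) - (x : J)
    have h3 : τ • τ • (x : J) = τ • (x : J) + (τ • (x : J) - x) := by
      rw [← h2]; abel
    rw [h3]; abel
  have hinv : actTors J p m τ * actTors J p m τ⁻¹ = 1 := by
    rw [← map_mul, mul_inv_cancel, map_one]
  have hkey := sub_two_smul_one (P := HeckeAlg) (E := Module.End HeckeAlg (torsSub J p m))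
    (x := actTors J p m τ) (y := actTors J p m τ⁻¹) e hu hinv
  have h1 := congrArg (fun g : Module.End HeckeAlg (torsSub J p m) =>
    ((g (⟨x, hx⟩ : torsSub J p m) : torsSub J p m) : J)) hkey
  rw [map_sub, map_ofNat, inclS_tracePoly]
  exact h1

variable {W : WeierstrassCurve ℤ} {N : ℕ} {f : CuspForm (Gamma0 N) 2} {S : Set ℕ}

/-- **The trace on inertia at a prime which divides the level exactly once.** -/
theorem trace_eq_two_of_exact (hN : N ≠ 0) (hf : f.IsNormalizedEigenform) (hΔ : W.Δ ≠ 0)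
    (hS : S.Finite)
    (hcong : ∀ q : ℕ, q.Prime → q ∉ S → W.IsGoodPrimeFor q →
      qCoeff f q = ((W.apOfModel q : ℤ) : ℂ))
    {p : ℕ} [hp : Fact p.Prime] {q : ℕ} (hq : q.Prime) (hqp : q ≠ p) (hqN : q ∣ N)
    (hq2 : ¬ q ^ 2 ∣ N) {A : ValuationSubring (AlgebraicClosure ℚ)} (hA : A.LiesOverPrime q)
    {τ : AlgebraicClosure ℚ ≃ₐ[ℚ] AlgebraicClosure ℚ} (hτ : τ ∈ A.inertiaSubgroupIn ℚ) :
    LinearMap.trace (ZMod p) _ (rho W p τ) = 2 := by
  classical
  haveI : NeZero N := ⟨hN⟩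
  have hfin : (S ∪ {p} ∪ {r | r ∣ N} ∪ {r | (r : ℤ) ∣ W.Δ} : Set ℕ).Finite := by
    refine Set.Finite.union (Set.Finite.union (hS.union (Set.finite_singleton p)) ?_) ?_
    · refine (Finset.finite_toSet (N.divisors)).subset fun ℓ hℓ => ?_
      rw [Finset.mem_coe, Nat.mem_divisors]
      exact ⟨hℓ, hN⟩
    · refine (Finset.finite_toSet (W.Δ.natAbs.divisors)).subset fun ℓ hℓ => ?_
      rw [Finset.mem_coe, Nat.mem_divisors]
      exact ⟨Int.natCast_dvd.mp hℓ, Int.natAbs_ne_zero.mpr hΔ⟩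
  obtain ⟨S₀, hS₀⟩ : ∃ S₀ : Finset ℕ, ∀ r, r ∈ S₀ ↔ ((r ∈ S ∨ r = p) ∨ r ∣ N) ∨ (r : ℤ) ∣ W.Δ := by
    refine ⟨hfin.toFinset, fun r => ?_⟩
    simp only [Set.Finite.mem_toFinset, Set.mem_union, Set.mem_ofPred_eq, Set.mem_singleton_iff]
  have hpS : p ∈ S₀ := (hS₀ p).mpr (Or.inl (Or.inl (Or.inr rfl)))
  have hNS : ∀ r : ℕ, r.Prime → r ∣ N → r ∈ S₀ := fun r _ hr =>
    (hS₀ r).mpr (Or.inl (Or.inr hr))
  letI := heckeModuleBar N
  haveI := Cofaith.smulCommClass_JZero N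
  have hES : ESInput N p (↑S₀ : Set ℕ) (JZero N) :=
    Cofaith.esInput_JZero N hp.out (↑S₀ : Set ℕ) (fun ℓ hℓ hd => by simpa using hNS ℓ hℓ hd)
      (Fermat.Agent.S37aux.specializationExists_of N p
        (Fermat.Agent.HeckeComm.heckeOperatorsCommuteBar N)
        (fun ℓ hℓ hN A hA => Fermat.Agent.S37aux.bareRed N ℓ hℓ A hA hN)
        (Fermat.Agent.Cofaith.smulCommClass_JZero N))
  have hU := S34aux.inertiaUnipotent_JZero (N := N) hq hp.out hqp hqN hq2
  obtain ⟨m, hm⟩ := hES.faithful 1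
  have hpm0 : p ^ m ≠ 0 := pow_ne_zero _ hp.out.ne_zero
  haveI : NeZero (p ^ m) := ⟨hpm0⟩
  obtain ⟨ζ, hζ⟩ := HasEnoughRootsOfUnity.exists_primitiveRoot (AlgebraicClosure ℚ) (p ^ m)
  obtain ⟨L₁, hL₁fin, hL₁⟩ := galoisRep_factors (map_Δ_ne_zero hΔ) hp.out.ne_zero
  obtain ⟨L₂, hL₂fin, hL₂⟩ := hES.finiteLevel m
  set L₃ : IntermediateField ℚ (AlgebraicClosure ℚ) := IntermediateField.adjoin ℚ {ζ} with hL₃
  haveI := hL₁fin
  haveI := hL₂fin
  haveI hL₃fin : FiniteDimensional ℚ L₃ :=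
    IntermediateField.adjoin.finiteDimensional ((Algebra.IsAlgebraic.isAlgebraic ζ).isIntegral)
  set L : IntermediateField ℚ (AlgebraicClosure ℚ) := L₁ ⊔ L₂ ⊔ L₃ with hLdef
  have hle₁ : L₁ ≤ L := le_sup_left.trans le_sup_left
  have hle₂ : L₂ ≤ L := le_sup_right.trans le_sup_left
  have hle₃ : L₃ ≤ L := le_sup_right
  have hζL : ζ ∈ L := hle₃ (IntermediateField.mem_adjoin_simple_self ℚ ζ)
  obtain ⟨ℓ, hℓ, hℓS, B, hB, φ, hφ, k, hk⟩ := frobeniusDensity L inferInstance τ S₀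
  have hℓS' := hℓS
  rw [hS₀] at hℓS'
  push Not at hℓS'
  obtain ⟨⟨⟨hℓ1, hℓp⟩, hℓN⟩, hℓW⟩ := hℓS'
  have hnd : ¬ ℓ ∣ N * p := by
    intro hdvd
    rcases (Nat.Prime.dvd_mul hℓ).mp hdvd with h | h
    · exact hℓN h
    · exact hℓp ((Nat.prime_dvd_prime_iff_eq hℓ hp.out).mp h)
  have hcop : Nat.Coprime q (p ^ m) := ((Nat.coprime_primes hq hp.out).mpr hqp).pow_right m
  have hτζ : τ ζ = ζ := inertia_fix_rootOfUnity hA hcop hpm0 hτ hζ.pow_eq_one
  have hφζ : ζ ^ (ℓ ^ k) = ζ ^ 1 := by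
    rw [← frobenius_pow_zeta p hp.out m hζ hℓ hℓp hB hφ k, pow_one, hk ζ hζL, hτζ]
  have hmem := hm (tracePoly S₀ ℓ hℓ hℓS k - 2) (fun x hx =>
    tracePoly_sub_two_smul hES hℓ hℓS hnd hB hφ hL₂ (fun x hx => hk x (hle₂ hx))
      (natCast_eq_of_pow_eq p hp.out m hζ hφζ) (hU A hA τ hτ m) hx)
  rw [pow_one, Ideal.mem_span_singleton] at hmem
  obtain ⟨c, hc⟩ := hmem
  -- the character of `f`
  have hval : ((tk (W.apOfModel ℓ : ℤ) (ℓ : ℤ) k - 2 : ℤ) : ℂ) =
      p * Fermat.Agent.S29aux.eigenChar hf (↑S₀ : Set ℕ) c := by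
    have h1 := congrArg (Fermat.Agent.S29aux.eigenChar hf (↑S₀ : Set ℕ)) hc
    rw [map_sub, map_ofNat, evS_tracePoly ℓ hℓ hℓS hℓN, map_sub, map_ofNat, map_tk, map_natCast,
      Fermat.Agent.S29aux.eigenChar_T hf _ hℓ hℓN (by simpa using hℓS), map_mul, map_natCast,
      hcong ℓ hℓ hℓ1 hℓW] at h1
    rw [← h1]
    push_cast
    congr 1
    exact map_tk (Int.castRingHom ℂ) _ _ _
  have hint : IsIntegral ℤ (Fermat.Agent.S29aux.eigenChar hf (↑S₀ : Set ℕ) c) := by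
    haveI := Fermat.Agent.S22.result N 2 (↑S₀ : Set ℕ)
    have h1 : IsIntegral ℤ c := Algebra.IsIntegral.isIntegral c
    exact h1.map (Fermat.Agent.S29aux.eigenChar hf (↑S₀ : Set ℕ)).toIntAlgHom
  have hdvd := dvd_of_eq_mul_isIntegral hp.out.ne_zero hint hval
  -- the trace on `W[p]`
  haveI : Fact ℓ.Prime := ⟨hℓ⟩
  have e1 : rho W p τ = (rho W p φ) ^ k := by
    rw [← map_pow]
    have h2 : rho W p ((φ ^ k)⁻¹ * τ) = 1 := by
      apply hL₁
      intro x hx
      show (φ ^ k).symm (τ x) = x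
      rw [← hk x (hle₁ hx), (φ ^ k).symm_apply_apply]
    rw [map_mul] at h2
    have h4 : rho W p (φ ^ k) * rho W p (φ ^ k)⁻¹ = 1 := by
      rw [← map_mul, mul_inv_cancel, map_one]
    calc rho W p τ = (rho W p (φ ^ k) * rho W p (φ ^ k)⁻¹) * rho W p τ := by rw [h4, one_mul]
      _ = rho W p (φ ^ k) := by rw [mul_assoc, h2, mul_one]
  rw [e1, trace_pow_eq_lucas (finrank_rat hΔ), trace_rho_frobenius hℓW hB hφ hℓp,
    det_rho_frobenius hℓW hB hφ hℓp, lucas_eq_tk]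
  have h5 := (ZMod.intCast_zmod_eq_zero_iff_dvd _ _).mpr hdvd
  rw [Int.cast_sub, sub_eq_zero] at h5
  have h6 := map_tk (Int.castRingHom (ZMod p)) (W.apOfModel ℓ : ℤ) (ℓ : ℤ) k
  rw [eq_intCast, eq_intCast, eq_intCast, Int.cast_natCast] at h6
  rw [← h6, h5]
  norm_num

/-- **No additive reduction at a prime which divides the level exactly once.** -/
theorem not_isAdditiveAt_of_exact (hN : N ≠ 0) (hf : f.IsNormalizedEigenform) (hΔ : W.Δ ≠ 0)
    (hS : S.Finite)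
    (hcong : ∀ q : ℕ, q.Prime → q ∉ S → W.IsGoodPrimeFor q →
      qCoeff f q = ((W.apOfModel q : ℤ) : ℂ))
    {q : ℕ} (hq : q.Prime) (hmin : MinimalAt W q) (hq2 : ¬ q ^ 2 ∣ N) : ¬ IsAdditiveAt W q := by
  by_cases hqN : q ∣ N
  swap
  · exact not_isAdditiveAt_of_almost hN hf hΔ hS hcong hq hmin hqN
  have key : ∀ p : ℕ, p.Prime → 5 ≤ p → q ≠ p → ¬ IsAdditiveAt W q := by
    intro p hp hp5 hqp
    have : Fact p.Prime := ⟨hp⟩
    obtain ⟨A, hA⟩ := Fermat.Agent.Frob.exists_liesOverPrime q hq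
    have htrace : ∀ σ ∈ A.inertiaSubgroupIn ℚ, LinearMap.trace (ZMod p) _ (rho W p σ) = 2 :=
      fun σ hσ => trace_eq_two_of_exact hN hf hΔ hS hcong hq hqp hqN hq2 hA hσ
    have h2 : (2 : ZMod p) ≠ 0 := by
      intro h0
      have h1 : ((2 : ℕ) : ZMod p) = 0 := by exact_mod_cast h0
      rw [ZMod.natCast_eq_zero_iff] at h1
      have := Nat.le_of_dvd two_pos h1
      omega
    refine not_isAdditiveAt_of_rho hΔ hq hmin hp5 hqp hA fun σ hσ => ?_
    refine sub_one_mul_self_eq_zero h2 (finrank_rat hΔ) (htrace σ hσ) ?_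
    rw [← map_mul]
    exact htrace (σ * σ) (mul_mem hσ hσ)
  by_cases h5 : q = 5
  · exact key 7 (by norm_num) (by norm_num) (by omega)
  · exact key 5 (by norm_num) le_rfl h5

/-- **The square of every prime of additive reduction divides the level.** -/
theorem sq_dvd_of_isAdditiveAt (hN : N ≠ 0) (hΔ : W.Δ ≠ 0) (h : W.IsModularModelOfLevel N)
    {q : ℕ} (hq : q.Prime) (hmin : MinimalAt W q) (hadd : IsAdditiveAt W q) : q ^ 2 ∣ N := by
  by_contra hq2
  obtain ⟨f, hf, hfa⟩ := h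
  have hS : {r | r ∣ N}.Finite := by
    refine (Finset.finite_toSet (N.divisors)).subset fun ℓ hℓ => ?_
    rw [Finset.mem_coe, Nat.mem_divisors]
    exact ⟨hℓ, hN⟩
  exact not_isAdditiveAt_of_exact hN hf hΔ hS
    (fun r hr hrN hgood => hfa r hr hgood hrN) hq hmin hq2 hadd

/-- **An elliptic curve over `ℚ` which is modular of squarefree level is semistable.** -/
theorem isSemistableModel_of_squarefree (hN : Squarefree N) (hΔ : W.Δ ≠ 0)
    (h : W.IsModularModelOfLevel N) (hmin : ∀ q : ℕ, q.Prime → MinimalAt W q) :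
    W.IsSemistableModel := by
  intro q hq hd hc
  have h1 := sq_dvd_of_isAdditiveAt hN.ne_zero hΔ h hq (hmin q hq) ⟨hd, hc⟩
  exact hq.one_lt.ne' (Nat.isUnit_iff.mp (hN q (by rwa [← pow_two])))

end Fermat.Agent.Cor.NOS
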