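import Fermat.Agent.Corollaries.NOS.Steinberg
import Fermat.Prelude.Def_WeierstrassCurve_ConductorLevel

/-!
# The conductor and the levels of modularity

`W` an integral Weierstrass equation, minimal at every prime, modular of level `N`. Then
`∏ q ^ e_q` divides `N`, where `q` runs over the primes of bad reduction, `e_q = 1` if the reduction at
`q` is multiplicative and `e_q = 2` if it is additive (`prod_pow_dvd_level`). For `q ≥ 5` this is the
exponent of `q` in the conductor of `W`. In particular the product of the bad primes divides `N`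
(`conductorLevel_dvd_level`).
-/

set_option autoImplicit false

noncomputable section

open WeierstrassCurve
open Fermat.Agent.ECRed

namespace Fermat.Agent.Cor.NOS

variable {W : WeierstrassCurve ℤ} {N : ℕ}

/-- **The conductor divides the level, up to the wild part**: the exponent of a multiplicative prime
is one, that of an additive prime is two. -/
theorem prod_pow_dvd_level (hN : N ≠ 0) (hΔ : W.Δ ≠ 0) (h : W.IsModularModelOfLevel N)
    (hmin : ∀ q : ℕ, q.Prime → MinimalAt W q) :
    ∏ q ∈ W.Δ.natAbs.primeFactors, q ^ (if (q : ℤ) ∣ W.c₄ then 2 else 1) ∣ N := by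
  refine Finset.prod_dvd_of_isRelPrime ?_ fun q hq => ?_
  · intro q hq r hr hne
    rw [Finset.mem_coe, Nat.mem_primeFactors] at hq hr
    rw [Function.onFun, ← Nat.coprime_iff_isRelPrime]
    exact Nat.Coprime.pow _ _ ((Nat.coprime_primes hq.1 hr.1).mpr hne)
  · rw [Nat.mem_primeFactors] at hq
    have hd : (q : ℤ) ∣ W.Δ := Int.natCast_dvd.mpr hq.2.1
    split_ifs with hc
    · exact sq_dvd_of_isAdditiveAt hN hΔ h hq.1 (hmin q hq.1) ⟨hd, hc⟩
    · rw [pow_one]
      by_contra hqN
      exact not_dvd_Δ_of_isModularModelOfLevel hN hΔ h hq.1 (hmin q hq.1) hqN hd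

/-- **The primes of bad reduction divide the level.** -/
theorem conductorLevel_dvd_level (hN : N ≠ 0) (hΔ : W.Δ ≠ 0) (h : W.IsModularModelOfLevel N)
    (hmin : ∀ q : ℕ, q.Prime → MinimalAt W q) : W.conductorLevel ∣ N := by
  rw [← Nat.prod_primeFactors_of_squarefree W.squarefree_conductorLevel]
  refine (Finset.prod_dvd_prod_of_subset _ _ _ fun q hq => ?_).trans (Nat.prod_primeFactors_dvd N)
  rw [Nat.mem_primeFactors] at hq ⊢
  refine ⟨hq.1, ?_, hN⟩
  by_contra hqN
  exact not_dvd_Δ_of_isModularModelOfLevel hN hΔ h hq.1 (hmin q hq.1) hqN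
    ((W.prime_dvd_conductorLevel_iff hΔ hq.1).mp hq.2.1)

end Fermat.Agent.Cor.NOS
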