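import Fermat.Agent.Corollaries.NOS.Two

/-!
# Grothendieck's criterion of semistability

`W` is minimal at `ℓ`, `A` is a place above `ℓ` and `p ≠ ℓ` is a prime. Then `W` is not additive at
`ℓ` iff every element of the inertia group of `A` acts unipotently on the `p`-adic Tate module.
-/

set_option autoImplicit false

noncomputable section

open WeierstrassCurve WeierstrassCurve.Affine
open FermatAgent.ECVal FermatAgent.ECVal.QVal Fermat.Agent.ECRed
open Fermat.Agent.Cor.Mazur (Pt)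
open Fermat.Agent.Tate

namespace Fermat.Agent.Cor.NOS

/-! ### Kolchin's theorem in rank two -/

section Kolchin

variable {R : Type*} [CommRing R] [IsDomain R]

theorem entries_of_mul_self_eq_zero {M : Matrix (Fin 2) (Fin 2) R} (h : M * M = 0) :
    M 1 1 = -M 0 0 ∧ M 0 0 ^ 2 + M 0 1 * M 1 0 = 0 := by
  have h00 : M 0 0 * M 0 0 + M 0 1 * M 1 0 = 0 := by
    have := congrFun (congrFun h 0) 0
    simpa [Matrix.mul_apply, Fin.sum_univ_two] using this
  have h01 : M 0 0 * M 0 1 + M 0 1 * M 1 1 = 0 := by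
    have := congrFun (congrFun h 0) 1
    simpa [Matrix.mul_apply, Fin.sum_univ_two] using this
  have h10 : M 1 0 * M 0 0 + M 1 1 * M 1 0 = 0 := by
    have := congrFun (congrFun h 1) 0
    simpa [Matrix.mul_apply, Fin.sum_univ_two] using this
  have h11 : M 1 0 * M 0 1 + M 1 1 * M 1 1 = 0 := by
    have := congrFun (congrFun h 1) 1
    simpa [Matrix.mul_apply, Fin.sum_univ_two] using this
  refine ⟨?_, by linear_combination h00⟩
  by_contra hne
  have hs : M 0 0 + M 1 1 ≠ 0 := fun h0 => hne (by linear_combination h0)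
  have hb : M 0 1 = 0 := by
    have : (M 0 0 + M 1 1) * M 0 1 = 0 := by linear_combination h01
    exact (mul_eq_zero.mp this).resolve_left hs
  rw [hb] at h00 h11
  have ha : M 0 0 = 0 := by
    have : M 0 0 * M 0 0 = 0 := by linear_combination h00
    exact mul_self_eq_zero.mp this
  have hd : M 1 1 = 0 := by
    have : M 1 1 * M 1 1 = 0 := by linear_combination h11
    exact mul_self_eq_zero.mp this
  exact hs (by rw [ha, hd, add_zero])

/-- Two `2 × 2` matrices `M`, `N` with `1 + M`, `1 + N` and `(1 + M) (1 + N)` unipotent satisfy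
`M N = 0`. -/
theorem mul_eq_zero_of_unipotent {M N : Matrix (Fin 2) (Fin 2) R} (hM : M * M = 0)
    (hN : N * N = 0) (h : (M + N + M * N) * (M + N + M * N) = 0) : M * N = 0 := by
  obtain ⟨m1, m2⟩ := entries_of_mul_self_eq_zero hM
  obtain ⟨n1, n2⟩ := entries_of_mul_self_eq_zero hN
  obtain ⟨t, -⟩ := entries_of_mul_self_eq_zero h
  simp only [Matrix.add_apply, Matrix.mul_apply, Fin.sum_univ_two] at t
  have t' : 2 * (M 0 0 * N 0 0) + M 0 1 * N 1 0 + M 1 0 * N 0 1 = 0 := by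
    rw [m1, n1] at t
    linear_combination t
  have k1 : M 0 0 * N 0 0 + M 0 1 * N 1 0 = 0 := by
    refine pow_eq_zero_iff (n := 2) two_ne_zero |>.mp ?_
    linear_combination (M 0 1 * N 1 0) * t' + N 0 0 ^ 2 * m2 - M 0 1 * M 1 0 * n2
  have k2 : M 0 0 * N 0 1 - M 0 1 * N 0 0 = 0 := by
    refine pow_eq_zero_iff (n := 2) two_ne_zero |>.mp ?_
    linear_combination -(M 0 1 * N 0 1) * t' + N 0 1 ^ 2 * m2 + M 0 1 ^ 2 * n2
  have k3 : M 1 0 * N 0 0 - M 0 0 * N 1 0 = 0 := by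
    refine pow_eq_zero_iff (n := 2) two_ne_zero |>.mp ?_
    linear_combination -(M 1 0 * N 1 0) * t' + N 1 0 ^ 2 * m2 + M 1 0 ^ 2 * n2
  ext i j
  fin_cases i <;> fin_cases j <;> simp [Matrix.mul_apply, Fin.sum_univ_two, m1, n1]
  · exact k1
  · linear_combination k2
  · linear_combination k3
  · linear_combination t' - k1

/-- The same for endomorphisms. -/
theorem comp_eq_zero_of_unipotent {V : Type*} [AddCommGroup V] [Module R V]
    (b : Module.Basis (Fin 2) R V) {f g : Module.End R V} (hf : f * f = 0) (hg : g * g = 0)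
    (h : (f + g + f * g) * (f + g + f * g) = 0) : f * g = 0 := by
  apply (LinearMap.toMatrixAlgEquiv b).injective
  rw [map_mul, map_zero]
  refine mul_eq_zero_of_unipotent ?_ ?_ ?_
  · rw [← map_mul, hf, map_zero]
  · rw [← map_mul, hg, map_zero]
  · rw [← map_mul, ← map_add, ← map_add, ← map_mul, h, map_zero]

end Kolchin

/-! ### Unipotent inertia -/

variable {W : WeierstrassCurve ℤ} {A : ValuationSubring (AlgebraicClosure ℚ)} {ℓ p : ℕ}

/-- `σ - 1` has square zero on the points of `p`-power order. -/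
def UnipAt (W : WeierstrassCurve ℤ) (A : ValuationSubring (AlgebraicClosure ℚ)) (p : ℕ) : Prop :=
  ∀ σ ∈ A.inertiaSubgroupIn ℚ, ∀ (n : ℕ) (P : Pt W), p ^ n • P = 0 →
    σ • (σ • P - P) = σ • P - P

theorem hasTwoRank (hΔ : W.Δ ≠ 0) (p : ℕ) [Fact p.Prime] : HasTwoRank p (Pt W) :=
  hasTwoRank_curve (W := W.map (Int.castRingHom ℚ)) (by
    rw [WeierstrassCurve.map_Δ, eq_intCast, Int.cast_ne_zero]; exact hΔ) p

/-- If the elements of the inertia group act unipotently, the operators `(τ - 1) (σ - 1)`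
vanish. -/
theorem UnipAt.smul_smul_sub (hΔ : W.Δ ≠ 0) (hp : p.Prime) (h : UnipAt W A p)
    {σ τ : AlgebraicClosure ℚ ≃ₐ[ℚ] AlgebraicClosure ℚ} (hσ : σ ∈ A.inertiaSubgroupIn ℚ)
    (hτ : τ ∈ A.inertiaSubgroupIn ℚ) {n : ℕ} {P : Pt W} (hP : p ^ n • P = 0) :
    τ • (σ • P - P) = σ • P - P := by
  have hfact : Fact p.Prime := ⟨hp⟩
  have hT := hasTwoRank hΔ p
  have := hT.free
  have := hT.finite_tmod
  have hrank := hT.finrank_eq
  let b : Module.Basis (Fin 2) ℤ_[p] (TMod p (Pt W)) :=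
    Module.finBasisOfFinrankEq ℤ_[p] (TMod p (Pt W)) hrank
  let r := TMod.rep p (AlgebraicClosure ℚ ≃ₐ[ℚ] AlgebraicClosure ℚ) (Pt W)
  have hsq : ∀ ρ ∈ A.inertiaSubgroupIn ℚ, (r ρ - 1) * (r ρ - 1) = 0 := by
    intro ρ hρ
    refine LinearMap.ext fun v => TMod.ext fun m => ?_
    change ρ • (ρ • v m - v m) - (ρ • v m - v m) = 0
    rw [h ρ hρ m (v m) (TMod.pow_smul_apply v m), sub_self]
  have h0 : (r τ - 1) * (r σ - 1) = 0 := by
    refine comp_eq_zero_of_unipotent b (hsq τ hτ) (hsq σ hσ) ?_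
    have e : (r τ - 1) + (r σ - 1) + (r τ - 1) * (r σ - 1) = r (τ * σ) - 1 := by
      rw [map_mul]
      noncomm_ring
    rw [e]
    exact hsq (τ * σ) (mul_mem hτ hσ)
  obtain ⟨v, rfl⟩ := hT.exists_apply_eq hP
  have h1 := congrArg (fun f : TMod p (Pt W) => f n) (LinearMap.congr_fun h0 v)
  change τ • (σ • v n - v n) - (σ • v n - v n) = 0 at h1
  exact sub_eq_zero.mp h1

/-- Multiplicative or good reduction: inertia is unipotent. -/
theorem unipAt_of_not_isAdditiveAt (hΔ0 : W.Δ ≠ 0) (hℓ : ℓ.Prime) (hA : A.LiesOverPrime ℓ)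
    (hp : p.Prime) (hne : p ≠ ℓ) (h : ¬ IsAdditiveAt W ℓ) : UnipAt W A p := by
  classical
  have hfact : Fact p.Prime := ⟨hp⟩
  have hn : ∀ n : ℕ, ¬ ℓ ∣ p ^ n := fun n h =>
    hne ((Nat.prime_dvd_prime_iff_eq hℓ hp).mp (hℓ.dvd_of_dvd_pow h)).symm
  intro σ hσ n P hP
  by_cases hΔ : (ℓ : ℤ) ∣ W.Δ
  swap
  · rw [fixedBy_of_good hℓ hA hΔ (hn n) hP σ hσ, sub_self, smul_zero (A := Pt W) σ]
  have hW := isMultAt_of_not_additive hΔ0 hℓ hΔ h
  have hpQ : p ^ n • (σ • P - P) = 0 := by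
    rw [nsmul_sub, hP, sub_zero, ← natCast_zsmul, ← Point.algEquiv_smul_zsmul, natCast_zsmul,
      hP, smul_zero (A := Pt W) σ]
  by_cases hℓ2 : ℓ = 2
  · have hp2 : p ≠ 2 := fun h => hne (h.trans hℓ2.symm)
    have hΔ' : (W.map (Int.castRingHom ℚ)).Δ ≠ 0 := by
      rw [WeierstrassCurve.map_Δ, eq_intCast, Int.cast_ne_zero]
      exact hΔ0
    obtain ⟨g, hg⟩ := (hasTwoRank hΔ0 p).exists_apply_eq hP
    have hch := tateRep_unipotent hΔ' p hW hne.symm hp2 A hA σ hσ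
    have hCH := LinearMap.aeval_self_charpoly ((tateRep (W.map (Int.castRingHom ℚ)) hΔ' p).ρ σ)
    rw [hch] at hCH
    rw [map_pow, map_sub, Polynomial.aeval_X, map_one, sq] at hCH
    have h3 : σ • (σ • P - P) - (σ • P - P) = 0 := by
      rw [← hg]
      exact congrArg (fun f : TMod p (Pt W) => f n) (LinearMap.congr_fun hCH g)
    exact sub_eq_zero.mp h3
  · obtain ⟨R, hR⟩ := inertia_smul_sub_mem_E0 hW hℓ2 hA hσ P
    exact smul_eq_of_torsion_of_mem_E0 (W' := W.map (Int.castRingHom ℚ)) hσ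
      (valuation_natCast_eq_one hℓ hA (hn n)) (redEk W A) hR hpQ

/-- **Grothendieck's criterion**: `W` (minimal at `ℓ`) is semistable at `ℓ` iff every element `σ`
of the inertia group of a place above `ℓ` acts on the points of `p`-power order, `p ≠ ℓ`, with
`(σ - 1)² = 0`. -/
theorem grothendieck (hΔ0 : W.Δ ≠ 0) (hℓ : ℓ.Prime) (hmin : MinimalAt W ℓ)
    (hA : A.LiesOverPrime ℓ) (hp : p.Prime) (hne : p ≠ ℓ) :
    ¬ IsAdditiveAt W ℓ ↔ ∀ σ ∈ A.inertiaSubgroupIn ℚ, ∀ (n : ℕ) (P : Pt W), p ^ n • P = 0 →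
      σ • (σ • P - P) = σ • P - P := by
  have hn : ∀ n : ℕ, ¬ ℓ ∣ p ^ n := fun n h =>
    hne ((Nat.prime_dvd_prime_iff_eq hℓ hp).mp (hℓ.dvd_of_dvd_pow h)).symm
  refine ⟨fun h => unipAt_of_not_isAdditiveAt hΔ0 hℓ hA hp hne h, fun (h : UnipAt W A p) => ?_⟩
  have h8 : 5 ≤ p ^ 3 := by
    calc 5 ≤ 2 ^ 3 := by norm_num
      _ ≤ p ^ 3 := Nat.pow_le_pow_left hp.two_le 3
  by_cases hall : ∀ (n : ℕ) (P : Pt W), p ^ n • P = 0 → FixedBy A P
  · obtain ⟨P, hP⟩ := exists_addOrderOf hΔ0 hp 3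
    refine not_isAdditiveAt_of_point hΔ0 hℓ hmin hA (P := P) (by rwa [hP]) (by rw [hP]; exact hn 3)
      (hall 3 P ?_)
    rw [← hP]
    exact addOrderOf_nsmul_eq_zero P
  · push Not at hall
    obtain ⟨m, P₀, hP₀, hmov⟩ := hall
    unfold FixedBy at hmov
    push Not at hmov
    obtain ⟨σ, hσ, hne'⟩ := hmov
    obtain ⟨P, hP⟩ := exists_nsmul_eq hΔ0 (n := p ^ 3) (pow_ne_zero _ hp.ne_zero) P₀
    have hPm : p ^ (m + 3) • P = 0 := by rw [pow_add, mul_smul, hP, hP₀]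
    have hσP : ∀ (k : ℕ) (Q : Pt W), k • (σ • Q) = σ • (k • Q) := fun k Q => by
      rw [← natCast_zsmul, ← Point.algEquiv_smul_zsmul, natCast_zsmul]
    have h3 : p ^ 3 • (σ • P - P) ≠ 0 := by
      rw [nsmul_sub, hσP, hP]
      exact sub_ne_zero.mpr hne'
    have hm3 : p ^ (m + 3) • (σ • P - P) = 0 := by
      rw [nsmul_sub, hσP, hPm, smul_zero (A := Pt W) σ, sub_zero]
    obtain ⟨k, -, hk⟩ := (Nat.dvd_prime_pow hp).mp (addOrderOf_dvd_iff_nsmul_eq_zero.mpr hm3)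
    have hk3 : 3 < k := by
      by_contra hcon
      rw [not_lt] at hcon
      apply h3
      apply addOrderOf_dvd_iff_nsmul_eq_zero.mp
      rw [hk]
      exact pow_dvd_pow p hcon
    refine not_isAdditiveAt_of_point hΔ0 hℓ hmin hA (P := σ • P - P) ?_ (by rw [hk]; exact hn k)
      fun τ hτ => h.smul_smul_sub hΔ0 hp hσ hτ hPm
    rw [hk]
    exact h8.trans (Nat.pow_le_pow_right hp.pos hk3.le)

/-- **Grothendieck's criterion** for the frozen notion `IsUnipotentOnInertiaAt` of the Tate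
module, `p ≠ ℓ` odd. -/
theorem not_isAdditiveAt_iff_isUnipotent (hΔ0 : W.Δ ≠ 0) (hℓ : ℓ.Prime) (hmin : MinimalAt W ℓ)
    [hp : Fact p.Prime] (hp2 : p ≠ 2) (hne : p ≠ ℓ)
    (hΔ' : (W.map (Int.castRingHom ℚ)).Δ ≠ 0) :
    ¬ IsAdditiveAt W ℓ ↔
      (tateRep (W.map (Int.castRingHom ℚ)) hΔ' p).IsUnipotentOnInertiaAt ℓ := by
  constructor
  · intro h
    by_cases hΔ : (ℓ : ℤ) ∣ W.Δ
    · exact tateRep_unipotent hΔ' p (isMultAt_of_not_additive hΔ0 hℓ hΔ h) hne.symm hp2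
    · intro B hB σ hσ
      rw [tateRep_unramified hΔ' p hℓ hΔ hne.symm B hB σ hσ, LinearMap.charpoly_one,
        (tateRep (W.map (Int.castRingHom ℚ)) hΔ' p).finrank_eq]
  · intro h
    obtain ⟨A, hA⟩ := Fermat.Agent.Frob.exists_liesOverPrime ℓ hℓ
    rw [grothendieck hΔ0 hℓ hmin hA hp.out hne]
    intro σ hσ n P hP
    obtain ⟨g, hg⟩ := (hasTwoRank hΔ0 p).exists_apply_eq hP
    have hCH := LinearMap.aeval_self_charpoly ((tateRep (W.map (Int.castRingHom ℚ)) hΔ' p).ρ σ)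
    rw [h A hA σ hσ] at hCH
    rw [map_pow, map_sub, Polynomial.aeval_X, map_one, sq] at hCH
    have h3 : σ • (σ • P - P) - (σ • P - P) = 0 := by
      rw [← hg]
      exact congrArg (fun f : TMod p (Pt W) => f n) (LinearMap.congr_fun hCH g)
    exact sub_eq_zero.mp h3

end Fermat.Agent.Cor.NOS
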