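import Fermat.Agent.Corollaries.NOS.Modular
import Fermat.Agent.Ribet.Models

/-!
# Modularity is decided by almost all coefficients

`f` a normalised eigenform of weight two and level `N`, `W` an integral model of an elliptic curve
over `ℚ` with `a_q(f) = a_q(W)` for all but finitely many primes `q`. Then

* `coeff_of_almost` : `a_ℓ(f) = a_ℓ(W)` at every prime `ℓ` not dividing `N` at which `W` is good;
* `not_dvd_Δ_of_almost` : `W` has good reduction at every prime `ℓ ∤ N` at which it is minimal;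
* `isModularModelOfLevel_of_almost` : `W` is modular of level `N`;
* `isModularModelOfLevel_congr`, `isModularModelOfLevel_iff` : modularity of level `N` only depends on
  almost all `a_q`; in particular it does not depend on the integral model.
-/

set_option autoImplicit false
set_option linter.style.haveILetI false

noncomputable section

open Polynomial WeierstrassCurve WeierstrassCurve.Affine WeierstrassCurve.Affine.Point
open Fermat.Agent Fermat.Agent.ECFrob Fermat.Agent.Torsion Fermat.Agent.ECRed Fermat.Agent.Ribet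
open ModularFormClass CongruenceSubgroup

namespace Fermat.Agent.Cor.NOS

variable {W W' : WeierstrassCurve ℤ} {N : ℕ} {f : CuspForm (Gamma0 N) 2} {S : Set ℕ}

/-- The representation attached to `f` above `p`, compared with `W[p]`. -/
theorem exists_trace (hN : N ≠ 0) (hf : f.IsNormalizedEigenform) (hΔ : W.Δ ≠ 0) (hS : S.Finite)
    (hcong : ∀ q : ℕ, q.Prime → q ∉ S → W.IsGoodPrimeFor q →
      qCoeff f q = ((W.apOfModel q : ℤ) : ℂ)) (p : ℕ) [hp : Fact p.Prime] :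
    ∃ 𝔪 : Ideal (integralClosure ℤ ℂ), 𝔪.IsMaximal ∧ (p : integralClosure ℤ ℂ) ∈ 𝔪 ∧
      ∀ ℓ : ℕ, ℓ.Prime → ¬ ℓ ∣ N → ℓ ≠ p →
        ∀ A : ValuationSubring (AlgebraicClosure ℚ), A.LiesOverPrime ℓ →
        (∀ σ, A.IsFrobeniusAt σ ℓ → ∀ t : ℤ,
          LinearMap.trace (ZMod p) _ (rho W p σ) = (t : ZMod p) →
          ∃ x : integralClosure ℤ ℂ, (x : ℂ) = qCoeff f ℓ ∧ x - (t : integralClosure ℤ ℂ) ∈ 𝔪) ∧
        ∀ σ ∈ A.inertiaSubgroupIn ℚ, LinearMap.trace (ZMod p) _ (rho W p σ) = 2 := by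
  obtain ⟨𝔪, h𝔪, hp𝔪⟩ := FLTPrelim.exists_maximalIdeal_natCast_prime_mem hp.out
  letI instF : Field (integralClosure ℤ ℂ ⧸ 𝔪) := Ideal.Quotient.field 𝔪
  let φ : integralClosure ℤ ℂ →+* (integralClosure ℤ ℂ ⧸ 𝔪) := Ideal.Quotient.mk 𝔪
  haveI hchar : CharP (integralClosure ℤ ℂ ⧸ 𝔪) p := by
    rw [CharP.charP_iff_prime_eq_zero hp.out]
    have h1 : φ (p : integralClosure ℤ ℂ) = 0 := Ideal.Quotient.eq_zero_iff_mem.mpr hp𝔪
    rw [map_natCast] at h1
    exact h1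
  obtain ⟨ρ, hρ, hunr⟩ := Fermat.Agent.S29.result hf hp.out φ
  have hcong' : ∀ ℓ : ℕ, ℓ.Prime → ℓ ∉ S → W.IsGoodPrimeFor ℓ → ∀ x : integralClosure ℤ ℂ,
      (x : ℂ) = qCoeff f ℓ → φ x = ((W.apOfModel ℓ : ℤ) : integralClosure ℤ ℂ ⧸ 𝔪) := by
    intro q hq hqS hgood x hx
    have h1 : x = ((W.apOfModel q : ℤ) : integralClosure ℤ ℂ) := by
      apply Subtype.ext
      rw [hx, hcong q hq hqS hgood]
      push_cast
      rfl
    rw [h1, map_intCast]
  have htr := trace_eq_trace_of_attached hN hΔ φ ρ hρ hS hcong'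
  refine ⟨𝔪, h𝔪, hp𝔪, fun ℓ hℓ hℓN hℓp A hA => ⟨fun σ hσ t ht => ?_, fun σ hσ => ?_⟩⟩
  · obtain ⟨x, hx, hx'⟩ := coeff_eq_trace_of_attached hN hΔ φ ρ hρ hS hcong' hℓ hℓN hℓp hA hσ
    refine ⟨x, hx, ?_⟩
    rw [ht, map_intCast] at hx'
    rw [← Ideal.Quotient.eq_zero_iff_mem, map_sub, map_intCast, sub_eq_zero]
    exact hx'
  · have hq1 : ρ.ρ σ = 1 := hunr ℓ hℓ (fun h' => by
      rcases hℓ.dvd_mul.mp h' with h1 | h1
      · exact hℓN h1
      · exact hℓp ((Nat.prime_dvd_prime_iff_eq hℓ hp.out).mp h1)) A hA σ hσ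
    apply (ZMod.castHom (dvd_refl p) (integralClosure ℤ ℂ ⧸ 𝔪)).injective
    rw [← htr, hq1, LinearMap.trace_one, ρ.finrank_eq, map_ofNat]
    norm_num

/-- **The coefficients agree at every prime of good reduction outside the level.** -/
theorem coeff_of_almost (hN : N ≠ 0) (hf : f.IsNormalizedEigenform) (hS : S.Finite)
    (hcong : ∀ q : ℕ, q.Prime → q ∉ S → W.IsGoodPrimeFor q →
      qCoeff f q = ((W.apOfModel q : ℤ) : ℂ))
    {ℓ : ℕ} (hℓ : ℓ.Prime) (hℓN : ¬ ℓ ∣ N) (hgood : W.IsGoodPrimeFor ℓ) :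
    qCoeff f ℓ = ((W.apOfModel ℓ : ℤ) : ℂ) := by
  have hΔ : W.Δ ≠ 0 := fun h => hgood (by rw [h]; exact dvd_zero _)
  have : Fact ℓ.Prime := ⟨hℓ⟩
  obtain ⟨A, hA, σ, hσ⟩ := Frob.exists_frobenius ℓ hℓ
  have key : ∀ p : ℕ, p.Prime → p ≠ ℓ → ∃ 𝔪 : Ideal (integralClosure ℤ ℂ),
      𝔪.IsMaximal ∧ (p : integralClosure ℤ ℂ) ∈ 𝔪 ∧
      ∃ a : integralClosure ℤ ℂ, (a : ℂ) = qCoeff f ℓ ∧
        a - ((W.apOfModel ℓ : ℤ) : integralClosure ℤ ℂ) ∈ 𝔪 := by
    intro p hp hpℓ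
    have : Fact p.Prime := ⟨hp⟩
    obtain ⟨𝔪, hmax, hpm, h⟩ := exists_trace hN hf hΔ hS hcong p
    exact ⟨𝔪, hmax, hpm, (h ℓ hℓ hℓN hpℓ.symm A hA).1 σ hσ _
      (trace_rho_frobenius hgood hA hσ hpℓ.symm)⟩
  obtain ⟨p₀, hp₀, hp₀'⟩ := Nat.exists_infinite_primes (ℓ + 3)
  obtain ⟨-, -, -, a, ha, -⟩ := key p₀ hp₀' (by omega)
  have hz : a - ((W.apOfModel ℓ : ℤ) : integralClosure ℤ ℂ) = 0 := by
    refine eq_zero_of_mem_maximal fun B => ?_
    obtain ⟨p, hp, hp'⟩ := Nat.exists_infinite_primes (B + ℓ + 3)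
    obtain ⟨𝔪, hmax, hpm, b, hb, hb'⟩ := key p hp' (by omega)
    have hab : b = a := Subtype.ext (hb.trans ha.symm)
    subst hab
    exact ⟨p, hp', by omega, 𝔪, hmax, hpm, hb'⟩
  rw [← ha, sub_eq_zero.mp hz]
  push_cast
  rfl

/-- No multiplicative reduction outside the level. -/
theorem not_isMultAt_of_almost (hN : N ≠ 0) (hf : f.IsNormalizedEigenform) (hS : S.Finite)
    (hcong : ∀ q : ℕ, q.Prime → q ∉ S → W.IsGoodPrimeFor q →
      qCoeff f q = ((W.apOfModel q : ℤ) : ℂ))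
    {ℓ : ℕ} (hℓN : ¬ ℓ ∣ N) : ¬ IsMultAt W ℓ := by
  intro hm
  obtain ⟨A, hA, σ, hσ⟩ := Frob.exists_frobenius ℓ hm.prime
  have key : ∀ p : ℕ, p.Prime → p ≠ 2 → p ≠ ℓ → ∃ 𝔪 : Ideal (integralClosure ℤ ℂ),
      𝔪.IsMaximal ∧ (p : integralClosure ℤ ℂ) ∈ 𝔪 ∧
      ∃ a : integralClosure ℤ ℂ, (a : ℂ) = qCoeff f ℓ ∧
        (a - (ℓ + 1 : ℕ)) * (a + (ℓ + 1 : ℕ)) ∈ 𝔪 := by
    intro p hp hp2 hpℓ
    have : Fact p.Prime := ⟨hp⟩
    obtain ⟨𝔪, hmax, hpm, h⟩ := exists_trace hN hf hm.ne hS hcong p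
    obtain ⟨t, ht, ht'⟩ := trace_rho_frobenius_mult hm hpℓ.symm hp2 hA hσ
    obtain ⟨a, ha, ha'⟩ := (h ℓ hm.prime hℓN hpℓ.symm A hA).1 σ hσ t ht'
    refine ⟨𝔪, hmax, hpm, a, ha, ?_⟩
    rcases ht with rfl | rfl
    · refine 𝔪.mul_mem_right _ ?_
      push_cast at ha' ⊢
      exact ha'
    · refine 𝔪.mul_mem_left _ ?_
      push_cast at ha' ⊢
      rwa [sub_neg_eq_add] at ha'
  obtain ⟨p₀, hp₀, hp₀'⟩ := Nat.exists_infinite_primes (ℓ + 3)
  obtain ⟨-, -, -, a, ha, -⟩ := key p₀ hp₀' (by omega) (by omega)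
  have hz : (a - (ℓ + 1 : ℕ)) * (a + (ℓ + 1 : ℕ)) = 0 := by
    refine eq_zero_of_mem_maximal fun B => ?_
    obtain ⟨p, hp, hp'⟩ := Nat.exists_infinite_primes (B + ℓ + 3)
    obtain ⟨𝔪, hmax, hpm, b, hb, hb'⟩ := key p hp' (by omega) (by omega)
    have hab : b = a := Subtype.ext (hb.trans ha.symm)
    subst hab
    exact ⟨p, hp', by omega, 𝔪, hmax, hpm, hb'⟩
  have hlt := norm_qCoeff_lt hN hf hm.prime hℓN
  have hval : qCoeff f ℓ = ((ℓ + 1 : ℕ) : ℂ) ∨ qCoeff f ℓ = -((ℓ + 1 : ℕ) : ℂ) := by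
    rcases mul_eq_zero.mp hz with h1 | h1
    · left
      have h2 : ((_ : integralClosure ℤ ℂ) : ℂ) = ((0 : integralClosure ℤ ℂ) : ℂ) :=
        congrArg (fun z : integralClosure ℤ ℂ => (z : ℂ)) h1
      push_cast at h2
      rw [← ha]
      push_cast
      linear_combination h2
    · right
      have h2 : ((_ : integralClosure ℤ ℂ) : ℂ) = ((0 : integralClosure ℤ ℂ) : ℂ) :=
        congrArg (fun z : integralClosure ℤ ℂ => (z : ℂ)) h1
      push_cast at h2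
      rw [← ha]
      push_cast
      linear_combination h2
  have hnorm : ‖qCoeff f ℓ‖ = ℓ + 1 := by
    rcases hval with h1 | h1
    · rw [h1, Complex.norm_natCast]
      push_cast
      ring
    · rw [h1, norm_neg, Complex.norm_natCast]
      push_cast
      ring
  exact absurd hlt (by rw [hnorm]; exact lt_irrefl _)

/-- No additive reduction outside the level. -/
theorem not_isAdditiveAt_of_almost (hN : N ≠ 0) (hf : f.IsNormalizedEigenform) (hΔ : W.Δ ≠ 0)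
    (hS : S.Finite)
    (hcong : ∀ q : ℕ, q.Prime → q ∉ S → W.IsGoodPrimeFor q →
      qCoeff f q = ((W.apOfModel q : ℤ) : ℂ))
    {ℓ : ℕ} (hℓ : ℓ.Prime) (hmin : MinimalAt W ℓ) (hℓN : ¬ ℓ ∣ N) : ¬ IsAdditiveAt W ℓ := by
  have key : ∀ p : ℕ, p.Prime → 5 ≤ p → ℓ ≠ p → ¬ IsAdditiveAt W ℓ := by
    intro p hp hp5 hℓp
    have : Fact p.Prime := ⟨hp⟩
    obtain ⟨A, hA⟩ := Fermat.Agent.Frob.exists_liesOverPrime ℓ hℓ
    obtain ⟨𝔪, hmax, hpm, h⟩ := exists_trace hN hf hΔ hS hcong p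
    have htrace := (h ℓ hℓ hℓN hℓp A hA).2
    have h2 : (2 : ZMod p) ≠ 0 := by
      intro h0
      have h1 : ((2 : ℕ) : ZMod p) = 0 := by exact_mod_cast h0
      rw [ZMod.natCast_eq_zero_iff] at h1
      have := Nat.le_of_dvd two_pos h1
      omega
    refine not_isAdditiveAt_of_rho hΔ hℓ hmin hp5 hℓp hA fun σ hσ => ?_
    refine sub_one_mul_self_eq_zero h2 (finrank_rat hΔ) (htrace σ hσ) ?_
    rw [← map_mul]
    exact htrace (σ * σ) (mul_mem hσ hσ)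
  by_cases h5 : ℓ = 5
  · exact key 7 (by norm_num) (by norm_num) (by omega)
  · exact key 5 (by norm_num) le_rfl h5

/-- **Good reduction outside the level**, from almost all coefficients. -/
theorem not_dvd_Δ_of_almost (hN : N ≠ 0) (hf : f.IsNormalizedEigenform) (hΔ : W.Δ ≠ 0)
    (hS : S.Finite)
    (hcong : ∀ q : ℕ, q.Prime → q ∉ S → W.IsGoodPrimeFor q →
      qCoeff f q = ((W.apOfModel q : ℤ) : ℂ))
    {ℓ : ℕ} (hℓ : ℓ.Prime) (hmin : MinimalAt W ℓ) (hℓN : ¬ ℓ ∣ N) : ¬ (ℓ : ℤ) ∣ W.Δ := by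
  intro hd
  by_cases hc : (ℓ : ℤ) ∣ W.c₄
  · exact not_isAdditiveAt_of_almost hN hf hΔ hS hcong hℓ hmin hℓN ⟨hd, hc⟩
  · exact not_isMultAt_of_almost hN hf hS hcong hℓN ⟨hℓ, hd, hc, hΔ⟩

/-- **Modularity from almost all coefficients.** -/
theorem isModularModelOfLevel_of_almost (hN : N ≠ 0) (hf : f.IsNormalizedEigenform)
    (hS : S.Finite)
    (hcong : ∀ q : ℕ, q.Prime → q ∉ S → W.IsGoodPrimeFor q →
      qCoeff f q = ((W.apOfModel q : ℤ) : ℂ)) : W.IsModularModelOfLevel N :=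
  ⟨f, hf, fun _ hℓ hgood hℓN => coeff_of_almost hN hf hS hcong hℓ hℓN hgood⟩

/-- Two integral models with almost all `a_q` equal are modular of the same levels. -/
theorem isModularModelOfLevel_of_congr (hN : N ≠ 0) (hΔ : W.Δ ≠ 0) (hS : S.Finite)
    (h : ∀ q : ℕ, q.Prime → q ∉ S → W.IsGoodPrimeFor q → W'.IsGoodPrimeFor q →
      W.apOfModel q = W'.apOfModel q)
    (hW : W.IsModularModelOfLevel N) : W'.IsModularModelOfLevel N := by
  obtain ⟨f, hf, hfa⟩ := hW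
  have hS' : (S ∪ {q | q ∣ N} ∪ {q | (q : ℤ) ∣ W.Δ} : Set ℕ).Finite := by
    refine Set.Finite.union (hS.union ?_) ?_
    · refine (Finset.finite_toSet (N.divisors)).subset fun ℓ hℓ => ?_
      rw [Finset.mem_coe, Nat.mem_divisors]
      exact ⟨hℓ, hN⟩
    · refine (Finset.finite_toSet (W.Δ.natAbs.divisors)).subset fun ℓ hℓ => ?_
      rw [Finset.mem_coe, Nat.mem_divisors]
      exact ⟨Int.natCast_dvd.mp hℓ, Int.natAbs_ne_zero.mpr hΔ⟩
  refine isModularModelOfLevel_of_almost hN hf hS' fun q hq hqS hgood => ?_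
  simp only [Set.mem_union, Set.mem_ofPred_eq, not_or] at hqS
  rw [hfa q hq hqS.2 hqS.1.2, h q hq hqS.1.1 hqS.2 hgood]

/-- **Modularity of level `N` only depends on almost all `a_q`.** -/
theorem isModularModelOfLevel_congr (hN : N ≠ 0) (hΔ : W.Δ ≠ 0) (hΔ' : W'.Δ ≠ 0) (hS : S.Finite)
    (h : ∀ q : ℕ, q.Prime → q ∉ S → W.IsGoodPrimeFor q → W'.IsGoodPrimeFor q →
      W.apOfModel q = W'.apOfModel q) :
    W.IsModularModelOfLevel N ↔ W'.IsModularModelOfLevel N :=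
  ⟨isModularModelOfLevel_of_congr hN hΔ hS h, isModularModelOfLevel_of_congr hN hΔ' hS
    fun q hq hqS h1 h2 => (h q hq hqS h2 h1).symm⟩

/-- An integral model of an elliptic curve has non-zero discriminant. -/
theorem Δ_ne_zero_of_model {E : WeierstrassCurve ℚ} (hE : E.Δ ≠ 0) (hW : W.IsIntegralModelOf E) :
    W.Δ ≠ 0 := by
  intro h
  obtain ⟨C, hC⟩ := hW
  have h1 := congrArg WeierstrassCurve.Δ hC
  rw [variableChange_Δ, map_Δ, h, _root_.map_zero] at h1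
  rcases mul_eq_zero.mp h1 with h2 | h2
  · exact (C.u⁻¹).ne_zero (pow_eq_zero_iff (by norm_num) |>.mp h2)
  · exact hE h2

/-- Two integral models of a curve have the same `a_ℓ` at a prime at which both are good. -/
theorem apOfModel_eq_of_models {E : WeierstrassCurve ℚ} (hE : E.Δ ≠ 0)
    (hW : W.IsIntegralModelOf E) (hW' : W'.IsIntegralModelOf E) {ℓ : ℕ} (hℓ : ℓ.Prime)
    (h1 : W.IsGoodPrimeFor ℓ) (h2 : W'.IsGoodPrimeFor ℓ) : W.apOfModel ℓ = W'.apOfModel ℓ := by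
  by_contra hne
  set d := W.apOfModel ℓ - W'.apOfModel ℓ with hd
  have hd0 : d ≠ 0 := sub_ne_zero.mpr hne
  obtain ⟨p, hp, hp'⟩ := Nat.exists_infinite_primes (d.natAbs + ℓ + 1)
  have : Fact p.Prime := ⟨hp'⟩
  have h3 := apOfModel_congr hE hW hW' (p := p) hℓ (by omega) h1 h2
  have h4 : ((d : ℤ) : ZMod p) = 0 := by rw [hd, Int.cast_sub, h3, sub_self]
  rw [ZMod.intCast_zmod_eq_zero_iff_dvd, Int.natCast_dvd] at h4
  have := Nat.le_of_dvd (Int.natAbs_pos.mpr hd0) h4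
  omega

/-- **Modularity of level `N` does not depend on the integral model.** -/
theorem isModularModelOfLevel_iff {E : WeierstrassCurve ℚ} (hE : E.Δ ≠ 0)
    (hW : W.IsIntegralModelOf E) (hW' : W'.IsIntegralModelOf E) (hN : N ≠ 0) :
    W.IsModularModelOfLevel N ↔ W'.IsModularModelOfLevel N :=
  isModularModelOfLevel_congr hN (Δ_ne_zero_of_model hE hW) (Δ_ne_zero_of_model hE hW')
    Set.finite_empty fun _ hq _ h1 h2 => apOfModel_eq_of_models hE hW hW' hq h1 h2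

/-- An elliptic curve over `ℚ` is modular if and only if a given integral model is. -/
theorem isModular_iff {E : WeierstrassCurve ℚ} (hE : E.Δ ≠ 0) (hW : W.IsIntegralModelOf E) :
    E.IsModular ↔ W.IsModularModel := by
  constructor
  · rintro ⟨W', hW', N, hN, h⟩
    exact ⟨N, hN, (isModularModelOfLevel_iff hE hW' hW hN.ne').mp h⟩
  · exact fun h => ⟨W, hW, h⟩

end Fermat.Agent.Cor.NOS
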