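import Fermat.Agent.Corollaries.Surj.Inertia

/-!
# Approximation by rational integers

`A` is a place of `ℚ̄` above `ℓ`, `F` a Frobenius element at `A` and `z ∈ A` an element fixed by the
inertia group of `A`. If `F z ≡ z` modulo `ℓ ^ n`, then `z` is congruent to a rational integer
modulo `ℓ ^ n`.
-/

set_option autoImplicit false

open FermatAgent.ECVal Fermat.Agent.ECRed
open scoped Pointwise

namespace Fermat.Agent.Cor.NOS

variable {A : ValuationSubring (AlgebraicClosure ℚ)} {ℓ : ℕ}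
  {F : AlgebraicClosure ℚ ≃ₐ[ℚ] AlgebraicClosure ℚ}

/-- A Frobenius element is congruent to the `ℓ`-th power. -/
theorem frob_sub_pow_mem (hF : A.IsFrobeniusAt F ℓ) {z : AlgebraicClosure ℚ} (hz : z ∈ A) :
    F z - z ^ ℓ ∈ A.nonunits := by
  have h1 : F z ∈ A := by
    have h2 : F • z ∈ F • A := ValuationSubring.smul_mem_pointwise_smul _ _ _ hz
    have h3 : F • A = A := hF.mem_decompositionSubgroup
    rwa [h3] at h2
  rw [ValuationSubring.mem_nonunits_iff_exists_mem_maximalIdeal]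
  refine ⟨sub_mem h1 (pow_mem hz ℓ), ?_⟩
  have h4 := hF.smul_residue_eq (IsLocalRing.residue A ⟨z, hz⟩)
  rw [← IsLocalRing.ResidueField.residue_smul, ← map_pow, ← sub_eq_zero, ← map_sub,
    IsLocalRing.residue_eq_zero_iff] at h4
  exact h4

/-- An element with `F z ≡ z` is congruent to a rational integer modulo the maximal ideal. -/
theorem exists_int_gt (hℓ : ℓ.Prime) (hA : A.LiesOverPrime ℓ) (hF : A.IsFrobeniusAt F ℓ)
    {z : AlgebraicClosure ℚ} (hz : z ∈ A) (h : (valOf hℓ hA).Gt 0 (F z - z)) :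
    ∃ m : ℤ, (valOf hℓ hA).Gt 0 (z - m) := by
  have hfact : Fact ℓ.Prime := ⟨hℓ⟩
  have := charP_residueField_of_liesOver hℓ hA
  have h1 : (valOf hℓ hA).Gt 0 (z ^ ℓ - z) := by
    have h2 := h.sub ((valOf_gt_zero_iff hℓ hA).mpr (frob_sub_pow_mem hF hz))
    rwa [sub_sub_sub_cancel_left] at h2
  rw [valOf_gt_zero_iff, ValuationSubring.mem_nonunits_iff_exists_mem_maximalIdeal] at h1
  obtain ⟨ha, h3⟩ := h1
  have h4 : (IsLocalRing.residue A ⟨z, hz⟩) ^ ℓ = IsLocalRing.residue A ⟨z, hz⟩ := by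
    rw [← map_pow, ← sub_eq_zero, ← map_sub, IsLocalRing.residue_eq_zero_iff]
    exact h3
  rw [← Subfield.mem_bot_iff_pow_eq_self (IsLocalRing.ResidueField A) ℓ,
    mem_bot_iff_intCast ℓ] at h4
  obtain ⟨m, hm⟩ := h4
  refine ⟨m, ?_⟩
  rw [valOf_gt_zero_iff, ValuationSubring.mem_nonunits_iff_exists_mem_maximalIdeal]
  have hmA : ((m : ℤ) : AlgebraicClosure ℚ) ∈ A := intCast_mem A m
  refine ⟨sub_mem hz hmA, ?_⟩
  have h5 : IsLocalRing.residue A (⟨z, hz⟩ - ((m : ℤ) : A)) = 0 := by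
    rw [map_sub, map_intCast, hm, sub_self]
  rw [IsLocalRing.residue_eq_zero_iff] at h5
  convert h5 using 1
  exact Subtype.ext (by push_cast; rfl)

/-- **Approximation by rational integers.** -/
theorem exists_int_approx (hℓ : ℓ.Prime) (hA : A.LiesOverPrime ℓ) (hF : A.IsFrobeniusAt F ℓ)
    {z : AlgebraicClosure ℚ} (hz : z ∈ A) (hfix : ∀ σ ∈ A.inertiaSubgroupIn ℚ, σ z = z) {n : ℕ}
    (h : (valOf hℓ hA).Ge n (F z - z)) : ∃ m : ℤ, (valOf hℓ hA).Ge n (z - m) := by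
  induction n generalizing z with
  | zero =>
    refine ⟨0, ?_⟩
    rw [Int.cast_zero, sub_zero, Nat.cast_zero]
    exact (valOf_ge_zero_iff hℓ hA).mpr hz
  | succ n ih =>
    have hℓ0 : (ℓ : AlgebraicClosure ℚ) ≠ 0 := by exact_mod_cast hℓ.ne_zero
    have hval := valOf_prime hℓ hA
    obtain ⟨m₀, hm₀⟩ := exists_int_gt hℓ hA hF hz (h.gt (by push_cast; positivity))
    have hfix₀ : ∀ σ ∈ A.inertiaSubgroupIn ℚ,
        σ (z - (m₀ : AlgebraicClosure ℚ)) = z - (m₀ : AlgebraicClosure ℚ) := fun σ hσ => by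
      rw [map_sub, map_intCast, hfix σ hσ]
    have h1 : (valOf hℓ hA).Ge 1 (z - m₀) := by
      rcases eq_or_ne (z - (m₀ : AlgebraicClosure ℚ)) 0 with h0 | h0
      · rw [h0]
        exact QVal.ge_zero 1
      · obtain ⟨k, hk⟩ := val_int_of_inertia_fixed hℓ hA h0 hfix₀
        have h2 := hk.lt_of_gt hm₀
        have h3 : (1 : ℤ) ≤ k := by exact_mod_cast h2
        exact hk.ge.mono (by exact_mod_cast h3)
    set z₁ : AlgebraicClosure ℚ := (z - m₀) / ℓ with hz₁
    have hz₁m : z = m₀ + ℓ * z₁ := by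
      rw [hz₁]
      field_simp
      ring
    have hz₁A : z₁ ∈ A := by
      rw [← valOf_ge_zero_iff hℓ hA]
      have h2 : (valOf hℓ hA).Ge 1 ((ℓ : AlgebraicClosure ℚ) * z₁) := by
        rwa [hz₁, mul_div_cancel₀ _ hℓ0]
      have h3 := QVal.Ge.of_mul h2 hval
      exact h3.mono (by norm_num)
    have hfix₁ : ∀ σ ∈ A.inertiaSubgroupIn ℚ, σ z₁ = z₁ := fun σ hσ => by
      rw [hz₁, map_div₀, hfix₀ σ hσ, map_natCast]
    have h4 : (valOf hℓ hA).Ge n (F z₁ - z₁) := by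
      have h5 : (ℓ : AlgebraicClosure ℚ) * (F z₁ - z₁) = F z - z := by
        rw [hz₁m, map_add, map_mul, map_intCast, map_natCast]
        ring
      rw [← h5] at h
      exact (QVal.Ge.of_mul h hval).mono (by push_cast; linarith)
    obtain ⟨m₁, hm₁⟩ := ih hz₁A hfix₁ h4
    refine ⟨m₀ + ℓ * m₁, ?_⟩
    have h6 : z - ((m₀ + ℓ * m₁ : ℤ) : AlgebraicClosure ℚ) = ℓ * (z₁ - m₁) := by
      rw [hz₁m]
      push_cast
      ring
    rw [h6]
    exact (hval.ge.mul hm₁).mono (by push_cast; linarith)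

end Fermat.Agent.Cor.NOS
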