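import Mathlib.AlgebraicGeometry.EllipticCurve.DivisionPolynomial.Basic
import Mathlib.FieldTheory.IsAlgClosed.Basic
import Mathlib.Tactic

/-!
# Division polynomials of a cuspidal cubic

If `Δ = c₄ = 0`, then `b₂ = -12 c`, `b₄ = 6 c²`, `b₆ = -4 c³`, `b₈ = 3 c⁴` for some `c`
(over an algebraically closed field) and `ΨSq n = n² (X - c) ^ (n² - 1)`.
-/

set_option autoImplicit false

namespace Fermat.Agent.Cor.NOS

open Polynomial

section Seq

variable {R : Type*} [CommRing R]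

/-- The auxiliary elliptic divisibility sequence of a cusp. -/
theorem preNormEDS'_cusp (u : R) (j : ℕ) :
    preNormEDS' ((4 * u ^ 3) ^ 2) (3 * u ^ 4) (2 * u ^ 6) (2 * j + 1) =
      (2 * j + 1) * u ^ (2 * j * (j + 1)) ∧
    preNormEDS' ((4 * u ^ 3) ^ 2) (3 * u ^ 4) (2 * u ^ 6) (2 * j + 2) =
      (j + 1) * u ^ (2 * j * (j + 2)) := by
  set a : ℕ → R := preNormEDS' ((4 * u ^ 3) ^ 2) (3 * u ^ 4) (2 * u ^ 6) with ha
  have hodd : ∀ m : ℕ, a (2 * (m + 2) + 1) =
      a (m + 4) * a (m + 2) ^ 3 * (if Even m then ((4 * u ^ 3) ^ 2) else 1) -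
        a (m + 1) * a (m + 3) ^ 3 * (if Even m then 1 else ((4 * u ^ 3) ^ 2)) := fun m =>
    preNormEDS'_odd _ _ _ m
  have heven : ∀ m : ℕ, a (2 * (m + 3)) =
      a (m + 2) ^ 2 * a (m + 3) * a (m + 5) - a (m + 1) * a (m + 3) * a (m + 4) ^ 2 := fun m =>
    preNormEDS'_even _ _ _ m
  induction j using Nat.strong_induction_on with
  | _ j ih =>
    have o : ∀ i < j, a (2 * i + 1) = (2 * i + 1) * u ^ (2 * i * (i + 1)) := fun i hi => (ih i hi).1
    have e : ∀ i < j, a (2 * i + 2) = (i + 1) * u ^ (2 * i * (i + 2)) := fun i hi => (ih i hi).2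
    have h1 : a (2 * j + 1) = (2 * j + 1) * u ^ (2 * j * (j + 1)) := by
      rcases j with _ | _ | j
      · simp [ha]
      · simp [ha]
        norm_num
      · rcases Nat.even_or_odd' j with ⟨i, rfl | rfl⟩
        · refine (hodd (2 * i)).trans ?_
          rw [show 2 * i + 4 = 2 * (i + 1) + 2 by ring, show 2 * i + 3 = 2 * (i + 1) + 1 by ring,
            e (i + 1) (by omega), e i (by omega), o i (by omega), o (i + 1) (by omega),
            if_pos (even_two_mul i), if_pos (even_two_mul i)]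
          push_cast
          ring
        · refine (hodd (2 * i + 1)).trans ?_
          rw [show 2 * i + 1 + 4 = 2 * (i + 2) + 1 by ring, show 2 * i + 1 + 3 = 2 * (i + 1) + 2 by
            ring, show 2 * i + 1 + 2 = 2 * (i + 1) + 1 by ring,
            show 2 * i + 1 + 1 = 2 * i + 2 by ring,
            e (i + 1) (by omega), e i (by omega), o (i + 2) (by omega), o (i + 1) (by omega),
            if_neg (by simp), if_neg (by simp)]
          push_cast
          ring
    refine ⟨h1, ?_⟩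
    have o' : ∀ i ≤ j, a (2 * i + 1) = (2 * i + 1) * u ^ (2 * i * (i + 1)) := by
      intro i hi
      rcases hi.lt_or_eq with hi | rfl
      · exact o i hi
      · exact h1
    clear h1
    rcases j with _ | _ | j
    · simp [ha]
    · simp [ha]
      norm_num
    · rcases Nat.even_or_odd' j with ⟨i, rfl | rfl⟩
      · refine (heven (2 * i)).trans ?_
        rw [show 2 * i + 5 = 2 * (i + 2) + 1 by ring, show 2 * i + 4 = 2 * (i + 1) + 2 by ring,
          show 2 * i + 3 = 2 * (i + 1) + 1 by ring,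
          e (i + 1) (by omega), e i (by omega), o' i (by omega), o' (i + 1) (by omega),
          o' (i + 2) (by omega)]
        push_cast
        ring
      · refine (heven (2 * i + 1)).trans ?_
        rw [show 2 * i + 1 + 5 = 2 * (i + 2) + 2 by ring, show 2 * i + 1 + 4 = 2 * (i + 2) + 1 by
          ring, show 2 * i + 1 + 3 = 2 * (i + 1) + 2 by ring,
          show 2 * i + 1 + 2 = 2 * (i + 1) + 1 by ring,
          show 2 * i + 1 + 1 = 2 * i + 2 by ring,
          e (i + 1) (by omega), e i (by omega), e (i + 2) (by omega), o' (i + 2) (by omega),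
          o' (i + 1) (by omega)]
        push_cast
        ring

end Seq

section Curve

variable {k : Type*} [Field k] {V : WeierstrassCurve k} {c : k}

/-- The data of a cuspidal cubic with singular abscissa `c`. -/
structure IsCusp (V : WeierstrassCurve k) (c : k) : Prop where
  b₂ : V.b₂ = -12 * c
  b₄ : V.b₄ = 6 * c ^ 2
  b₆ : V.b₆ = -4 * c ^ 3
  b₈ : V.b₈ = 3 * c ^ 4

theorem IsCusp.eval_Ψ₂Sq (h : IsCusp V c) (x : k) : V.Ψ₂Sq.eval x = 4 * (x - c) ^ 3 := by
  simp only [WeierstrassCurve.Ψ₂Sq, eval_add, eval_mul, eval_C, eval_pow, eval_X, h.b₂, h.b₄, h.b₆]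
  ring

theorem IsCusp.eval_Ψ₃ (h : IsCusp V c) (x : k) : V.Ψ₃.eval x = 3 * (x - c) ^ 4 := by
  simp only [WeierstrassCurve.Ψ₃, eval_add, eval_mul, eval_C, eval_pow, eval_X, h.b₂, h.b₄, h.b₆,
    h.b₈, eval_ofNat]
  ring

theorem IsCusp.eval_preΨ₄ (h : IsCusp V c) (x : k) : V.preΨ₄.eval x = 2 * (x - c) ^ 6 := by
  simp only [WeierstrassCurve.preΨ₄, eval_add, eval_mul, eval_C, eval_pow, eval_X, h.b₂, h.b₄, h.b₆,
    h.b₈, eval_ofNat]
  ring

theorem eval_preΨ' (x : k) (n : ℕ) :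
    (V.preΨ' n).eval x = preNormEDS' ((V.Ψ₂Sq.eval x) ^ 2) (V.Ψ₃.eval x) (V.preΨ₄.eval x) n := by
  rw [WeierstrassCurve.preΨ', ← coe_evalRingHom, map_preNormEDS']
  simp

/-- `ΨSq n = n² (X - c) ^ (n² - 1)` for a cusp. -/
theorem IsCusp.eval_ΨSq (h : IsCusp V c) (n : ℕ) (hn : n ≠ 0) (x : k) :
    (V.ΨSq n).eval x = n ^ 2 * (x - c) ^ (n ^ 2 - 1) := by
  have h1 := eval_preΨ' (V := V) x n
  rw [h.eval_Ψ₂Sq, h.eval_Ψ₃, h.eval_preΨ₄] at h1
  rw [WeierstrassCurve.ΨSq_ofNat, eval_mul, eval_pow, h1]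
  obtain ⟨j, rfl | rfl⟩ : ∃ j, n = 2 * j + 1 ∨ n = 2 * j + 2 := by
    obtain ⟨m, hm | hm⟩ := Nat.even_or_odd' n
    · exact ⟨m - 1, Or.inr (by omega)⟩
    · exact ⟨m, Or.inl hm⟩
  · rw [(preNormEDS'_cusp (x - c) j).1, if_neg (by simp),
      show (2 * j + 1) ^ 2 - 1 = 2 * (2 * j * (j + 1)) by
        rw [show (2 * j + 1) ^ 2 = 2 * (2 * j * (j + 1)) + 1 by ring, Nat.add_sub_cancel]]
    rw [eval_one, mul_one]
    push_cast
    ring
  · rw [(preNormEDS'_cusp (x - c) j).2, if_pos (by simp [Nat.even_add]), h.eval_Ψ₂Sq,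
      show (2 * j + 2) ^ 2 - 1 = 2 * (2 * j * (j + 2)) + 3 by
        rw [show (2 * j + 2) ^ 2 = 2 * (2 * j * (j + 2)) + 3 + 1 by ring, Nat.add_sub_cancel]]
    push_cast
    ring

/-- A root of `ΨSq n` is the singular abscissa. -/
theorem IsCusp.eq_of_eval_eq_zero (h : IsCusp V c) {n : ℕ} (hn : (n : k) ≠ 0) {x : k}
    (hx : (V.ΨSq n).eval x = 0) : x = c := by
  have hn0 : n ≠ 0 := by
    rintro rfl
    exact hn Nat.cast_zero
  rw [h.eval_ΨSq n hn0] at hx
  rcases mul_eq_zero.mp hx with h1 | h1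
  · exact absurd (pow_eq_zero_iff two_ne_zero |>.mp h1) hn
  · exact sub_eq_zero.mp (eq_zero_of_pow_eq_zero h1)

/-- A cubic with `Δ = c₄ = 0` is a cusp. -/
theorem exists_isCusp [IsAlgClosed k] (hΔ : V.Δ = 0) (hc : V.c₄ = 0) : ∃ c, IsCusp V c := by
  have h8 := V.b_relation
  rw [WeierstrassCurve.c₄] at hc
  have hΔ' : -V.b₂ ^ 2 * V.b₈ - 8 * V.b₄ ^ 3 - 27 * V.b₆ ^ 2 + 9 * V.b₂ * V.b₄ * V.b₆ = 0 := by
    rw [← hΔ, WeierstrassCurve.Δ]
  by_cases h2 : (2 : k) = 0
  · have e3 : (3 : k) = 1 := by linear_combination h2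
    have hb2 : V.b₂ = 0 := by
      have : V.b₂ ^ 2 = 0 := by linear_combination hc + 12 * V.b₄ * h2
      exact pow_eq_zero_iff two_ne_zero |>.mp this
    have hb4 : V.b₄ = 0 := by
      have : V.b₄ ^ 2 = 0 := by
        rw [hb2] at h8
        linear_combination h8 - 2 * V.b₈ * h2
      exact pow_eq_zero_iff two_ne_zero |>.mp this
    have hb6 : V.b₆ = 0 := by
      have : V.b₆ ^ 2 = 0 := by
        rw [hb2, hb4] at hΔ'
        linear_combination -hΔ' - 13 * V.b₆ ^ 2 * h2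
      exact pow_eq_zero_iff two_ne_zero |>.mp this
    obtain ⟨c, hc4⟩ := IsAlgClosed.exists_pow_nat_eq V.b₈ (n := 4) (by norm_num)
    refine ⟨c, ?_, ?_, ?_, ?_⟩
    · rw [hb2]; linear_combination 6 * c * h2
    · rw [hb4]; linear_combination -3 * c ^ 2 * h2
    · rw [hb6]; linear_combination 2 * c ^ 3 * h2
    · rw [e3, hc4, one_mul]
  by_cases h3 : (3 : k) = 0
  · have hb2 : V.b₂ = 0 := by
      have : V.b₂ ^ 2 = 0 := by linear_combination hc + 8 * V.b₄ * h3
      exact pow_eq_zero_iff two_ne_zero |>.mp this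
    have hb4 : V.b₄ = 0 := by
      have : V.b₄ ^ 3 = 0 := by
        rw [hb2] at hΔ'
        linear_combination hΔ' + (3 * V.b₄ ^ 3 + 9 * V.b₆ ^ 2) * h3
      exact pow_eq_zero_iff three_ne_zero |>.mp this
    have hb8 : V.b₈ = 0 := by
      rw [hb2, hb4] at h8
      linear_combination h8 - V.b₈ * h3
    obtain ⟨c, hc3⟩ := IsAlgClosed.exists_pow_nat_eq (-V.b₆) (n := 3) (by norm_num)
    refine ⟨c, ?_, ?_, ?_, ?_⟩
    · rw [hb2]; linear_combination 4 * c * h3
    · rw [hb4]; linear_combination -2 * c ^ 2 * h3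
    · linear_combination hc3 + c ^ 3 * h3
    · rw [hb8]; linear_combination -c ^ 4 * h3
  have h12 : (12 : k) ≠ 0 := by
    intro h
    have : (2 : k) * 2 * 3 = 0 := by linear_combination h
    rcases mul_eq_zero.mp this with h | h
    · exact h2 (mul_self_eq_zero.mp h)
    · exact h3 h
  set c : k := -V.b₂ / 12 with hcdef
  have e2 : V.b₂ = -12 * c := by rw [hcdef]; field_simp
  clear_value c
  have h24 : (24 : k) ≠ 0 := by
    intro h
    have : (2 : k) * 12 = 0 := by linear_combination h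
    rcases mul_eq_zero.mp this with h | h
    · exact h2 h
    · exact h12 h
  have e4 : V.b₄ = 6 * c ^ 2 := by
    apply mul_left_cancel₀ h24
    rw [e2] at hc
    linear_combination -hc
  have e8 : 4 * V.b₈ = -12 * c * V.b₆ - 36 * c ^ 4 := by
    rw [e2, e4] at h8
    linear_combination h8
  have e6 : V.b₆ = -4 * c ^ 3 := by
    have h5 : 27 * (V.b₆ + 4 * c ^ 3) ^ 2 = 0 := by
      rw [e2, e4] at hΔ'
      linear_combination -hΔ' - 36 * c ^ 2 * e8
    rcases mul_eq_zero.mp h5 with h | h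
    · exact absurd (show (3 : k) = 0 from (pow_eq_zero_iff three_ne_zero).mp
        (by linear_combination h)) h3
    · linear_combination (pow_eq_zero_iff two_ne_zero).mp h
  refine ⟨c, e2, e4, e6, ?_⟩
  have h4 : (4 : k) ≠ 0 := by
    intro h
    exact h2 (mul_self_eq_zero.mp (by linear_combination h))
  apply mul_left_cancel₀ h4
  rw [e8, e6]
  ring

end Curve

end Fermat.Agent.Cor.NOS
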