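import Fermat.Agent.EC.MultPlace
import Fermat.Agent.EC.RedFrobMod
import Fermat.Agent.Corollaries.NOS.CuspEDS
import Fermat.Agent.S12.ZeroComp
import Fermat.Agent.Torsion.Mult

/-!
# Torsion points at a place of additive reduction

If `ℓ ∣ Δ` and `ℓ ∣ c₄`, all non-zero torsion points of order prime to `ℓ` reduce to the singular
point.
-/

set_option autoImplicit false

noncomputable section

open WeierstrassCurve WeierstrassCurve.Affine
open FermatAgent.ECVal FermatAgent.ECVal.QVal Fermat.Agent.ECRed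

namespace Fermat.Agent.Cor.NOS

variable {W : WeierstrassCurve ℤ} {A : ValuationSubring (AlgebraicClosure ℚ)} {ℓ : ℕ}

/-- The equation with coefficients in `A`. -/
abbrev WA (W : WeierstrassCurve ℤ) (A : ValuationSubring (AlgebraicClosure ℚ)) :
    WeierstrassCurve A := W.map (Int.castRingHom A)

theorem WA_map (W : WeierstrassCurve ℤ) (A : ValuationSubring (AlgebraicClosure ℚ)) :
    (WA W A).map (algebraMap A (AlgebraicClosure ℚ)) = EQ W := by
  change (W.map (Int.castRingHom A)).map (algebraMap A (AlgebraicClosure ℚ)) =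
    (W.map (Int.castRingHom ℚ)).map (algebraMap ℚ (AlgebraicClosure ℚ))
  rw [WeierstrassCurve.map_map, WeierstrassCurve.map_map]
  congr 1

theorem WA_residue (W : WeierstrassCurve ℤ) (A : ValuationSubring (AlgebraicClosure ℚ)) :
    (WA W A).map (IsLocalRing.residue A) = Ek W A := by
  change (W.map (Int.castRingHom A)).map (IsLocalRing.residue A) =
    W.map (Int.castRingHom (IsLocalRing.ResidueField A))
  rw [WeierstrassCurve.map_map]
  congr 1

theorem eval_ΨSq_coe (x : A) (n : ℤ) : ((EQ W).ΨSq n).eval (x : AlgebraicClosure ℚ) =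
    ((((WA W A).ΨSq n).eval x : A) : AlgebraicClosure ℚ) := by
  rw [← WA_map W A, WeierstrassCurve.map_ΨSq, Polynomial.eval_map]
  exact Polynomial.eval₂_at_apply (algebraMap A (AlgebraicClosure ℚ)) x

theorem eval_ΨSq_residue (x : A) (n : ℤ) :
    (WeierstrassCurve.ΨSq (Ek W A) n).eval (IsLocalRing.residue A x) =
      IsLocalRing.residue A (((WA W A).ΨSq n).eval x) := by
  rw [← WA_residue W A, WeierstrassCurve.map_ΨSq, Polynomial.eval_map]
  exact Polynomial.eval₂_at_apply (IsLocalRing.residue A) x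

theorem eval_Ψ₂Sq_coe (x : A) : ((EQ W).Ψ₂Sq).eval (x : AlgebraicClosure ℚ) =
    ((((WA W A).Ψ₂Sq).eval x : A) : AlgebraicClosure ℚ) := by
  rw [← WA_map W A, WeierstrassCurve.map_Ψ₂Sq, Polynomial.eval_map]
  exact Polynomial.eval₂_at_apply (algebraMap A (AlgebraicClosure ℚ)) x

theorem eval_Ψ₂Sq_residue (x : A) :
    (WeierstrassCurve.Ψ₂Sq (Ek W A)).eval (IsLocalRing.residue A x) =
      IsLocalRing.residue A (((WA W A).Ψ₂Sq).eval x) := by
  rw [← WA_residue W A, WeierstrassCurve.map_Ψ₂Sq, Polynomial.eval_map]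
  exact Polynomial.eval₂_at_apply (IsLocalRing.residue A) x

theorem gt_zero_iff_residue (hℓ : ℓ.Prime) (hA : A.LiesOverPrime ℓ) (z : A) :
    (valOf hℓ hA).Gt 0 (z : AlgebraicClosure ℚ) ↔ IsLocalRing.residue A z = 0 := by
  rw [valOf_gt_zero_iff, ValuationSubring.mem_nonunits_iff_exists_mem_maximalIdeal,
    IsLocalRing.residue_eq_zero_iff]
  exact ⟨fun ⟨_, h⟩ => h, fun h => ⟨z.2, h⟩⟩

/-- Torsion points of order prime to `ℓ` have integral coordinates. -/
theorem mem_of_torsion (hℓ : ℓ.Prime) (hA : A.LiesOverPrime ℓ) {n : ℕ} (hn : ¬ ℓ ∣ n)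
    {x y : AlgebraicClosure ℚ} {h : (EQ W).Nonsingular x y} (h0 : n • Point.some x y h = 0) :
    x ∈ A ∧ y ∈ A := by
  have hv : A.valuation ((n : ℕ) : AlgebraicClosure ℚ) = 1 := by
    have := val_intCast_eq_one A.valuation hℓ (lt_one_of_liesOver hA) (n := (n : ℤ))
      (by exact_mod_cast hn)
    rwa [Int.cast_natCast] at this
  have hint : ∀ m : ℤ, A.valuation ((m : ℤ) : AlgebraicClosure ℚ) ≤ 1 := fun m =>
    val_intCast_le _ m
  have h1 := le_one_of_nsmul_eq_zero' A.valuation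
    (by rw [EQ_a₁]; exact hint _) (by rw [EQ_a₂]; exact hint _)
    (by rw [EQ_a₃]; exact hint _) (by rw [EQ_a₄]; exact hint _)
    (by rw [EQ_a₆]; exact hint _) hv h0
  rwa [A.valuation_le_one_iff, A.valuation_le_one_iff] at h1

/-- **Torsion at a place of additive reduction**: all the non-zero torsion points of order prime
to `ℓ` reduce to the singular point. -/
theorem exists_center (hℓ : ℓ.Prime) (hA : A.LiesOverPrime ℓ) (hΔ : (ℓ : ℤ) ∣ W.Δ)
    (hc : (ℓ : ℤ) ∣ W.c₄) : ∃ c : AlgebraicClosure ℚ, c ∈ A ∧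
      ∀ n : ℕ, ¬ ℓ ∣ n → ∀ (x y : AlgebraicClosure ℚ) (h : (EQ W).Nonsingular x y),
        n • Point.some x y h = 0 → x ∈ A ∧ y ∈ A ∧ (valOf hℓ hA).Gt 0 (x - c) ∧
          (valOf hℓ hA).Gt 0 ((2 * y + (EQ W).a₁ * x + (EQ W).a₃) ^ 2) := by
  classical
  have hch := charP_residueField_of_liesOver hℓ hA
  have hΔk : WeierstrassCurve.Δ (Ek W A) = 0 := by
    rw [WeierstrassCurve.map_Δ, eq_intCast, CharP.intCast_eq_zero_iff _ ℓ]
    exact hΔ
  have hck : WeierstrassCurve.c₄ (Ek W A) = 0 := by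
    rw [WeierstrassCurve.map_c₄, eq_intCast, CharP.intCast_eq_zero_iff _ ℓ]
    exact hc
  obtain ⟨c', hc'⟩ := exists_isCusp hΔk hck
  obtain ⟨c, rfl⟩ := IsLocalRing.residue_surjective (R := A) c'
  refine ⟨c, c.2, fun n hn x y h h0 => ?_⟩
  obtain ⟨hx, hy⟩ := mem_of_torsion hℓ hA hn h0
  have h1 := (Fermat.Agent.Torsion.nsmul_eq_zero_iff h n).mp h0
  have h2 : ((WA W A).ΨSq n).eval (⟨x, hx⟩ : A) = 0 := by
    have h3 := eval_ΨSq_coe (W := W) (⟨x, hx⟩ : A) n
    rw [h1] at h3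
    exact_mod_cast h3.symm
  have h3 := eval_ΨSq_residue (W := W) (⟨x, hx⟩ : A) n
  rw [h2, map_zero] at h3
  have hnk : ((n : ℕ) : IsLocalRing.ResidueField A) ≠ 0 := by
    rw [Ne, CharP.cast_eq_zero_iff _ ℓ]
    exact hn
  have h4 := hc'.eq_of_eval_eq_zero hnk h3
  refine ⟨hx, hy, ?_, ?_⟩
  · have h5 := (gt_zero_iff_residue hℓ hA (⟨x, hx⟩ - c)).mpr (by rw [map_sub, h4, sub_self])
    simpa using h5
  · have h5 := hc'.eval_Ψ₂Sq (IsLocalRing.residue A ⟨x, hx⟩)
    rw [h4, sub_self, zero_pow three_ne_zero, mul_zero, ← h4, eval_Ψ₂Sq_residue] at h5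
    have h6 := (gt_zero_iff_residue hℓ hA _).mpr h5
    rw [← eval_Ψ₂Sq_coe] at h6
    have h7 := (Affine.equation_iff _ _).mp h.1
    have h8 : (2 * y + (EQ W).a₁ * x + (EQ W).a₃) ^ 2 = ((EQ W).Ψ₂Sq).eval x := by
      simp only [WeierstrassCurve.Ψ₂Sq, Polynomial.eval_add, Polynomial.eval_mul,
        Polynomial.eval_C, Polynomial.eval_pow, Polynomial.eval_X, WeierstrassCurve.b₂,
        WeierstrassCurve.b₄, WeierstrassCurve.b₆]
      linear_combination 4 * h7
    rw [h8]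
    exact h6

end Fermat.Agent.Cor.NOS
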