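import Fermat.Agent.Corollaries.NOS.Crit
import Fermat.Prelude.Def_WeierstrassCurve_ConductorLevel

/-!
# The type of reduction is an isogeny invariant

`W`, `W'` are Weierstrass equations over `ℤ`, minimal at `ℓ`, and `φ` is a homomorphism with finite
kernel, commuting with Galois, between the groups of points over `ℚ̄`. Then `W` and `W'` are both
good, both multiplicative, or both additive at `ℓ` (`ℓ = 2, 3` included).
-/

set_option autoImplicit false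

noncomputable section

open WeierstrassCurve WeierstrassCurve.Affine
open Fermat.Agent.ECRed
open Fermat.Agent.Cor.Mazur (Pt)
open Fermat.Agent.Cor.K1 (Gam)

namespace Fermat.Agent.Cor.NOS

variable {W W' : WeierstrassCurve ℤ} {A : ValuationSubring (AlgebraicClosure ℚ)} {ℓ p : ℕ}

/-! ### Torsion under an isogeny -/

theorem eq_zero_of_map_eq_zero (φ : Pt W →+ Pt W') [Finite φ.ker] (hp : p.Prime)
    (hpN : ¬ p ∣ Nat.card φ.ker) {n : ℕ} {x : Pt W} (hx : p ^ n • x = 0) (h : φ x = 0) :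
    x = 0 := by
  have h1 : addOrderOf (⟨x, h⟩ : φ.ker) ∣ Nat.card φ.ker := addOrderOf_dvd_natCard _
  have h2 : addOrderOf (⟨x, h⟩ : φ.ker) ∣ p ^ n :=
    addOrderOf_dvd_iff_nsmul_eq_zero.mpr (Subtype.ext hx)
  have h3 : Nat.Coprime (p ^ n) (Nat.card φ.ker) :=
    Nat.Coprime.pow_left n ((hp.coprime_iff_not_dvd).mpr hpN)
  have h4 : addOrderOf (⟨x, h⟩ : φ.ker) = 1 := Nat.eq_one_of_dvd_coprimes h3 h2 h1
  exact congrArg Subtype.val (AddMonoid.addOrderOf_eq_one_iff.mp h4)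

theorem exists_preimage (hΔ : W.Δ ≠ 0) (hΔ' : W'.Δ ≠ 0) (φ : Pt W →+ Pt W') [Finite φ.ker]
    (hp : p.Prime) (hpN : ¬ p ∣ Nat.card φ.ker) {n : ℕ} {y : Pt W'} (hy : p ^ n • y = 0) :
    ∃ x : Pt W, p ^ n • x = 0 ∧ φ x = y := by
  have hpn : p ^ n ≠ 0 := pow_ne_zero _ hp.ne_zero
  have c1 := card_torsion hΔ hpn
  have c2 := card_torsion hΔ' hpn
  have hpos : (p ^ n) ^ 2 ≠ 0 := pow_ne_zero _ hpn
  have f1 : Finite {P : Pt W // p ^ n • P = 0} := Nat.finite_of_card_ne_zero (by rwa [c1])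
  have f2 : Finite {P : Pt W' // p ^ n • P = 0} := Nat.finite_of_card_ne_zero (by rwa [c2])
  let f : {P : Pt W // p ^ n • P = 0} → {P : Pt W' // p ^ n • P = 0} :=
    fun P => ⟨φ P.1, by rw [← map_nsmul, P.2, _root_.map_zero]⟩
  have hf : Function.Injective f := by
    intro P Q h
    have h1 : φ (P.1 - Q.1) = 0 := by
      rw [map_sub, sub_eq_zero]
      exact congrArg Subtype.val h
    have h2 := eq_zero_of_map_eq_zero φ hp hpN (n := n) (x := P.1 - Q.1)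
      (by rw [nsmul_sub, P.2, Q.2, sub_zero]) h1
    exact Subtype.ext (sub_eq_zero.mp h2)
  obtain ⟨x, hx⟩ := (hf.bijective_of_nat_card_le (by rw [c1, c2])).2 ⟨y, hy⟩
  exact ⟨x.1, x.2, congrArg Subtype.val hx⟩

theorem FixedBy.map {φ : Pt W →+ Pt W'} (hφ : ∀ (σ : Gam) (x : Pt W), φ (σ • x) = σ • φ x)
    {x : Pt W} (h : FixedBy A x) : FixedBy A (φ x) := fun σ hσ => by
  rw [← hφ, h σ hσ]

theorem fixedBy_of_map {φ : Pt W →+ Pt W'} (hφ : ∀ (σ : Gam) (x : Pt W), φ (σ • x) = σ • φ x)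
    [Finite φ.ker] (hp : p.Prime) (hpN : ¬ p ∣ Nat.card φ.ker) {n : ℕ} {x : Pt W}
    (hx : p ^ n • x = 0) (h : FixedBy A (φ x)) : FixedBy A x := fun σ hσ => by
  have h1 : φ (σ • x - x) = 0 := by rw [map_sub, hφ, h σ hσ, sub_self]
  have h2 := eq_zero_of_map_eq_zero φ hp hpN (n := n) (x := σ • x - x)
    (by rw [nsmul_sub, hx, sub_zero, ← natCast_zsmul, ← Point.algEquiv_smul_zsmul, natCast_zsmul,
      hx, smul_zero (A := Pt W) σ]) h1
  exact sub_eq_zero.mp h2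

/-! ### The type of reduction -/

/-- A prime which is large enough. -/
theorem exists_good_prime (N ℓ : ℕ) (hN : N ≠ 0) :
    ∃ p : ℕ, p.Prime ∧ 5 ≤ p ∧ p ≠ ℓ ∧ ¬ p ∣ N := by
  obtain ⟨p, hp1, hp⟩ := Nat.exists_infinite_primes (N + ℓ + 5)
  refine ⟨p, hp, by omega, by omega, fun h => ?_⟩
  have := Nat.le_of_dvd (Nat.pos_of_ne_zero hN) h
  omega

section Main

variable (hΔ : W.Δ ≠ 0) (hΔ' : W'.Δ ≠ 0) (hℓ : ℓ.Prime) (hmin : MinimalAt W ℓ)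
  (hmin' : MinimalAt W' ℓ) (φ : Pt W →+ Pt W') (hker : Finite φ.ker)
  (hφ : ∀ (σ : Gam) (x : Pt W), φ (σ • x) = σ • φ x)

include hΔ hΔ' hℓ hmin hmin' hker hφ

/-- **Additive reduction is an isogeny invariant.** -/
theorem isAdditiveAt_iff : IsAdditiveAt W ℓ ↔ IsAdditiveAt W' ℓ := by
  obtain ⟨A, hA⟩ := Fermat.Agent.Frob.exists_liesOverPrime ℓ hℓ
  obtain ⟨p, hp, hp5, hne, hpN⟩ := exists_good_prime (Nat.card φ.ker) ℓ Nat.card_pos.ne'
  rw [← not_iff_not, semistable_iff hΔ hℓ hmin hA hp hp5 hne,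
    semistable_iff hΔ' hℓ hmin' hA hp hp5 hne]
  constructor
  · rintro ⟨P, hP0, hpP, hfix⟩
    refine ⟨φ P, fun h => hP0 ?_, by rw [← map_nsmul, hpP, _root_.map_zero], hfix.map hφ⟩
    exact eq_zero_of_map_eq_zero φ hp hpN (n := 1) (by rwa [pow_one]) h
  · rintro ⟨P', hP0, hpP, hfix⟩
    obtain ⟨P, hpP', rfl⟩ := exists_preimage hΔ hΔ' φ hp hpN (n := 1) (by rwa [pow_one])
    refine ⟨P, ?_, by rwa [pow_one] at hpP', fixedBy_of_map hφ hp hpN hpP' hfix⟩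
    rintro rfl
    exact hP0 (_root_.map_zero φ)

/-- **Good reduction is an isogeny invariant.** -/
theorem dvd_Δ_iff : (ℓ : ℤ) ∣ W.Δ ↔ (ℓ : ℤ) ∣ W'.Δ := by
  obtain ⟨A, hA⟩ := Fermat.Agent.Frob.exists_liesOverPrime ℓ hℓ
  obtain ⟨p, hp, hp5, hne, hpN⟩ := exists_good_prime (Nat.card φ.ker) ℓ Nat.card_pos.ne'
  rw [← not_iff_not, good_iff hΔ hℓ hmin hA hp (by omega) hne,
    good_iff hΔ' hℓ hmin' hA hp (by omega) hne]
  constructor
  · intro h n y hy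
    obtain ⟨x, hx, rfl⟩ := exists_preimage hΔ hΔ' φ hp hpN hy
    exact (h n x hx).map hφ
  · intro h n x hx
    exact fixedBy_of_map hφ hp hpN hx (h n (φ x) (by rw [← map_nsmul, hx, _root_.map_zero]))

/-- **Multiplicative reduction is an isogeny invariant.** -/
theorem isMultAt_iff : IsMultAt W ℓ ↔ IsMultAt W' ℓ := by
  have h1 := isAdditiveAt_iff hΔ hΔ' hℓ hmin hmin' φ hker hφ
  have h2 := dvd_Δ_iff hΔ hΔ' hℓ hmin hmin' φ hker hφ
  constructor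
  · intro h
    exact ⟨hℓ, h2.mp h.dvd, fun hc => h.ndvd (h1.mpr ⟨h2.mp h.dvd, hc⟩).2, hΔ'⟩
  · intro h
    exact ⟨hℓ, h2.mpr h.dvd, fun hc => h.ndvd (h1.mp ⟨h2.mpr h.dvd, hc⟩).2, hΔ⟩

end Main

/-! ### Minimal and semistable models -/

/-- An equation which is not minimal comes from a smaller one. -/
theorem exists_model_of_not_minimalAt (hℓ : ℓ.Prime) (h : ¬ MinimalAt W ℓ) :
    ∃ (W₁ : WeierstrassCurve ℤ) (C : VariableChange ℚ),
      C • W.map (Int.castRingHom ℚ) = W₁.map (Int.castRingHom ℚ) ∧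
      W.Δ = (ℓ : ℤ) ^ 12 * W₁.Δ ∧ W.c₄ = (ℓ : ℤ) ^ 4 * W₁.c₄ := by
  obtain ⟨r, s, t, ⟨b₁, h₁⟩, ⟨b₂, h₂⟩, ⟨b₃, h₃⟩, ⟨b₄, h₄⟩, ⟨b₆, h₆⟩⟩ := not_not.mp h
  have hℓ0 : (ℓ : ℚ) ≠ 0 := by exact_mod_cast hℓ.ne_zero
  let C : VariableChange ℚ := ⟨Units.mk0 (ℓ : ℚ) hℓ0, r, s, t⟩
  have hC : C • W.map (Int.castRingHom ℚ) =
      (⟨b₁, b₂, b₃, b₄, b₆⟩ : WeierstrassCurve ℤ).map (Int.castRingHom ℚ) := by
    have e₁ : (W.a₁ : ℚ) + 2 * s = ℓ * b₁ := by exact_mod_cast h₁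
    have e₂ : (W.a₂ : ℚ) - s * W.a₁ + 3 * r - s ^ 2 = ℓ ^ 2 * b₂ := by exact_mod_cast h₂
    have e₃ : (W.a₃ : ℚ) + r * W.a₁ + 2 * t = ℓ ^ 3 * b₃ := by exact_mod_cast h₃
    have e₄ : (W.a₄ : ℚ) - s * W.a₃ + 2 * r * W.a₂ - (t + r * s) * W.a₁ + 3 * r ^ 2 - 2 * s * t =
      ℓ ^ 4 * b₄ := by exact_mod_cast h₄
    have e₆ : (W.a₆ : ℚ) + r * W.a₄ + r ^ 2 * W.a₂ + r ^ 3 - t * W.a₃ - t ^ 2 - r * t * W.a₁ =
      ℓ ^ 6 * b₆ := by exact_mod_cast h₆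
    ext
    · rw [variableChange_a₁, map_a₁, map_a₁]
      simp only [C, eq_intCast, Units.val_inv_eq_inv_val, Units.val_mk0]
      rw [e₁]
      field_simp
    · rw [variableChange_a₂, map_a₁, map_a₂, map_a₂]
      simp only [C, eq_intCast, Units.val_inv_eq_inv_val, Units.val_mk0]
      rw [e₂]
      field_simp
    · rw [variableChange_a₃, map_a₁, map_a₃, map_a₃]
      simp only [C, eq_intCast, Units.val_inv_eq_inv_val, Units.val_mk0]
      rw [e₃]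
      field_simp
    · rw [variableChange_a₄, map_a₁, map_a₂, map_a₃, map_a₄, map_a₄]
      simp only [C, eq_intCast, Units.val_inv_eq_inv_val, Units.val_mk0]
      rw [e₄]
      field_simp
    · rw [variableChange_a₆, map_a₁, map_a₂, map_a₃, map_a₄, map_a₆, map_a₆]
      simp only [C, eq_intCast, Units.val_inv_eq_inv_val, Units.val_mk0]
      rw [e₆]
      field_simp
  refine ⟨_, C, hC, ?_, ?_⟩
  · have h := congrArg WeierstrassCurve.Δ hC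
    rw [variableChange_Δ, map_Δ, map_Δ] at h
    simp only [C, eq_intCast, Units.val_inv_eq_inv_val, Units.val_mk0] at h
    have h' : (W.Δ : ℚ) = ℓ ^ 12 * ((⟨b₁, b₂, b₃, b₄, b₆⟩ : WeierstrassCurve ℤ).Δ : ℤ) := by
      rw [← h]
      field_simp
    exact_mod_cast h'
  · have h := congrArg WeierstrassCurve.c₄ hC
    rw [variableChange_c₄, map_c₄, map_c₄] at h
    simp only [C, eq_intCast, Units.val_inv_eq_inv_val, Units.val_mk0] at h
    have h' : (W.c₄ : ℚ) = ℓ ^ 4 * ((⟨b₁, b₂, b₃, b₄, b₆⟩ : WeierstrassCurve ℤ).c₄ : ℤ) := by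
      rw [← h]
      field_simp
    exact_mod_cast h'

theorem minimalAt_of_not_isAdditiveAt (hℓ : ℓ.Prime) (h : ¬ IsAdditiveAt W ℓ) : MinimalAt W ℓ := by
  by_contra hmin
  obtain ⟨W₁, -, -, h1, h2⟩ := exists_model_of_not_minimalAt hℓ hmin
  refine h ⟨?_, ?_⟩
  · rw [h1]
    exact dvd_mul_of_dvd_left (dvd_pow_self _ (by norm_num)) _
  · rw [h2]
    exact dvd_mul_of_dvd_left (dvd_pow_self _ (by norm_num)) _

theorem isSemistableModel_iff_forall : W.IsSemistableModel ↔ ∀ ℓ : ℕ, ℓ.Prime → ¬ IsAdditiveAt W ℓ :=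
  ⟨fun h ℓ hℓ h' => h ℓ hℓ h'.1 h'.2, fun h ℓ hℓ h1 h2 => h ℓ hℓ ⟨h1, h2⟩⟩

/-- A semistable model is minimal at every prime. -/
theorem minimalAt_of_isSemistableModel (hW : W.IsSemistableModel) (hℓ : ℓ.Prime) :
    MinimalAt W ℓ :=
  minimalAt_of_not_isAdditiveAt hℓ (isSemistableModel_iff_forall.mp hW ℓ hℓ)

/-- **Semistability is an isogeny invariant.** -/
theorem isSemistableModel_iff (hΔ : W.Δ ≠ 0) (hΔ' : W'.Δ ≠ 0)
    (hmin : ∀ ℓ : ℕ, ℓ.Prime → MinimalAt W ℓ) (hmin' : ∀ ℓ : ℕ, ℓ.Prime → MinimalAt W' ℓ)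
    (φ : Pt W →+ Pt W') (hker : Finite φ.ker)
    (hφ : ∀ (σ : Gam) (x : Pt W), φ (σ • x) = σ • φ x) :
    W.IsSemistableModel ↔ W'.IsSemistableModel := by
  rw [isSemistableModel_iff_forall, isSemistableModel_iff_forall]
  exact forall₂_congr fun ℓ hℓ => not_congr
    (isAdditiveAt_iff hΔ hΔ' hℓ (hmin ℓ hℓ) (hmin' ℓ hℓ) φ hker hφ)

/-- **Isogenous curves have the same primes of bad reduction.** -/
theorem conductorLevel_eq (hΔ : W.Δ ≠ 0) (hΔ' : W'.Δ ≠ 0)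
    (hmin : ∀ ℓ : ℕ, ℓ.Prime → MinimalAt W ℓ) (hmin' : ∀ ℓ : ℕ, ℓ.Prime → MinimalAt W' ℓ)
    (φ : Pt W →+ Pt W') (hker : Finite φ.ker)
    (hφ : ∀ (σ : Gam) (x : Pt W), φ (σ • x) = σ • φ x) :
    W.conductorLevel = W'.conductorLevel := by
  have h1 : W.Δ.natAbs.primeFactors = W'.Δ.natAbs.primeFactors := by
    ext ℓ
    rw [Nat.mem_primeFactors, Nat.mem_primeFactors]
    constructor
    · rintro ⟨hℓ, hd, -⟩
      refine ⟨hℓ, ?_, Int.natAbs_ne_zero.mpr hΔ'⟩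
      exact Int.natCast_dvd.mp ((dvd_Δ_iff hΔ hΔ' hℓ (hmin ℓ hℓ) (hmin' ℓ hℓ) φ hker hφ).mp
        (Int.natCast_dvd.mpr hd))
    · rintro ⟨hℓ, hd, -⟩
      refine ⟨hℓ, ?_, Int.natAbs_ne_zero.mpr hΔ⟩
      exact Int.natCast_dvd.mp ((dvd_Δ_iff hΔ hΔ' hℓ (hmin ℓ hℓ) (hmin' ℓ hℓ) φ hker hφ).mpr
        (Int.natCast_dvd.mpr hd))
  unfold WeierstrassCurve.conductorLevel
  rw [Nat.radical_eq_prod_primeFactors, Nat.radical_eq_prod_primeFactors, h1]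

end Fermat.Agent.Cor.NOS
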