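import Fermat.Agent.Corollaries.NOS.SemistableIff
import Fermat.Agent.Corollaries.NOS.Invar

/-!
# A curve with the traces of a semistable curve is semistable

* `companion` : `W` semistable, `W'` minimal at every prime, `a_q(W) = a_q(W')` for almost all `q`:
  then `W'` is semistable and has the same primes of bad reduction.
-/

set_option autoImplicit false

noncomputable section

open WeierstrassCurve
open Fermat.Agent.ECRed

namespace Fermat.Agent.Cor.NOS

variable {W W' : WeierstrassCurve ℤ}

/-- **A curve with almost all `a_q` equal to those of a semistable curve is semistable, of the same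
conductor.** -/
theorem companion (hΔ : W.Δ ≠ 0) (hΔ' : W'.Δ ≠ 0) (hmin' : ∀ q : ℕ, q.Prime → MinimalAt W' q)
    (hW : W.IsSemistableModel) {S : Set ℕ} (hS : S.Finite)
    (h : ∀ q : ℕ, q.Prime → q ∉ S → W.IsGoodPrimeFor q → W'.IsGoodPrimeFor q →
      W.apOfModel q = W'.apOfModel q) :
    W'.IsSemistableModel ∧ W'.conductorLevel = W.conductorLevel := by
  have hN : W.conductorLevel ≠ 0 := W.squarefree_conductorLevel.ne_zero
  have h1 := isModularModelOfLevel_conductor hΔ hW
  have h2 := (isModularModelOfLevel_congr hN hΔ hΔ' hS h).mp h1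
  have hW' := isSemistableModel_of_squarefree W.squarefree_conductorLevel hΔ' h2 hmin'
  have hN' : W'.conductorLevel ≠ 0 := W'.squarefree_conductorLevel.ne_zero
  have h3 := isModularModelOfLevel_conductor hΔ' hW'
  have h4 := (isModularModelOfLevel_congr hN' hΔ hΔ' hS h).mpr h3
  exact ⟨hW', Nat.dvd_antisymm (conductorLevel_dvd_level hN hΔ' h2 hmin')
    (conductorLevel_dvd_level hN' hΔ h4 fun q hq => minimalAt_of_isSemistableModel hW hq)⟩

end Fermat.Agent.Cor.NOS
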