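import Fermat.Agent.Corollaries.NOS.Descent
import Fermat.Agent.Corollaries.Isog.Inert

/-!
# The criteria of Néron-Ogg-Shafarevich and of semistability

`W` is a Weierstrass equation over `ℤ` which is minimal at `ℓ`, and `A` is a place of `ℚ̄` above
`ℓ`.

* `semistable_iff` : `W` is not additive at `ℓ` iff some point of order `p` is fixed by inertia
  (`p ≥ 5` prime, `p ≠ ℓ`);
* `good_iff` : `W` is good at `ℓ` iff inertia acts trivially on the `p`-power torsion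
  (`p ≠ ℓ` odd prime);
* `semistableAt_of_point` : a point of any order `N ≥ 5` prime to `ℓ` fixed by inertia excludes
  additive reduction.
-/

set_option autoImplicit false

noncomputable section

open WeierstrassCurve WeierstrassCurve.Affine
open FermatAgent.ECVal FermatAgent.ECVal.QVal Fermat.Agent.ECRed
open Fermat.Agent.Cor.Mazur (Pt)
open Fermat.Agent.Cor.K1 (Gam)

namespace Fermat.Agent.Cor.NOS

variable {W : WeierstrassCurve ℤ} {A : ValuationSubring (AlgebraicClosure ℚ)} {ℓ p : ℕ}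

/-- `W` is additive at `ℓ`. -/
def IsAdditiveAt (W : WeierstrassCurve ℤ) (ℓ : ℕ) : Prop := (ℓ : ℤ) ∣ W.Δ ∧ (ℓ : ℤ) ∣ W.c₄

/-- The inertia group of `A` fixes `P`. -/
def FixedBy (A : ValuationSubring (AlgebraicClosure ℚ)) (P : Pt W) : Prop :=
  ∀ σ ∈ A.inertiaSubgroupIn ℚ, σ • P = P

/-! ### Points of given order -/

theorem exists_nsmul_eq (hΔ : W.Δ ≠ 0) {n : ℕ} (hn : n ≠ 0) (P : Pt W) : ∃ Q : Pt W, n • Q = P := by
  classical
  have hΔ' : (EQ W).Δ ≠ 0 := by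
    rw [EQ_Δ]
    exact_mod_cast hΔ
  exact Torsion.surjective_nsmul hΔ' hn P

theorem card_torsion (hΔ : W.Δ ≠ 0) {n : ℕ} (hn : n ≠ 0) :
    Nat.card {P : Pt W // n • P = 0} = n ^ 2 := by
  classical
  have hΔ' : (EQ W).Δ ≠ 0 := by
    rw [EQ_Δ]
    exact_mod_cast hΔ
  exact Torsion.card_torsion hΔ' (by exact_mod_cast hn)

theorem exists_addOrderOf (hΔ : W.Δ ≠ 0) (hp : p.Prime) (n : ℕ) :
    ∃ P : Pt W, addOrderOf P = p ^ n := by
  classical
  induction n with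
  | zero => exact ⟨0, by simp⟩
  | succ n ih =>
    obtain ⟨P, hP⟩ := ih
    have hfact : Fact p.Prime := ⟨hp⟩
    rcases n with _ | n
    · have h1 := card_torsion hΔ hp.ne_zero
      have h2 : 1 < Nat.card {P : Pt W // p • P = 0} := by
        rw [h1]
        exact Nat.one_lt_pow two_ne_zero hp.one_lt
      have hfin : Finite {P : Pt W // p • P = 0} := Nat.finite_of_card_ne_zero (by omega)
      have hnt : Nontrivial {P : Pt W // p • P = 0} :=
        Finite.one_lt_card_iff_nontrivial.mp h2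
      obtain ⟨Q, hQ⟩ := exists_ne (⟨0, nsmul_zero p⟩ : {P : Pt W // p • P = 0})
      refine ⟨Q, ?_⟩
      rw [zero_add, pow_one]
      exact addOrderOf_eq_prime Q.2 fun h => hQ (Subtype.ext h)
    · obtain ⟨Q, hQ⟩ := exists_nsmul_eq hΔ hp.ne_zero P
      refine ⟨Q, addOrderOf_eq_prime_pow ?_ ?_⟩
      · rw [pow_succ, mul_smul, hQ]
        intro h
        have h1 := addOrderOf_dvd_iff_nsmul_eq_zero.mpr h
        rw [hP] at h1
        have h2 := Nat.le_of_dvd (pow_pos hp.pos n) h1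
        have h3 : p ^ n < p ^ (n + 1) := Nat.pow_lt_pow_right hp.one_lt (Nat.lt_succ_self n)
        omega
      · rw [pow_succ, mul_smul, hQ, ← hP]
        exact addOrderOf_nsmul_eq_zero P

/-! ### Good and multiplicative reduction -/

theorem valuation_natCast_eq_one (hℓ : ℓ.Prime) (hA : A.LiesOverPrime ℓ) {n : ℕ} (hn : ¬ ℓ ∣ n) :
    A.valuation ((n : ℕ) : AlgebraicClosure ℚ) = 1 := by
  have := val_intCast_eq_one A.valuation hℓ (lt_one_of_liesOver hA) (n := (n : ℤ))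
    (by exact_mod_cast hn)
  rwa [Int.cast_natCast] at this

/-- Good reduction: inertia acts trivially on the torsion prime to `ℓ`. -/
theorem fixedBy_of_good (hℓ : ℓ.Prime) (hA : A.LiesOverPrime ℓ) (hΔ : ¬ (ℓ : ℤ) ∣ W.Δ) {n : ℕ}
    (hn : ¬ ℓ ∣ n) {P : Pt W} (hP : n • P = 0) : FixedBy A P := by
  classical
  intro σ hσ
  have hch := charP_residueField_of_liesOver hℓ hA
  refine smul_eq_of_torsion_of_good (W' := W.map (Int.castRingHom ℚ)) hσ
    (valuation_natCast_eq_one hℓ hA hn) (redEk W A) ?_ hP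
  rw [WeierstrassCurve.map_Δ, eq_intCast, Ne, CharP.intCast_eq_zero_iff _ ℓ]
  exact hΔ

/-- Multiplicative reduction: some point of order `p` is fixed by inertia. -/
theorem exists_fixedBy_of_mult (hW : IsMultAt W ℓ) (hA : A.LiesOverPrime ℓ) (hp : p.Prime)
    (hp2 : p ≠ 2) (hne : p ≠ ℓ) : ∃ P : Pt W, P ≠ 0 ∧ p • P = 0 ∧ FixedBy A P := by
  classical
  by_cases h : ∀ P : Pt W, p • P = 0 → FixedBy A P
  · obtain ⟨P, hP⟩ := exists_addOrderOf hW.ne hp 1
    rw [pow_one] at hP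
    refine ⟨P, ?_, ?_, ?_⟩
    · rintro rfl
      rw [addOrderOf_zero] at hP
      exact hp.ne_one hP.symm
    · rw [← hP]
      exact addOrderOf_nsmul_eq_zero P
    · exact h P (by rw [← hP]; exact addOrderOf_nsmul_eq_zero P)
  · push Not at h
    obtain ⟨P, hP, hPf⟩ := h
    unfold FixedBy at hPf
    push Not at hPf
    obtain ⟨σ, hσ, hne'⟩ := hPf
    have hn : ¬ ℓ ∣ p := fun h => hne ((Nat.prime_dvd_prime_iff_eq hW.prime hp).mp h).symm
    refine ⟨σ • P - P, sub_ne_zero.mpr hne', ?_, fun τ hτ => ?_⟩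
    · rw [nsmul_sub, hP, sub_zero, ← natCast_zsmul, ← Point.algEquiv_smul_zsmul, natCast_zsmul,
        hP, smul_zero (A := Pt W) σ]
    · obtain ⟨R, hR⟩ := inertia_smul_sub_mem hW hp hp2 hA hσ hP
      refine smul_eq_of_torsion_of_mem_E0 (W' := W.map (Int.castRingHom ℚ)) hτ
        (valuation_natCast_eq_one hW.prime hA hn) (redEk W A) hR ?_
      rw [nsmul_sub, hP, sub_zero, ← natCast_zsmul, ← Point.algEquiv_smul_zsmul, natCast_zsmul,
        hP, smul_zero (A := Pt W) σ]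

theorem isMultAt_of_not_additive (hΔ0 : W.Δ ≠ 0) (hℓ : ℓ.Prime) (hΔ : (ℓ : ℤ) ∣ W.Δ)
    (h : ¬ IsAdditiveAt W ℓ) : IsMultAt W ℓ := ⟨hℓ, hΔ, fun hc => h ⟨hΔ, hc⟩, hΔ0⟩

/-! ### The criteria -/

/-- **A point of order `N ≥ 5` prime to `ℓ` fixed by inertia excludes additive reduction.** -/
theorem not_isAdditiveAt_of_point (hΔ0 : W.Δ ≠ 0) (hℓ : ℓ.Prime) (hmin : MinimalAt W ℓ)
    (hA : A.LiesOverPrime ℓ) {P : Pt W} (hN5 : 5 ≤ addOrderOf P) (hℓN : ¬ ℓ ∣ addOrderOf P)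
    (hfix : FixedBy A P) : ¬ IsAdditiveAt W ℓ := fun h =>
  not_minimalAt_of_fixed hΔ0 hℓ hA h.1 h.2 hN5 hℓN hfix hmin

/-- **The criterion of semistability.** -/
theorem semistable_iff (hΔ0 : W.Δ ≠ 0) (hℓ : ℓ.Prime) (hmin : MinimalAt W ℓ)
    (hA : A.LiesOverPrime ℓ) (hp : p.Prime) (hp5 : 5 ≤ p) (hne : p ≠ ℓ) :
    ¬ IsAdditiveAt W ℓ ↔ ∃ P : Pt W, P ≠ 0 ∧ p • P = 0 ∧ FixedBy A P := by
  have hn : ¬ ℓ ∣ p := fun h => hne ((Nat.prime_dvd_prime_iff_eq hℓ hp).mp h).symm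
  constructor
  · intro h
    by_cases hΔ : (ℓ : ℤ) ∣ W.Δ
    · exact exists_fixedBy_of_mult (isMultAt_of_not_additive hΔ0 hℓ hΔ h) hA hp (by omega) hne
    · obtain ⟨P, hP⟩ := exists_addOrderOf hΔ0 hp 1
      rw [pow_one] at hP
      have h0 : p • P = 0 := by rw [← hP]; exact addOrderOf_nsmul_eq_zero P
      refine ⟨P, ?_, h0, fixedBy_of_good hℓ hA hΔ hn h0⟩
      rintro rfl
      rw [addOrderOf_zero] at hP
      exact hp.ne_one hP.symm
  · rintro ⟨P, hP0, hpP, hfix⟩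
    have hfact : Fact p.Prime := ⟨hp⟩
    have hord : addOrderOf P = p := addOrderOf_eq_prime hpP hP0
    exact not_isAdditiveAt_of_point hΔ0 hℓ hmin hA (by rwa [hord]) (by rwa [hord]) hfix

/-- **The criterion of Néron-Ogg-Shafarevich** for the Tate module at an odd prime `p ≠ ℓ`. -/
theorem good_iff (hΔ0 : W.Δ ≠ 0) (hℓ : ℓ.Prime) (hmin : MinimalAt W ℓ)
    (hA : A.LiesOverPrime ℓ) (hp : p.Prime) (hp2 : p ≠ 2) (hne : p ≠ ℓ) :
    ¬ (ℓ : ℤ) ∣ W.Δ ↔ ∀ (n : ℕ) (P : Pt W), p ^ n • P = 0 → FixedBy A P := by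
  have hn : ∀ n : ℕ, ¬ ℓ ∣ p ^ n := fun n h =>
    hne ((Nat.prime_dvd_prime_iff_eq hℓ hp).mp (hℓ.dvd_of_dvd_pow h)).symm
  constructor
  · intro hΔ n P hP
    exact fixedBy_of_good hℓ hA hΔ (hn n) hP
  · intro h hΔ
    by_cases hc : IsAdditiveAt W ℓ
    · obtain ⟨P, hP⟩ := exists_addOrderOf hΔ0 hp 3
      refine not_isAdditiveAt_of_point hΔ0 hℓ hmin hA (P := P) ?_ ?_ (h 3 P ?_) hc
      · rw [hP]
        calc 5 ≤ 2 ^ 3 := by norm_num
          _ ≤ p ^ 3 := Nat.pow_le_pow_left hp.two_le 3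
      · rw [hP]
        exact hn 3
      · rw [← hP]
        exact addOrderOf_nsmul_eq_zero P
    · obtain ⟨σ, hσ, n, x, hx, hne'⟩ :=
        Isog.exists_inertia_ne (isMultAt_of_not_additive hΔ0 hℓ hΔ hc) hp hp2 hA
      exact hne' (h n x hx σ hσ)

end Fermat.Agent.Cor.NOS
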