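import Fermat.Agent.ECVal.QbarVal

/-!
# Reducible equations

`IsReducible w V r s t` : after the change of variables `x = X + r`, `y = Y + s X + t` the
coefficient `a_i` of the Weierstrass equation `V` has value at least `i`, so that the equation is
not minimal for `w`.
-/

set_option autoImplicit false

namespace Fermat.Agent.Cor.NOS

open FermatAgent.ECVal

/-- The change of variables `(1, r, s, t)` makes `a_i` divisible by the `i`-th power of the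
uniformizer (`w` is normalized by `w(ℓ) = 1`). -/
structure IsReducible {K : Type*} [Field K] (w : QVal K) (V : WeierstrassCurve K) (r s t : K) :
    Prop where
  a₁ : w.Ge 1 (V.a₁ + 2 * s)
  a₂ : w.Ge 2 (V.a₂ - s * V.a₁ + 3 * r - s ^ 2)
  a₃ : w.Ge 3 (V.a₃ + r * V.a₁ + 2 * t)
  a₄ : w.Ge 4 (V.a₄ - s * V.a₃ + 2 * r * V.a₂ - (t + r * s) * V.a₁ + 3 * r ^ 2 - 2 * s * t)
  a₆ : w.Ge 6 (V.a₆ + r * V.a₄ + r ^ 2 * V.a₂ + r ^ 3 - t * V.a₃ - t ^ 2 - r * t * V.a₁)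

/-- `W` is minimal at `ℓ`: no integral change of variables makes all `a_i` divisible by `ℓ ^ i`. -/
def MinimalAt (W : WeierstrassCurve ℤ) (ℓ : ℕ) : Prop :=
  ¬ ∃ r s t : ℤ, (ℓ : ℤ) ∣ W.a₁ + 2 * s ∧
    (ℓ : ℤ) ^ 2 ∣ W.a₂ - s * W.a₁ + 3 * r - s ^ 2 ∧
    (ℓ : ℤ) ^ 3 ∣ W.a₃ + r * W.a₁ + 2 * t ∧
    (ℓ : ℤ) ^ 4 ∣ W.a₄ - s * W.a₃ + 2 * r * W.a₂ - (t + r * s) * W.a₁ + 3 * r ^ 2 - 2 * s * t ∧
    (ℓ : ℤ) ^ 6 ∣ W.a₆ + r * W.a₄ + r ^ 2 * W.a₂ + r ^ 3 - t * W.a₃ - t ^ 2 - r * t * W.a₁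

end Fermat.Agent.Cor.NOS
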