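import Fermat.Agent.Corollaries.NOS.Tate

/-!
# An inertia fixed torsion point excludes additive reduction

Descent to `ℤ` of the reducing change of variables, by Frobenius.
-/

set_option autoImplicit false

noncomputable section

open WeierstrassCurve WeierstrassCurve.Affine
open FermatAgent.ECVal FermatAgent.ECVal.QVal Fermat.Agent.ECRed

namespace Fermat.Agent.Cor.NOS

variable {W : WeierstrassCurve ℤ} {A : ValuationSubring (AlgebraicClosure ℚ)} {ℓ : ℕ}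

theorem ge_apply (hℓ : ℓ.Prime) (hA : A.LiesOverPrime ℓ)
    {F : AlgebraicClosure ℚ ≃ₐ[ℚ] AlgebraicClosure ℚ} (hF : F ∈ A.decompositionSubgroup ℚ) {q : ℚ}
    {z : AlgebraicClosure ℚ} (h : (valOf hℓ hA).Ge q z) : (valOf hℓ hA).Ge q (F z) := by
  rcases h with h | h
  · left
    rw [h, map_zero]
  · by_cases hz : z = 0
    · left
      rw [hz, map_zero]
    · right
      rwa [valOf_val_of_mem_decomposition hℓ hA hF hz]

/-- A conjugate of a reducing change of variables. -/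
theorem isReducible_apply (hℓ : ℓ.Prime) (hA : A.LiesOverPrime ℓ)
    {F : AlgebraicClosure ℚ ≃ₐ[ℚ] AlgebraicClosure ℚ} (hF : F ∈ A.decompositionSubgroup ℚ)
    {r s t : AlgebraicClosure ℚ} (h : IsReducible (valOf hℓ hA) (EQ W) r s t) :
    IsReducible (valOf hℓ hA) (EQ W) (F r) (F s) (F t) := by
  refine ⟨?_, ?_, ?_, ?_, ?_⟩
  · convert ge_apply hℓ hA hF h.a₁ using 1
    simp only [map_mul, map_add, EQ_a₁, map_intCast, map_ofNat]
  · convert ge_apply hℓ hA hF h.a₂ using 1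
    simp only [map_mul, map_add, map_sub, map_pow, EQ_a₁, EQ_a₂, map_intCast, map_ofNat]
  · convert ge_apply hℓ hA hF h.a₃ using 1
    simp only [map_mul, map_add, EQ_a₁, EQ_a₃, map_intCast, map_ofNat]
  · convert ge_apply hℓ hA hF h.a₄ using 1
    simp only [map_mul, map_add, map_sub, map_pow, EQ_a₁, EQ_a₂, EQ_a₃, EQ_a₄, map_intCast,
      map_ofNat]
  · convert ge_apply hℓ hA hF h.a₆ using 1
    simp only [map_mul, map_add, map_sub, map_pow, EQ_a₁, EQ_a₂, EQ_a₃, EQ_a₄, EQ_a₆, map_intCast]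

/-- **Descent**: a reducing change of variables over the maximal unramified extension gives one
over `ℤ`. -/
theorem not_minimalAt_of_isReducible (hℓ : ℓ.Prime) (hA : A.LiesOverPrime ℓ)
    {r s t : AlgebraicClosure ℚ} (hr : r ∈ A) (hs : s ∈ A) (ht : t ∈ A)
    (hfix : ∀ σ ∈ A.inertiaSubgroupIn ℚ, σ r = r ∧ σ s = s ∧ σ t = t)
    (h : IsReducible (valOf hℓ hA) (EQ W) r s t) : ¬ MinimalAt W ℓ := by
  obtain ⟨F, hF⟩ := Fermat.Agent.Frob.exists_isFrobeniusAt hℓ hA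
  have hFd := hF.mem_decompositionSubgroup
  obtain ⟨u1, u2, -⟩ := h.unique (isReducible_apply hℓ hA hFd h)
  obtain ⟨r₀, hr₀⟩ := exists_int_approx hℓ hA hF hr (fun σ hσ => (hfix σ hσ).1) (n := 2)
    (by exact_mod_cast u1)
  obtain ⟨s₀, hs₀⟩ := exists_int_approx hℓ hA hF hs (fun σ hσ => (hfix σ hσ).2.1) (n := 1)
    (by exact_mod_cast u2)
  have hr₁ : (valOf hℓ hA).Ge 2 ((r₀ : AlgebraicClosure ℚ) - r) := by
    have := hr₀.neg
    rw [neg_sub] at this
    exact_mod_cast this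
  have hs₁ : (valOf hℓ hA).Ge 1 ((s₀ : AlgebraicClosure ℚ) - s) := by
    have := hs₀.neg
    rw [neg_sub] at this
    exact_mod_cast this
  set t₁ : AlgebraicClosure ℚ := t + s * (r₀ - r) with ht₁
  have h1 : IsReducible (valOf hℓ hA) (EQ W) (r₀ : AlgebraicClosure ℚ) s₀ t₁ := by
    refine h.congr hr₁ hs₁ ?_
    convert ge_zero (w := valOf hℓ hA) 3 using 1
    rw [ht₁]
    ring
  have h2 := isReducible_apply hℓ hA hFd h1
  rw [map_intCast, map_intCast] at h2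
  obtain ⟨-, -, u3⟩ := h1.unique h2
  rw [sub_self, mul_zero, sub_zero] at u3
  have ht₁A : t₁ ∈ A := add_mem ht (mul_mem hs (sub_mem (intCast_mem A r₀) hr))
  obtain ⟨t₀, ht₀⟩ := exists_int_approx hℓ hA hF ht₁A (fun σ hσ => by
    obtain ⟨e1, e2, e3⟩ := hfix σ hσ
    rw [ht₁, map_add, map_mul, map_sub, e1, e2, e3, map_intCast]) (n := 3) (by exact_mod_cast u3)
  have ht₂ : (valOf hℓ hA).Ge 3 ((t₀ : AlgebraicClosure ℚ) - t₁) := by
    have := ht₀.neg
    rw [neg_sub] at this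
    exact_mod_cast this
  have h3 : IsReducible (valOf hℓ hA) (EQ W) (r₀ : AlgebraicClosure ℚ) s₀ (t₀ : AlgebraicClosure ℚ) := by
    refine h1.congr (by rw [sub_self]; exact ge_zero _) (by rw [sub_self]; exact ge_zero _) ?_
    rw [sub_self, mul_zero, sub_zero]
    exact ht₂
  intro hmin
  apply hmin
  refine ⟨r₀, s₀, t₀, ?_, ?_, ?_, ?_, ?_⟩
  · have := h3.a₁
    rw [EQ_a₁] at this
    rw [← pow_one (ℓ : ℤ), ← Mazur.Cusp.ge_intCast_iff hℓ hA]
    exact_mod_cast this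
  · have := h3.a₂
    rw [EQ_a₁, EQ_a₂] at this
    rw [← Mazur.Cusp.ge_intCast_iff hℓ hA]
    exact_mod_cast this
  · have := h3.a₃
    rw [EQ_a₁, EQ_a₃] at this
    rw [← Mazur.Cusp.ge_intCast_iff hℓ hA]
    exact_mod_cast this
  · have := h3.a₄
    rw [EQ_a₁, EQ_a₂, EQ_a₃, EQ_a₄] at this
    rw [← Mazur.Cusp.ge_intCast_iff hℓ hA]
    exact_mod_cast this
  · have := h3.a₆
    rw [EQ_a₁, EQ_a₂, EQ_a₃, EQ_a₄, EQ_a₆] at this
    rw [← Mazur.Cusp.ge_intCast_iff hℓ hA]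
    exact_mod_cast this

/-- **(N1)** A torsion point of order `N ≥ 5`, `ℓ ∤ N`, which is fixed by the inertia group of a
place above `ℓ` excludes additive reduction of an equation which is minimal at `ℓ`. -/
theorem not_minimalAt_of_fixed (hΔ0 : W.Δ ≠ 0) (hℓ : ℓ.Prime) (hA : A.LiesOverPrime ℓ)
    (hΔ : (ℓ : ℤ) ∣ W.Δ) (hc : (ℓ : ℤ) ∣ W.c₄) {P : Mazur.Pt W}
    (hN5 : 5 ≤ addOrderOf P) (hℓN : ¬ ℓ ∣ addOrderOf P)
    (hfix : ∀ σ ∈ A.inertiaSubgroupIn ℚ, σ • P = P) : ¬ MinimalAt W ℓ := by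
  obtain ⟨r, s, t, hr, hs, ht, hf, h⟩ := exists_isReducible (P := P) hΔ0 hℓ hA hΔ hc rfl hN5 hℓN hfix
  exact not_minimalAt_of_isReducible hℓ hA hr hs ht hf h

end Fermat.Agent.Cor.NOS
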