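import Fermat.Agent.Corollaries.NOS.Defs

/-!
# Changes of variables between reducible equations

Two changes of variables `(1, r, s, t)` and `(1, r', s', t')` which make the coefficients `a_i` of a
Weierstrass equation divisible by `ℓ ^ i` differ by `(1, ρ, σ, τ)` with `w(ρ) ≥ 2`, `w(σ) ≥ 1`,
`w(τ) ≥ 3` (a change of variables between two integral equations with `u = 1` is integral), and
conversely.
-/

set_option autoImplicit false

namespace Fermat.Agent.Cor.NOS

open FermatAgent.ECVal FermatAgent.ECVal.QVal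

variable {K : Type*} [Field K] {w : QVal K}

/-! ### Monic equations -/

lemma ge_of_quadratic {r : ℚ} {y a b : K} (h : y ^ 2 + a * y + b = 0) (ha : w.Ge r a)
    (hb : w.Ge (2 * r) b) : w.Ge r y :=
  roots_ge (a := y) (b := -a - y) (s := -a) (t := b) (by ring) (by linear_combination -h) ha.neg hb

lemma ge_of_cubic {r : ℚ} {y a b c : K} (h : y ^ 3 + a * y ^ 2 + b * y + c = 0) (ha : w.Ge r a)
    (hb : w.Ge (2 * r) b) (hc : w.Ge (3 * r) c) : w.Ge r y := by
  by_contra hcon
  obtain ⟨hy0, hy⟩ := not_ge_iff.mp hcon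
  have h1 : w.Is (w.val y) y := Is.of_ne hy0
  have h3 : w.Is (3 * w.val y) (y ^ 3) := by exact_mod_cast h1.pow 3
  have h4 : w.Gt (3 * w.val y) (a * y ^ 2 + b * y + c) :=
    (((ha.mul h1.sq.ge).gt (by linarith)).add ((hb.mul h1.ge).gt (by linarith))).add
      (hc.gt (by linarith))
  have h5 : y ^ 3 = -(a * y ^ 2 + b * y + c) := by linear_combination h
  rw [h5] at h3
  exact absurd (h3.lt_of_gt h4.neg) (lt_irrefl _)

lemma ge_of_quartic {r : ℚ} {y a b c d : K} (h : y ^ 4 + a * y ^ 3 + b * y ^ 2 + c * y + d = 0)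
    (ha : w.Ge r a) (hb : w.Ge (2 * r) b) (hc : w.Ge (3 * r) c) (hd : w.Ge (4 * r) d) :
    w.Ge r y := by
  by_contra hcon
  obtain ⟨hy0, hy⟩ := not_ge_iff.mp hcon
  have h1 : w.Is (w.val y) y := Is.of_ne hy0
  have h2 : w.Is (3 * w.val y) (y ^ 3) := by exact_mod_cast h1.pow 3
  have h3 : w.Is (4 * w.val y) (y ^ 4) := by exact_mod_cast h1.pow 4
  have h4 : w.Gt (4 * w.val y) (a * y ^ 3 + b * y ^ 2 + c * y + d) :=
    ((((ha.mul h2.ge).gt (by linarith)).add ((hb.mul h1.sq.ge).gt (by linarith))).add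
      ((hc.mul h1.ge).gt (by linarith))).add (hd.gt (by linarith))
  have h5 : y ^ 4 = -(a * y ^ 3 + b * y ^ 2 + c * y + d) := by linear_combination h
  rw [h5] at h3
  exact absurd (h3.lt_of_gt h4.neg) (lt_irrefl _)

/-! ### Composition of changes of variables -/

/-- The equation after the change of variables `(1, r, s, t)`. -/
def chg (V : WeierstrassCurve K) (r s t : K) : WeierstrassCurve K where
  a₁ := V.a₁ + 2 * s
  a₂ := V.a₂ - s * V.a₁ + 3 * r - s ^ 2
  a₃ := V.a₃ + r * V.a₁ + 2 * t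
  a₄ := V.a₄ - s * V.a₃ + 2 * r * V.a₂ - (t + r * s) * V.a₁ + 3 * r ^ 2 - 2 * s * t
  a₆ := V.a₆ + r * V.a₄ + r ^ 2 * V.a₂ + r ^ 3 - t * V.a₃ - t ^ 2 - r * t * V.a₁

lemma chg_zero (V : WeierstrassCurve K) : chg V 0 0 0 = V := by
  ext <;> simp [chg]

lemma chg_chg (V : WeierstrassCurve K) (r s t r' s' t' : K) :
    chg (chg V r s t) r' s' t' = chg V (r + r') (s + s') (t + t' + s * r') := by
  ext <;> simp only [chg] <;> ring

/-- All coefficients `a_i` have value at least `i`. -/
structure Red (w : QVal K) (V : WeierstrassCurve K) : Prop where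
  a₁ : w.Ge 1 V.a₁
  a₂ : w.Ge 2 V.a₂
  a₃ : w.Ge 3 V.a₃
  a₄ : w.Ge 4 V.a₄
  a₆ : w.Ge 6 V.a₆

lemma isReducible_iff {V : WeierstrassCurve K} {r s t : K} :
    IsReducible w V r s t ↔ Red w (chg V r s t) :=
  ⟨fun h => ⟨h.a₁, h.a₂, h.a₃, h.a₄, h.a₆⟩, fun h => ⟨h.a₁, h.a₂, h.a₃, h.a₄, h.a₆⟩⟩

namespace Red

variable {V : WeierstrassCurve K}

lemma b₂ (h : Red w V) : w.Ge 2 V.b₂ := by
  rw [WeierstrassCurve.b₂]
  exact ((h.a₁.sq).mono (by norm_num)).add ((ge_four.mul h.a₂).mono (by norm_num))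

lemma b₄ (h : Red w V) : w.Ge 4 V.b₄ := by
  rw [WeierstrassCurve.b₄]
  exact ((ge_two.mul h.a₄).mono (by norm_num)).add ((h.a₁.mul h.a₃).mono (by norm_num))

lemma b₆ (h : Red w V) : w.Ge 6 V.b₆ := by
  rw [WeierstrassCurve.b₆]
  exact ((h.a₃.sq).mono (by norm_num)).add ((ge_four.mul h.a₆).mono (by norm_num))

lemma b₈ (h : Red w V) : w.Ge 8 V.b₈ := by
  rw [WeierstrassCurve.b₈]
  exact ((((((h.a₁.sq.mul h.a₆).mono (by norm_num)).add
    (((ge_four.mul h.a₂).mul h.a₆).mono (by norm_num))).sub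
    (((h.a₁.mul h.a₃).mul h.a₄).mono (by norm_num))).add
    ((h.a₂.mul h.a₃.sq).mono (by norm_num))).sub (h.a₄.sq.mono (by norm_num)))

end Red

/-- **A change of variables with `u = 1` between two integral equations is integral.** -/
theorem red_chg_iff {V : WeierstrassCurve K} (h : Red w V) {r s t : K} :
    Red w (chg V r s t) ↔ w.Ge 2 r ∧ w.Ge 1 s ∧ w.Ge 3 t := by
  constructor
  · intro h'
    have h4 : w.Ge 2 (4 * r) := by
      refine ge_of_cubic (y := 4 * r) (a := V.b₂) (b := 8 * V.b₄)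
        (c := 16 * (V.b₆ - (chg V r s t).b₆)) ?_ h.b₂ ?_ ?_
      · simp only [chg, WeierstrassCurve.b₂, WeierstrassCurve.b₄, WeierstrassCurve.b₆]
        ring
      · have h8 : w.Ge 0 (8 : K) := by exact_mod_cast ge_natCast (w := w) 8
        exact (h8.mul h.b₄).mono (by norm_num)
      · have h8 : w.Ge 0 (16 : K) := by exact_mod_cast ge_natCast (w := w) 16
        exact (h8.mul (h.b₆.sub h'.b₆)).mono (by norm_num)
    have h3 : w.Ge 2 (3 * r) := by
      refine ge_of_quartic (y := 3 * r) (a := V.b₂) (b := 9 * V.b₄) (c := 27 * V.b₆)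
        (d := 27 * (V.b₈ - (chg V r s t).b₈)) ?_ h.b₂ ?_ ?_ ?_
      · simp only [chg, WeierstrassCurve.b₂, WeierstrassCurve.b₄, WeierstrassCurve.b₆,
          WeierstrassCurve.b₈]
        ring
      · have h8 : w.Ge 0 (9 : K) := by exact_mod_cast ge_natCast (w := w) 9
        exact (h8.mul h.b₄).mono (by norm_num)
      · have h8 : w.Ge 0 (27 : K) := by exact_mod_cast ge_natCast (w := w) 27
        exact (h8.mul h.b₆).mono (by norm_num)
      · have h8 : w.Ge 0 (27 : K) := by exact_mod_cast ge_natCast (w := w) 27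
        exact (h8.mul (h.b₈.sub h'.b₈)).mono (by norm_num)
    have hr : w.Ge 2 r := by
      have : r = 4 * r - 3 * r := by ring
      rw [this]
      exact h4.sub h3
    have g3 : w.Ge 0 (3 : K) := by exact_mod_cast ge_natCast (w := w) 3
    have hs : w.Ge 1 s := by
      refine ge_of_quadratic (y := s) (a := V.a₁) (b := -(V.a₂ - (chg V r s t).a₂ + 3 * r))
        (by simp only [chg]; ring) h.a₁ ?_
      exact (((h.a₂.sub h'.a₂).add ((g3.mul hr).mono (by norm_num))).neg).mono (by norm_num)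
    refine ⟨hr, hs, ?_⟩
    refine ge_of_quadratic (y := t) (a := V.a₃ + r * V.a₁)
      (b := -(V.a₆ - (chg V r s t).a₆ + r * V.a₄ + r ^ 2 * V.a₂ + r ^ 3))
      (by simp only [chg]; ring) (h.a₃.add ((hr.mul h.a₁).mono (by norm_num))) ?_
    have hr3 : w.Ge 6 (r ^ 3) := by
      have := hr.pow 3
      norm_num at this
      exact this
    exact (((((h.a₆.sub h'.a₆).add ((hr.mul h.a₄).mono (by norm_num))).add
      ((hr.sq.mul h.a₂).mono (by norm_num))).add hr3).neg).mono (by norm_num)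
  · rintro ⟨hr, hs, ht⟩
    have g2 : w.Ge 0 (2 : K) := ge_two
    have g3 : w.Ge 0 (3 : K) := by exact_mod_cast ge_natCast (w := w) 3
    have hr3 : w.Ge 6 (r ^ 3) := by
      have := hr.pow 3
      norm_num at this
      exact this
    refine ⟨?_, ?_, ?_, ?_, ?_⟩
    · exact h.a₁.add ((g2.mul hs).mono (by norm_num))
    · exact ((h.a₂.sub ((hs.mul h.a₁).mono (by norm_num))).add
        ((g3.mul hr).mono (by norm_num))).sub (hs.sq.mono (by norm_num))
    · exact (h.a₃.add ((hr.mul h.a₁).mono (by norm_num))).add ((g2.mul ht).mono (by norm_num))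
    · exact ((((h.a₄.sub ((hs.mul h.a₃).mono (by norm_num))).add
        (((g2.mul hr).mul h.a₂).mono (by norm_num))).sub
        (((ht.add ((hr.mul hs).mono (by norm_num))).mul h.a₁).mono (by norm_num))).add
        ((g3.mul hr.sq).mono (by norm_num))).sub (((g2.mul hs).mul ht).mono (by norm_num))
    · exact (((((h.a₆.add ((hr.mul h.a₄).mono (by norm_num))).add
        ((hr.sq.mul h.a₂).mono (by norm_num))).add hr3).sub
        ((ht.mul h.a₃).mono (by norm_num))).sub (ht.sq.mono (by norm_num))).sub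
        (((hr.mul ht).mul h.a₁).mono (by norm_num))

/-- **The reducing changes of variables are a congruence class** (no hypothesis on the residue
characteristic). -/
theorem IsReducible.iff_congr {V : WeierstrassCurve K} {r s t r' s' t' : K}
    (h : IsReducible w V r s t) :
    IsReducible w V r' s' t' ↔
      w.Ge 2 (r' - r) ∧ w.Ge 1 (s' - s) ∧ w.Ge 3 (t' - t - s * (r' - r)) := by
  rw [isReducible_iff] at h ⊢
  rw [← red_chg_iff h, chg_chg]
  have e1 : r + (r' - r) = r' := by ring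
  have e2 : s + (s' - s) = s' := by ring
  have e3 : t + (t' - t - s * (r' - r)) + s * (r' - r) = t' := by ring
  rw [e1, e2, e3]

/-- Two reducing changes of variables are congruent. -/
theorem IsReducible.unique {V : WeierstrassCurve K} {r s t r' s' t' : K}
    (h : IsReducible w V r s t) (h' : IsReducible w V r' s' t') :
    w.Ge 2 (r' - r) ∧ w.Ge 1 (s' - s) ∧ w.Ge 3 (t' - t - s * (r' - r)) :=
  h.iff_congr.mp h'

/-- Two reducing changes of variables are congruent. -/
theorem change_unique (_h43 : w.Is 0 (4 : K) ∨ w.Is 0 (3 : K)) {V : WeierstrassCurve K}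
    {r s t r' s' t' : K} (h : IsReducible w V r s t) (h' : IsReducible w V r' s' t') :
    w.Ge 2 (r' - r) ∧ w.Ge 1 (s' - s) ∧ w.Ge 3 (t' - t - s * (r' - r)) :=
  h.unique h'

/-- A change of variables which is congruent to a reducing one is reducing. -/
theorem IsReducible.congr {V : WeierstrassCurve K} {r s t r' s' t' : K}
    (h : IsReducible w V r s t) (hr : w.Ge 2 (r' - r)) (hs : w.Ge 1 (s' - s))
    (ht : w.Ge 3 (t' - t - s * (r' - r))) : IsReducible w V r' s' t' :=
  h.iff_congr.mpr ⟨hr, hs, ht⟩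

end Fermat.Agent.Cor.NOS
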