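import Fermat.Agent.Corollaries.NOS.Groth
import Fermat.Agent.Corollaries.NOS.Almost

/-!
# Isogenous elliptic curves over `ℚ`

`φ : W(ℚ̄) → W'(ℚ̄)` a Galois equivariant homomorphism with finite kernel, `W`, `W'` minimal at `ℓ`.

* `dvd_Δ_iff_of_isog` : `W` has good reduction at `ℓ` if and only if `W'` has;
* `isAdditiveAt_iff_of_isog`, `isMultAt_iff_of_isog` : the same for additive and multiplicative
  reduction;
* `isModularModelOfLevel_iff_of_isog` : `W` is modular of level `N` if and only if `W'` is.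
-/

set_option autoImplicit false
set_option linter.style.haveILetI false

noncomputable section

open Polynomial WeierstrassCurve WeierstrassCurve.Affine WeierstrassCurve.Affine.Point
open Fermat.Agent Fermat.Agent.ECFrob Fermat.Agent.Torsion Fermat.Agent.ECRed Fermat.Agent.Ribet
open ModularFormClass CongruenceSubgroup
open Fermat.Agent.Cor.Mazur (Pt)

namespace Fermat.Agent.Cor.NOS

variable {W W' : WeierstrassCurve ℤ} {φ : Pt W →+ Pt W'}

theorem nsmul_galois_smul (m : ℕ) (σ : AlgebraicClosure ℚ ≃ₐ[ℚ] AlgebraicClosure ℚ) (P : Pt W) :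
    m • (σ • P) = σ • (m • P) := by
  rw [← natCast_zsmul, ← Point.algEquiv_smul_zsmul, natCast_zsmul]

/-- On the points killed by `m`, prime to the order of the kernel, `φ` is injective. -/
theorem eq_zero_of_isog (_hker : Finite φ.ker) {m : ℕ} (hm : m.Coprime (Nat.card φ.ker)) {P : Pt W}
    (hP : m • P = 0) (h : φ P = 0) : P = 0 := by
  have h2 : m • (⟨P, h⟩ : φ.ker) = 0 := Subtype.ext hP
  have h3 : Nat.card φ.ker • (⟨P, h⟩ : φ.ker) = 0 := card_nsmul_eq_zero'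
  have h4 : addOrderOf (⟨P, h⟩ : φ.ker) ∣ 1 := by
    rw [← hm]
    exact Nat.dvd_gcd (addOrderOf_dvd_of_nsmul_eq_zero h2) (addOrderOf_dvd_of_nsmul_eq_zero h3)
  have h5 := addOrderOf_dvd_iff_nsmul_eq_zero.mp h4
  rw [one_smul] at h5
  exact congrArg Subtype.val h5

/-- On the points killed by `m`, prime to the order of the kernel, `φ` is surjective. -/
theorem exists_eq_of_isog (hΔ : W.Δ ≠ 0) (hΔ' : W'.Δ ≠ 0) (hker : Finite φ.ker) {m : ℕ}
    (hm0 : m ≠ 0) (hm : m.Coprime (Nat.card φ.ker)) {Q : Pt W'} (hQ : m • Q = 0) :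
    ∃ P : Pt W, m • P = 0 ∧ φ P = Q := by
  let f : Submodule.torsionBy ℤ (Pt W) (m : ℤ) → Submodule.torsionBy ℤ (Pt W') (m : ℤ) :=
    fun x => ⟨φ x.1, by
      have h1 := x.2
      rw [Submodule.mem_torsionBy_iff] at h1 ⊢
      rw [← map_zsmul, h1, _root_.map_zero]⟩
  have hinj : Function.Injective f := by
    intro x y hxy
    have h1 : φ x.1 = φ y.1 := congrArg Subtype.val hxy
    have hx := x.2
    have hy := y.2
    rw [Submodule.mem_torsionBy_iff, natCast_zsmul] at hx hy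
    have h2 : x.1 - y.1 = 0 := eq_zero_of_isog hker hm (by rw [nsmul_sub, hx, hy, sub_zero])
      (by rw [map_sub, h1, sub_self])
    exact Subtype.ext (sub_eq_zero.mp h2)
  have h1 := Torsion.card_torsionBy_rat (map_Δ_ne_zero hΔ) hm0
  have h2 := Torsion.card_torsionBy_rat (map_Δ_ne_zero hΔ') hm0
  have : Finite (Submodule.torsionBy ℤ (Pt W) (m : ℤ)) :=
    Nat.finite_of_card_ne_zero (by rw [h1]; positivity)
  have : Finite (Submodule.torsionBy ℤ (Pt W') (m : ℤ)) :=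
    Nat.finite_of_card_ne_zero (by rw [h2]; positivity)
  have hbij : Function.Bijective f :=
    (Nat.bijective_iff_injective_and_card f).mpr ⟨hinj, h1.trans h2.symm⟩
  obtain ⟨x, hx⟩ := hbij.2 ⟨Q, by rw [Submodule.mem_torsionBy_iff, natCast_zsmul]; exact hQ⟩
  have hx2 := x.2
  rw [Submodule.mem_torsionBy_iff, natCast_zsmul] at hx2
  exact ⟨x.1, hx2, congrArg Subtype.val hx⟩

/-- **Isogenous curves have good reduction at the same primes.** -/
theorem dvd_Δ_iff_of_isog (hΔ : W.Δ ≠ 0) (hΔ' : W'.Δ ≠ 0)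
    (hφ : ∀ (σ : AlgebraicClosure ℚ ≃ₐ[ℚ] AlgebraicClosure ℚ) (P : Pt W), φ (σ • P) = σ • φ P)
    (hker : Finite φ.ker) {ℓ : ℕ} (hℓ : ℓ.Prime) (hmin : MinimalAt W ℓ) (hmin' : MinimalAt W' ℓ) :
    (ℓ : ℤ) ∣ W.Δ ↔ (ℓ : ℤ) ∣ W'.Δ := by
  obtain ⟨A, hA⟩ := Fermat.Agent.Frob.exists_liesOverPrime ℓ hℓ
  have hpos : 0 < Nat.card φ.ker := Nat.card_pos
  obtain ⟨p, hp, hp'⟩ := Nat.exists_infinite_primes (Nat.card φ.ker + ℓ + 5)
  have hcop : ∀ n : ℕ, (p ^ n).Coprime (Nat.card φ.ker) := fun n => Nat.Coprime.pow_left n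
    ((Nat.Prime.coprime_iff_not_dvd hp').mpr fun hd => by
      have := Nat.le_of_dvd hpos hd
      omega)
  rw [← not_iff_not, good_iff hΔ hℓ hmin hA hp' (by omega) (by omega),
    good_iff hΔ' hℓ hmin' hA hp' (by omega) (by omega)]
  constructor
  · intro h n Q hQ σ hσ
    obtain ⟨P, hP, rfl⟩ := exists_eq_of_isog hΔ hΔ' hker (pow_ne_zero n hp'.ne_zero) (hcop n) hQ
    rw [← hφ, h n P hP σ hσ]
  · intro h n P hP σ hσ
    have h1 := h n (φ P) (by rw [← map_nsmul, hP, _root_.map_zero]) σ hσ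
    rw [← hφ] at h1
    have h2 : σ • P - P = 0 := eq_zero_of_isog hker (hcop n)
      (by rw [nsmul_sub, nsmul_galois_smul, hP, smul_zero (A := Pt W) σ, sub_zero])
      (by rw [map_sub, h1, sub_self])
    exact sub_eq_zero.mp h2

/-- **Isogenous curves have additive reduction at the same primes.** -/
theorem isAdditiveAt_iff_of_isog (hΔ : W.Δ ≠ 0) (hΔ' : W'.Δ ≠ 0)
    (hφ : ∀ (σ : AlgebraicClosure ℚ ≃ₐ[ℚ] AlgebraicClosure ℚ) (P : Pt W), φ (σ • P) = σ • φ P)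
    (hker : Finite φ.ker) {ℓ : ℕ} (hℓ : ℓ.Prime) (hmin : MinimalAt W ℓ) (hmin' : MinimalAt W' ℓ) :
    IsAdditiveAt W ℓ ↔ IsAdditiveAt W' ℓ := by
  obtain ⟨A, hA⟩ := Fermat.Agent.Frob.exists_liesOverPrime ℓ hℓ
  have hpos : 0 < Nat.card φ.ker := Nat.card_pos
  obtain ⟨p, hp, hp'⟩ := Nat.exists_infinite_primes (Nat.card φ.ker + ℓ + 5)
  have hcop : ∀ n : ℕ, (p ^ n).Coprime (Nat.card φ.ker) := fun n => Nat.Coprime.pow_left n
    ((Nat.Prime.coprime_iff_not_dvd hp').mpr fun hd => by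
      have := Nat.le_of_dvd hpos hd
      omega)
  rw [← not_iff_not, grothendieck hΔ hℓ hmin hA hp' (by omega),
    grothendieck hΔ' hℓ hmin' hA hp' (by omega)]
  constructor
  · intro h σ hσ n Q hQ
    obtain ⟨P, hP, rfl⟩ := exists_eq_of_isog hΔ hΔ' hker (pow_ne_zero n hp'.ne_zero) (hcop n) hQ
    rw [← hφ, ← map_sub, ← hφ, h σ hσ n P hP]
  · intro h σ hσ n P hP
    have h1 := h σ hσ n (φ P) (by rw [← map_nsmul, hP, _root_.map_zero])
    rw [← hφ, ← map_sub, ← hφ] at h1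
    have hPσ : p ^ n • (σ • P) = 0 := by rw [nsmul_galois_smul, hP, smul_zero (A := Pt W) σ]
    have hd : p ^ n • (σ • P - P) = 0 := by rw [nsmul_sub, hPσ, hP, sub_zero]
    have h2 : σ • (σ • P - P) - (σ • P - P) = 0 := eq_zero_of_isog hker (hcop n)
      (by rw [nsmul_sub, nsmul_galois_smul, hd, smul_zero (A := Pt W) σ, sub_zero])
      (by rw [map_sub, h1, sub_self])
    exact sub_eq_zero.mp h2

/-- **Isogenous curves have multiplicative reduction at the same primes.** -/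
theorem isMultAt_iff_of_isog (hΔ : W.Δ ≠ 0) (hΔ' : W'.Δ ≠ 0)
    (hφ : ∀ (σ : AlgebraicClosure ℚ ≃ₐ[ℚ] AlgebraicClosure ℚ) (P : Pt W), φ (σ • P) = σ • φ P)
    (hker : Finite φ.ker) {ℓ : ℕ} (hℓ : ℓ.Prime) (hmin : MinimalAt W ℓ) (hmin' : MinimalAt W' ℓ) :
    IsMultAt W ℓ ↔ IsMultAt W' ℓ := by
  have h1 := dvd_Δ_iff_of_isog hΔ hΔ' hφ hker hℓ hmin hmin'
  have h2 := isAdditiveAt_iff_of_isog hΔ hΔ' hφ hker hℓ hmin hmin'
  constructor
  · rintro ⟨h3, h4, h5, h6⟩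
    refine ⟨h3, h1.mp h4, fun hc => h5 ?_, hΔ'⟩
    exact (h2.mpr ⟨h1.mp h4, hc⟩).2
  · rintro ⟨h3, h4, h5, h6⟩
    refine ⟨h3, h1.mpr h4, fun hc => h5 ?_, hΔ⟩
    exact (h2.mp ⟨h1.mpr h4, hc⟩).2

/-- The representations modulo `p` of isogenous curves have the same traces, `p` prime to the order of
the kernel. -/
theorem trace_eq_of_isog (hΔ : W.Δ ≠ 0) (hΔ' : W'.Δ ≠ 0)
    (hφ : ∀ (σ : AlgebraicClosure ℚ ≃ₐ[ℚ] AlgebraicClosure ℚ) (P : Pt W), φ (σ • P) = σ • φ P)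
    (hker : Finite φ.ker) {p : ℕ} [hp : Fact p.Prime] (hcop : p.Coprime (Nat.card φ.ker))
    (σ : AlgebraicClosure ℚ ≃ₐ[ℚ] AlgebraicClosure ℚ) :
    LinearMap.trace (ZMod p) _ (rho W p σ) = LinearMap.trace (ZMod p) _ (rho W' p σ) := by
  let g : Submodule.torsionBy ℤ (Pt W) (p : ℤ) →+ Submodule.torsionBy ℤ (Pt W') (p : ℤ) :=
    { toFun := fun x => ⟨φ x.1, by
        have h1 := x.2
        rw [Submodule.mem_torsionBy_iff] at h1 ⊢
        rw [← map_zsmul, h1, _root_.map_zero]⟩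
      map_zero' := Subtype.ext (_root_.map_zero φ)
      map_add' := fun x y => Subtype.ext (_root_.map_add φ _ _) }
  have hbij : Function.Bijective g := by
    constructor
    · rw [injective_iff_map_eq_zero]
      intro x hx
      have hx2 := x.2
      rw [Submodule.mem_torsionBy_iff, natCast_zsmul] at hx2
      exact Subtype.ext (eq_zero_of_isog hker hcop hx2 (congrArg Subtype.val hx))
    · rintro ⟨Q, hQ⟩
      rw [Submodule.mem_torsionBy_iff, natCast_zsmul] at hQ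
      obtain ⟨P, hP, hPQ⟩ := exists_eq_of_isog hΔ hΔ' hker hp.out.ne_zero hcop hQ
      exact ⟨⟨P, by rw [Submodule.mem_torsionBy_iff, natCast_zsmul]; exact hP⟩,
        Subtype.ext hPQ⟩
  let e : Submodule.torsionBy ℤ (Pt W) (p : ℤ) ≃ₗ[ZMod p] Submodule.torsionBy ℤ (Pt W') (p : ℤ) :=
    LinearEquiv.ofBijective (AddMonoidHom.toZModLinearMap p g) hbij
  rw [← LinearMap.trace_conj' (rho W p σ) e]
  congr 1
  refine LinearMap.ext fun y => ?_
  obtain ⟨x, rfl⟩ := e.surjective y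
  rw [LinearEquiv.conj_apply_apply, LinearEquiv.symm_apply_apply]
  exact Subtype.ext (hφ σ x.1)

/-- **Isogenous curves have the same `a_ℓ`** at the primes of good reduction. -/
theorem apOfModel_eq_of_isog (hφ : ∀ (σ : AlgebraicClosure ℚ ≃ₐ[ℚ] AlgebraicClosure ℚ) (P : Pt W),
    φ (σ • P) = σ • φ P)
    (hker : Finite φ.ker) {ℓ : ℕ} (hℓ : ℓ.Prime) (h1 : W.IsGoodPrimeFor ℓ)
    (h2 : W'.IsGoodPrimeFor ℓ) : W.apOfModel ℓ = W'.apOfModel ℓ := by
  have hΔ : W.Δ ≠ 0 := fun h => h1 (by rw [h]; exact dvd_zero _)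
  have hΔ' : W'.Δ ≠ 0 := fun h => h2 (by rw [h]; exact dvd_zero _)
  have : Fact ℓ.Prime := ⟨hℓ⟩
  by_contra hne
  set d := W.apOfModel ℓ - W'.apOfModel ℓ with hd
  have hd0 : d ≠ 0 := sub_ne_zero.mpr hne
  have hpos : 0 < Nat.card φ.ker := Nat.card_pos
  obtain ⟨p, hp, hp'⟩ := Nat.exists_infinite_primes (d.natAbs + ℓ + Nat.card φ.ker + 1)
  have : Fact p.Prime := ⟨hp'⟩
  obtain ⟨A, hA, σ, hσ⟩ := Frob.exists_frobenius ℓ hℓ
  have h3 := trace_eq_of_isog hΔ hΔ' hφ hker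
    ((Nat.Prime.coprime_iff_not_dvd hp').mpr fun hd => by
      have := Nat.le_of_dvd hpos hd
      omega) σ
  rw [trace_rho_frobenius h1 hA hσ (by omega), trace_rho_frobenius h2 hA hσ (by omega)] at h3
  have h4 : ((d : ℤ) : ZMod p) = 0 := by rw [hd, Int.cast_sub, h3, sub_self]
  rw [ZMod.intCast_zmod_eq_zero_iff_dvd, Int.natCast_dvd] at h4
  have := Nat.le_of_dvd (Int.natAbs_pos.mpr hd0) h4
  omega

/-- **Modularity of level `N` is invariant under isogenies.** -/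
theorem isModularModelOfLevel_iff_of_isog (hΔ : W.Δ ≠ 0) (hΔ' : W'.Δ ≠ 0)
    (hφ : ∀ (σ : AlgebraicClosure ℚ ≃ₐ[ℚ] AlgebraicClosure ℚ) (P : Pt W), φ (σ • P) = σ • φ P)
    (hker : Finite φ.ker) {N : ℕ} (hN : N ≠ 0) :
    W.IsModularModelOfLevel N ↔ W'.IsModularModelOfLevel N :=
  isModularModelOfLevel_congr hN hΔ hΔ' Set.finite_empty
    fun _ hq _ h1 h2 => apOfModel_eq_of_isog hφ hker hq h1 h2

end Fermat.Agent.Cor.NOS
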