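import Fermat.Agent.Corollaries.NOS.Groth
import Fermat.Agent.Corollaries.K4S.Cond

/-!
# Semistability from the mod `p` representation, and from modularity

* `not_isAdditiveAt_of_rho` : if inertia at `ℓ` acts unipotently on `W[p]`, `p ≥ 5`, `p ≠ ℓ`, then
  `W` (minimal at `ℓ`) is not additive at `ℓ`;
* `not_isAdditiveAt_of_resMod` : an elliptic curve which is residually modular modulo `p ≥ 5` of
  level `M` is semistable at the primes which do not divide `M p`.
-/

set_option autoImplicit false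
set_option linter.style.haveILetI false

noncomputable section

open Polynomial WeierstrassCurve WeierstrassCurve.Affine WeierstrassCurve.Affine.Point
open Fermat.Agent Fermat.Agent.ECFrob Fermat.Agent.Torsion Fermat.Agent.ECRed Fermat.Agent.Ribet
open ModularFormClass
open Fermat.Agent.Cor.Mazur (Pt)

namespace Fermat.Agent.Cor.NOS

/-- An endomorphism of a plane with `tr f = tr f² = 2` is unipotent. -/
theorem sub_one_mul_self_eq_zero {K V : Type*} [Field K] [AddCommGroup V] [Module K V]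
    (hK : (2 : K) ≠ 0) (h2 : Module.finrank K V = 2) {f : Module.End K V}
    (h1 : LinearMap.trace K V f = 2) (h3 : LinearMap.trace K V (f * f) = 2) :
    (f - 1) * (f - 1) = 0 := by
  have hfin : Module.Finite K V := Module.finite_of_finrank_eq_succ h2
  have h4 := mul_self_eq_of_finrank_two h2 f
  rw [h1] at h4
  have hdet : LinearMap.det f = 1 := by
    have h5 := congrArg (LinearMap.trace K V) h4
    rw [h3, map_sub, map_smul, map_smul, h1, LinearMap.trace_one, h2, smul_eq_mul,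
      smul_eq_mul] at h5
    push_cast at h5
    apply mul_right_cancel₀ hK
    linear_combination h5
  rw [hdet, one_smul] at h4
  have e : (f - 1) * (f - 1) = f * f - (2 : K) • f + 1 := by
    rw [two_smul]
    noncomm_ring
  rw [e, h4]
  abel

variable {W : WeierstrassCurve ℤ} {p q : ℕ} [hp : Fact p.Prime]

/-- **Semistability from `W[p]`, `p ≥ 5`**: if `(σ - 1)² = 0` on `W[p]` for the elements of the
inertia group, then `W` is not additive. -/
theorem not_isAdditiveAt_of_rho (hΔ : W.Δ ≠ 0) (hq : q.Prime) (hmin : MinimalAt W q)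
    (hp5 : 5 ≤ p) (hqp : q ≠ p) {A : ValuationSubring (AlgebraicClosure ℚ)}
    (hA : A.LiesOverPrime q)
    (h : ∀ σ ∈ A.inertiaSubgroupIn ℚ, (rho W p σ - 1) * (rho W p σ - 1) = 0) :
    ¬ IsAdditiveAt W q := by
  have hcom : ∀ σ ∈ A.inertiaSubgroupIn ℚ, ∀ τ ∈ A.inertiaSubgroupIn ℚ,
      (rho W p τ - 1) * (rho W p σ - 1) = 0 := by
    intro σ hσ τ hτ
    have hfin : Module.Finite (ZMod p) (Submodule.torsionBy ℤ (EQ W).Point (p : ℤ)) :=
      Module.finite_of_finrank_eq_succ (finrank_rat hΔ)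
    let b := Module.finBasisOfFinrankEq (ZMod p) (Submodule.torsionBy ℤ (EQ W).Point (p : ℤ))
      (finrank_rat hΔ)
    refine comp_eq_zero_of_unipotent b (h τ hτ) (h σ hσ) ?_
    have e : (rho W p τ - 1) + (rho W p σ - 1) + (rho W p τ - 1) * (rho W p σ - 1) =
        rho W p (τ * σ) - 1 := by
      rw [map_mul]
      noncomm_ring
    rw [e]
    exact h (τ * σ) (mul_mem hτ hσ)
  have key : ∀ x : Submodule.torsionBy ℤ (EQ W).Point (p : ℤ), x ≠ 0 →
      (∀ σ ∈ A.inertiaSubgroupIn ℚ, rho W p σ x = x) → ¬ IsAdditiveAt W q := by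
    intro x hx hfix
    rw [semistable_iff hΔ hq hmin hA hp.out hp5 hqp.symm]
    refine ⟨x.1, fun h0 => hx (Subtype.ext h0), ?_, fun σ hσ => ?_⟩
    · have hx2 := (Submodule.mem_torsionBy_iff _ _).mp x.2
      rwa [natCast_zsmul] at hx2
    · have h3 := hfix σ hσ
      rw [galoisRepModuleEnd_apply] at h3
      exact congrArg Subtype.val h3
  by_cases hall : ∀ σ ∈ A.inertiaSubgroupIn ℚ, rho W p σ = 1
  · obtain ⟨P, hP⟩ := exists_addOrderOf hΔ hp.out 1
    rw [pow_one] at hP
    refine key ⟨P, ?_⟩ ?_ fun σ hσ => by rw [hall σ hσ]; rfl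
    · rw [Submodule.mem_torsionBy_iff, natCast_zsmul, ← hP]
      exact addOrderOf_nsmul_eq_zero P
    · intro h0
      have h1 : P = 0 := congrArg Subtype.val h0
      rw [h1, addOrderOf_zero] at hP
      exact hp.out.ne_one hP.symm
  · push Not at hall
    obtain ⟨σ, hσ, hne⟩ := hall
    obtain ⟨x, hx⟩ : ∃ x, (rho W p σ - 1) x ≠ 0 := by
      by_contra hcon
      push Not at hcon
      exact hne (sub_eq_zero.mp (LinearMap.ext hcon))
    refine key ((rho W p σ - 1) x) hx fun τ hτ => ?_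
    have h1 := LinearMap.congr_fun (hcom σ hσ τ hτ) x
    exact sub_eq_zero.mp h1

/-- **Residual modularity of level `M` gives semistability at the primes which do not divide
`M p`**, `p ≥ 5`. -/
theorem not_isAdditiveAt_of_resMod (hΔ : W.Δ ≠ 0) (hq : q.Prime) (hmin : MinimalAt W q)
    (hp5 : 5 ≤ p) (hqp : q ≠ p) {M : ℕ} (hM : M ≠ 0) (h : W.IsResiduallyModularOfLevel p M)
    (hqM : ¬ q ∣ M) : ¬ IsAdditiveAt W q := by
  obtain ⟨A, hA⟩ := Fermat.Agent.Frob.exists_liesOverPrime q hq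
  obtain ⟨f, 𝔪, hf, h𝔪, hp𝔪, hcong⟩ := h
  letI instF : Field (integralClosure ℤ ℂ ⧸ 𝔪) := Ideal.Quotient.field 𝔪
  let φ : integralClosure ℤ ℂ →+* (integralClosure ℤ ℂ ⧸ 𝔪) := Ideal.Quotient.mk 𝔪
  haveI hchar : CharP (integralClosure ℤ ℂ ⧸ 𝔪) p := by
    rw [CharP.charP_iff_prime_eq_zero hp.out]
    have h1 : φ (p : integralClosure ℤ ℂ) = 0 := Ideal.Quotient.eq_zero_iff_mem.mpr hp𝔪
    rw [map_natCast] at h1
    exact h1
  have hS : ({p} ∪ {q | q ∣ M} : Set ℕ).Finite := by
    refine (Set.finite_singleton p).union ?_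
    refine (Finset.finite_toSet (M.divisors)).subset fun ℓ hℓ => ?_
    rw [Finset.mem_coe, Nat.mem_divisors]
    exact ⟨hℓ, hM⟩
  obtain ⟨ρ, hρ, hunr⟩ := Fermat.Agent.S29.result hf hp.out φ
  have hq1 : ∀ σ ∈ A.inertiaSubgroupIn ℚ, ρ.ρ σ = 1 := fun σ hσ => hunr q hq (fun h' => by
    rcases hq.dvd_mul.mp h' with h1 | h1
    · exact hqM h1
    · exact hqp ((Nat.prime_dvd_prime_iff_eq hq hp.out).mp h1)) A hA σ hσ
  have htr := trace_eq_trace_of_attached hM hΔ φ ρ hρ hS (by
    intro q hq hqS hgood x hx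
    simp only [Set.mem_union, Set.mem_ofPred_eq, Set.mem_singleton_iff, not_or] at hqS
    obtain ⟨b, hb, hb'⟩ := hcong q hq hgood hqS.2 hqS.1
    have h1 : x = b := Subtype.ext (hx.trans hb.symm)
    rw [h1, ← sub_eq_zero, ← map_intCast φ, ← map_sub]
    exact Ideal.Quotient.eq_zero_iff_mem.mpr hb')
  have h2 : (2 : ZMod p) ≠ 0 := by
    intro h0
    have h1 : ((2 : ℕ) : ZMod p) = 0 := by exact_mod_cast h0
    rw [ZMod.natCast_eq_zero_iff] at h1
    have := Nat.le_of_dvd two_pos h1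
    omega
  have htrace : ∀ σ ∈ A.inertiaSubgroupIn ℚ, LinearMap.trace (ZMod p) _ (rho W p σ) = 2 := by
    intro σ hσ
    apply (ZMod.castHom (dvd_refl p) (integralClosure ℤ ℂ ⧸ 𝔪)).injective
    rw [← htr, hq1 σ hσ, LinearMap.trace_one, ρ.finrank_eq, map_ofNat]
    norm_num
  refine not_isAdditiveAt_of_rho hΔ hq hmin hp5 hqp hA fun σ hσ => ?_
  refine sub_one_mul_self_eq_zero h2 (finrank_rat hΔ) (htrace σ hσ) ?_
  rw [← map_mul]
  exact htrace (σ * σ) (mul_mem hσ hσ)

end Fermat.Agent.Cor.NOS
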