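import Fermat.Agent.Corollaries.NOS.ModP
import Fermat.Agent.Mazur.TrivBound
import Fermat.Agent.HeckeEigen.Forms

/-!
# A modular elliptic curve has good reduction outside the level

* `norm_qCoeff_lt` : `|a_ℓ| < ℓ + 1` for a normalised eigenform of weight two and level `N`, `ℓ ∤ N`;
* `eq_zero_of_mem_maximal` : an algebraic integer which lies in maximal ideals above infinitely many
  primes is zero;
* `not_dvd_Δ_of_isModularModelOfLevel` : if `W`, minimal at `ℓ`, is modular of level `N`, `ℓ ∤ N`, then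
  `W` has good reduction at `ℓ`.
-/

set_option autoImplicit false
set_option linter.style.haveILetI false

noncomputable section

open Polynomial WeierstrassCurve
open Fermat.Agent Fermat.Agent.ECRed FermatAgent.HeckeEigen
open ModularFormClass CongruenceSubgroup

namespace Fermat.Agent.Cor.NOS

/-- **The strict trivial bound** for the eigenvalues of a normalised eigenform. -/
theorem norm_qCoeff_lt {N : ℕ} (hN : N ≠ 0) {f : CuspForm (Gamma0 N) 2}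
    (hf : f.IsNormalizedEigenform) {ℓ : ℕ} (hℓ : ℓ.Prime) (hℓN : ¬ ℓ ∣ N) :
    ‖qCoeff f ℓ‖ < ℓ + 1 := by
  have : NeZero N := ⟨hN⟩
  refine MZ.norm_lt_succ hℓ.two_le f hf.ne_zero _ fun τ => ?_
  have h1 := congrArg (fun g : CuspForm (Gamma0 N) 2 => g τ)
    (heckeOp_eq_of_isNormalizedEigenform hf ⟨ℓ, hℓ⟩)
  rw [heckeOp_of_not_dvd (p := ⟨ℓ, hℓ⟩) hℓN] at h1
  exact h1

/-- An algebraic integer in maximal ideals above infinitely many primes is zero. -/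
theorem eq_zero_of_mem_maximal {x : integralClosure ℤ ℂ}
    (h : ∀ B : ℕ, ∃ p : ℕ, p.Prime ∧ B < p ∧ ∃ 𝔪 : Ideal (integralClosure ℤ ℂ),
      𝔪.IsMaximal ∧ (p : integralClosure ℤ ℂ) ∈ 𝔪 ∧ x ∈ 𝔪) : x = 0 := by
  by_contra hx
  have hint : IsIntegral ℤ x := Algebra.IsIntegral.isIntegral x
  obtain ⟨c, hc0, hdvd⟩ := hint.isAlgebraic.exists_nonzero_dvd (mem_nonZeroDivisors_of_ne_zero hx)
  obtain ⟨p, hp, hlt, 𝔪, hm, hpm, hxm⟩ := h c.natAbs
  have h1 : ((c : ℤ) : integralClosure ℤ ℂ) ∈ 𝔪 := 𝔪.mem_of_dvd hdvd hxm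
  have hcop : IsCoprime (p : ℤ) c := by
    rw [Int.isCoprime_iff_gcd_eq_one, Int.gcd_eq_natAbs, Int.natAbs_natCast]
    exact (Nat.Prime.coprime_iff_not_dvd hp).mpr fun hd =>
      absurd (Nat.le_of_dvd (Int.natAbs_pos.mpr hc0) hd) (not_le.mpr hlt)
  obtain ⟨u, v, huv⟩ := hcop
  apply hm.ne_top
  rw [Ideal.eq_top_iff_one]
  have h4 := congrArg (fun n : ℤ => (n : integralClosure ℤ ℂ)) huv
  simp only [Int.cast_add, Int.cast_mul, Int.cast_natCast, Int.cast_one] at h4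
  rw [← h4]
  exact 𝔪.add_mem (𝔪.mul_mem_left _ hpm) (𝔪.mul_mem_left _ h1)

variable {W : WeierstrassCurve ℤ}

/-- A modular elliptic curve is residually modular modulo every prime. -/
theorem resMod_of_modular {N p : ℕ} (h : W.IsModularModelOfLevel N) (hp : p.Prime) :
    W.IsResiduallyModularOfLevel p N := by
  obtain ⟨f, hf, hfa⟩ := h
  obtain ⟨𝔪, hmax, hpm⟩ := FLTPrelim.exists_maximalIdeal_natCast_prime_mem hp
  refine ⟨f, 𝔪, hf, hmax, hpm, fun ℓ hℓ hgood hℓN _ => ?_⟩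
  refine ⟨((W.apOfModel ℓ : ℤ) : integralClosure ℤ ℂ), ?_, ?_⟩
  · rw [hfa ℓ hℓ hgood hℓN]
    push_cast
    rfl
  · rw [sub_self]
    exact 𝔪.zero_mem

/-- At a prime of multiplicative reduction not dividing the level, a modular elliptic curve would
have `a_ℓ = ±(ℓ + 1)`: impossible. -/
theorem not_isMultAt_of_modular {N : ℕ} (hN : N ≠ 0) (h : W.IsModularModelOfLevel N)
    {ℓ : ℕ} (hℓN : ¬ ℓ ∣ N) : ¬ IsMultAt W ℓ := by
  intro hm
  obtain ⟨f, hf, hfa⟩ := h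
  have hΔ : W.Δ ≠ 0 := hm.ne
  have key : ∀ p : ℕ, p.Prime → p ≠ 2 → p ≠ ℓ → ∃ 𝔪 : Ideal (integralClosure ℤ ℂ),
      𝔪.IsMaximal ∧ (p : integralClosure ℤ ℂ) ∈ 𝔪 ∧
      ∃ a : integralClosure ℤ ℂ, (a : ℂ) = qCoeff f ℓ ∧
        (a - (ℓ + 1 : ℕ) ∈ 𝔪 ∨ a + (ℓ + 1 : ℕ) ∈ 𝔪) := by
    intro p hp hp2 hpℓ
    have : Fact p.Prime := ⟨hp⟩
    obtain ⟨𝔪, hmax, hpm⟩ := FLTPrelim.exists_maximalIdeal_natCast_prime_mem hp
    refine ⟨𝔪, hmax, hpm, coeff_mult_of_resMod hN hΔ hp2 hf hmax hpm ?_ hm hℓN hpℓ.symm⟩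
    intro q hq hgood hqN _
    refine ⟨((W.apOfModel q : ℤ) : integralClosure ℤ ℂ), ?_, ?_⟩
    · rw [hfa q hq hgood hqN]
      push_cast
      rfl
    · rw [sub_self]
      exact 𝔪.zero_mem
  obtain ⟨p₀, hp₀, hp₀'⟩ := Nat.exists_infinite_primes (ℓ + 3)
  obtain ⟨-, -, -, a, ha, -⟩ := key p₀ hp₀' (by omega) (by omega)
  have hz : (a - (ℓ + 1 : ℕ)) * (a + (ℓ + 1 : ℕ)) = 0 := by
    refine eq_zero_of_mem_maximal fun B => ?_
    obtain ⟨p, hp, hp'⟩ := Nat.exists_infinite_primes (B + ℓ + 3)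
    obtain ⟨𝔪, hmax, hpm, b, hb, hb'⟩ := key p hp' (by omega) (by omega)
    have hab : b = a := Subtype.ext (hb.trans ha.symm)
    subst hab
    refine ⟨p, hp', by omega, 𝔪, hmax, hpm, ?_⟩
    rcases hb' with h1 | h1
    · exact 𝔪.mul_mem_right _ h1
    · exact 𝔪.mul_mem_left _ h1
  have hlt := norm_qCoeff_lt hN hf hm.prime hℓN
  have hval : qCoeff f ℓ = ((ℓ + 1 : ℕ) : ℂ) ∨ qCoeff f ℓ = -((ℓ + 1 : ℕ) : ℂ) := by
    rcases mul_eq_zero.mp hz with h1 | h1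
    · left
      have h2 : ((_ : integralClosure ℤ ℂ) : ℂ) = ((0 : integralClosure ℤ ℂ) : ℂ) :=
        congrArg (fun z : integralClosure ℤ ℂ => (z : ℂ)) h1
      push_cast at h2
      rw [← ha]
      push_cast
      linear_combination h2
    · right
      have h2 : ((_ : integralClosure ℤ ℂ) : ℂ) = ((0 : integralClosure ℤ ℂ) : ℂ) :=
        congrArg (fun z : integralClosure ℤ ℂ => (z : ℂ)) h1
      push_cast at h2
      rw [← ha]
      push_cast
      linear_combination h2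
  have hnorm : ‖qCoeff f ℓ‖ = ℓ + 1 := by
    rcases hval with h1 | h1
    · rw [h1, Complex.norm_natCast]
      push_cast
      ring
    · rw [h1, norm_neg, Complex.norm_natCast]
      push_cast
      ring
  exact absurd hlt (by rw [hnorm]; exact lt_irrefl _)

/-- A modular elliptic curve, minimal at `ℓ ∤ N`, is not additive at `ℓ`. -/
theorem not_isAdditiveAt_of_modular {N : ℕ} (hN : N ≠ 0) (hΔ : W.Δ ≠ 0)
    (h : W.IsModularModelOfLevel N) {ℓ : ℕ} (hℓ : ℓ.Prime) (hmin : MinimalAt W ℓ)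
    (hℓN : ¬ ℓ ∣ N) : ¬ IsAdditiveAt W ℓ := by
  by_cases h5 : ℓ = 5
  · have : Fact (Nat.Prime 7) := ⟨by norm_num⟩
    exact not_isAdditiveAt_of_resMod (p := 7) hΔ hℓ hmin (by norm_num) (by omega) hN
      (resMod_of_modular h this.out) hℓN
  · have : Fact (Nat.Prime 5) := ⟨by norm_num⟩
    exact not_isAdditiveAt_of_resMod (p := 5) hΔ hℓ hmin (by norm_num) h5 hN
      (resMod_of_modular h this.out) hℓN

/-- **A modular elliptic curve has good reduction outside the level.** -/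
theorem not_dvd_Δ_of_isModularModelOfLevel {N : ℕ} (hN : N ≠ 0) (hΔ : W.Δ ≠ 0)
    (h : W.IsModularModelOfLevel N) {ℓ : ℕ} (hℓ : ℓ.Prime) (hmin : MinimalAt W ℓ)
    (hℓN : ¬ ℓ ∣ N) : ¬ (ℓ : ℤ) ∣ W.Δ := by
  intro hd
  by_cases hc : (ℓ : ℤ) ∣ W.c₄
  · exact not_isAdditiveAt_of_modular hN hΔ h hℓ hmin hℓN ⟨hd, hc⟩
  · exact not_isMultAt_of_modular hN h hℓN ⟨hℓ, hd, hc, hΔ⟩

end Fermat.Agent.Cor.NOS
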