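import Fermat.Agent.Corollaries.NOS.Level
import Fermat.Agent.Corollaries.CondLevel

/-!
# Semistable elliptic curves over `ℚ` and squarefree levels

* `isSemistableModel_iff_squarefree` : an integral Weierstrass equation which is minimal at every
  prime is semistable if and only if it is modular of some squarefree level;
* `conductorLevel_of_squarefree` : in this case every such level is a multiple of the product of the
  primes of bad reduction, and this product is itself a level of modularity.
-/

set_option autoImplicit false

noncomputable section

open WeierstrassCurve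
open Fermat.Agent.ECRed

namespace Fermat.Agent.Cor.NOS

variable {W : WeierstrassCurve ℤ}

/-- **An elliptic curve over `ℚ` is semistable if and only if it is modular of a squarefree
level.** -/
theorem isSemistableModel_iff_squarefree (hΔ : W.Δ ≠ 0)
    (hmin : ∀ q : ℕ, q.Prime → MinimalAt W q) :
    W.IsSemistableModel ↔ ∃ N : ℕ, Squarefree N ∧ W.IsModularModelOfLevel N :=
  ⟨fun h => ⟨_, W.squarefree_conductorLevel, isModularModelOfLevel_conductor hΔ h⟩,
    fun ⟨_, hN, h⟩ => isSemistableModel_of_squarefree hN hΔ h hmin⟩

/-- A squarefree level of modularity is a multiple of the conductor, which is itself a level of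
modularity. -/
theorem conductorLevel_of_squarefree (hΔ : W.Δ ≠ 0) (hmin : ∀ q : ℕ, q.Prime → MinimalAt W q)
    {N : ℕ} (hN : Squarefree N) (h : W.IsModularModelOfLevel N) :
    W.IsSemistableModel ∧ W.conductorLevel ∣ N ∧ W.IsModularModelOfLevel W.conductorLevel := by
  have hW := isSemistableModel_of_squarefree hN hΔ h hmin
  exact ⟨hW, conductorLevel_dvd_level hN.ne_zero hΔ h hmin, isModularModelOfLevel_conductor hΔ hW⟩

end Fermat.Agent.Cor.NOS
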