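import Fermat.Agent.Corollaries.Mazur.Cusp
import Fermat.Agent.Corollaries.NOS.Center
import Fermat.Agent.Corollaries.NOS.IntChange
import Fermat.Agent.Corollaries.NOS.Approx
import Fermat.Agent.S41.VarChange

/-!
# Tate's normal form at an inertia fixed point of additive reduction

Let `W` be a Weierstrass equation over `ℤ` with `ℓ ∣ Δ`, `ℓ ∣ c₄`, and let `P` be a torsion point
over `ℚ̄` of order `N ≥ 5` prime to `ℓ` which is fixed by the inertia group of a place above `ℓ`.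
Then `W` is not minimal at `ℓ`.
-/

set_option autoImplicit false

noncomputable section

open WeierstrassCurve WeierstrassCurve.Affine
open FermatAgent.ECVal FermatAgent.ECVal.QVal Fermat.Agent.ECRed

namespace Fermat.Agent.Cor.NOS

/-! ### The normal form over a field -/

section Form

variable {K : Type*} [Field K] [DecidableEq K] {V : WeierstrassCurve K}

/-- Tate's normal form of `V` at the point `(x₀, y₀)` of order at least five, and the abscissas of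
its first multiples. -/
theorem exists_form (hΔ : V.Δ ≠ 0) {x₀ y₀ : K} (h : V.toAffine.Nonsingular x₀ y₀)
    (h2 : 2 • Point.some x₀ y₀ h ≠ 0) (h3 : 3 • Point.some x₀ y₀ h ≠ 0)
    (h4 : 4 • Point.some x₀ y₀ h ≠ 0) :
    ∃ s : K, s * (V.a₃ + x₀ * V.a₁ + 2 * y₀) = 3 * x₀ ^ 2 + 2 * V.a₂ * x₀ + V.a₄ - V.a₁ * y₀ ∧
      ∀ a₁ a₂ a₃ : K, a₁ = V.a₁ + 2 * s → a₂ = V.a₂ - s * V.a₁ + 3 * x₀ - s ^ 2 →
        a₃ = V.a₃ + x₀ * V.a₁ + 2 * y₀ →
        a₃ ≠ 0 ∧ a₂ ≠ 0 ∧ a₃ / a₂ - a₁ ≠ 0 ∧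
        (∃ y h', 2 • Point.some x₀ y₀ h = Point.some (-a₂ + x₀) y h') ∧
        (∃ y h', 3 • Point.some x₀ y₀ h = Point.some (a₃ / a₂ * (a₃ / a₂ - a₁) + x₀) y h') ∧
        (∃ y h', 4 • Point.some x₀ y₀ h = Point.some (a₂ / (a₃ / a₂ - a₁) *
          (a₂ / (a₃ / a₂ - a₁) + a₃ / a₂) + x₀) y h') := by
  have hη : V.a₃ + x₀ * V.a₁ + 2 * y₀ ≠ 0 := by
    intro h0
    apply h2
    rw [two_nsmul]
    exact Point.add_of_Y_eq rfl (by simp only [Affine.negY]; linear_combination h0)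
  set s : K := (3 * x₀ ^ 2 + 2 * V.a₂ * x₀ + V.a₄ - V.a₁ * y₀) / (V.a₃ + x₀ * V.a₁ + 2 * y₀) with hs
  have hs' : s * (V.a₃ + x₀ * V.a₁ + 2 * y₀) = 3 * x₀ ^ 2 + 2 * V.a₂ * x₀ + V.a₄ - V.a₁ * y₀ := by
    rw [hs, div_mul_cancel₀ _ hη]
  clear_value s
  refine ⟨s, hs', ?_⟩
  rintro a₁ a₂ a₃ rfl rfl rfl
  let C : VariableChange K := ⟨1, x₀, s, y₀⟩
  have heq := (Affine.equation_iff _ _).mp h.1
  obtain ⟨e, he⟩ := S41vc.exists_equiv V C hΔ (V := C • V) rfl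
  have ha₁ : (C • V).a₁ = V.a₁ + 2 * s := by
    rw [variableChange_a₁]; simp [C]
  have ha₂ : (C • V).a₂ = V.a₂ - s * V.a₁ + 3 * x₀ - s ^ 2 := by
    rw [variableChange_a₂]; simp [C]
  have ha₃ : (C • V).a₃ = V.a₃ + x₀ * V.a₁ + 2 * y₀ := by
    rw [variableChange_a₃]; simp [C]
  have ha₄ : (C • V).a₄ = 0 := by
    rw [variableChange_a₄]; simp only [C, inv_one, Units.val_one, one_pow, one_mul]
    linear_combination -hs'
  have ha₆ : (C • V).a₆ = 0 := by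
    rw [variableChange_a₆]; simp only [C, inv_one, Units.val_one, one_pow, one_mul]
    linear_combination -heq
  have hns : (C • V).toAffine.Nonsingular 0 0 := by
    rw [Affine.nonsingular_zero]
    refine ⟨ha₆, Or.inl ?_⟩
    rw [ha₃]
    exact hη
  obtain ⟨h0, e0⟩ := he 0 0 hns
  have e0' : e (Point.some 0 0 hns) = Point.some x₀ y₀ h := by
    rw [e0, Point.some.injEq]
    simp [C]
  have hk : ∀ k : ℕ, k • Point.some x₀ y₀ h = e (k • Point.some 0 0 hns) := fun k => by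
    rw [map_nsmul, e0']
  have hk0 : ∀ k : ℕ, k • Point.some x₀ y₀ h ≠ 0 → k • Point.some 0 0 hns ≠ 0 := by
    intro k hk1 hk2
    apply hk1
    rw [hk, hk2, map_zero]
  obtain ⟨i3, i2, it, ⟨y₂, n₂, e₂⟩, ⟨y₃, n₃, e₃⟩, ⟨y₄, n₄, e₄⟩⟩ :=
    Mazur.Cusp.multiples (V := C • V) ha₄ (Q := Point.some 0 0 hns) ⟨hns, rfl⟩ (hk0 2 h2)
      (hk0 3 h3) (hk0 4 h4)
  rw [← ha₁, ← ha₂, ← ha₃]
  refine ⟨i3, i2, it, ?_, ?_, ?_⟩
  · obtain ⟨n', e'⟩ := he _ _ n₂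
    rw [hk, e₂, e']
    have e5 : ((C.u : K)) ^ 2 * -(C • V).a₂ + C.r = -(C • V).a₂ + x₀ := by simp [C]
    rw! [e5] at n' ⊢
    exact ⟨_, n', rfl⟩
  · obtain ⟨n', e'⟩ := he _ _ n₃
    rw [hk, e₃, e']
    have e5 : ((C.u : K)) ^ 2 * ((C • V).a₃ / (C • V).a₂ * ((C • V).a₃ / (C • V).a₂ - (C • V).a₁))
        + C.r = (C • V).a₃ / (C • V).a₂ * ((C • V).a₃ / (C • V).a₂ - (C • V).a₁) + x₀ := by simp [C]
    rw! [e5] at n' ⊢
    exact ⟨_, n', rfl⟩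
  · obtain ⟨n', e'⟩ := he _ _ n₄
    rw [hk, e₄, e']
    have e5 : ((C.u : K)) ^ 2 * ((C • V).a₂ / ((C • V).a₃ / (C • V).a₂ - (C • V).a₁) *
        ((C • V).a₂ / ((C • V).a₃ / (C • V).a₂ - (C • V).a₁) + (C • V).a₃ / (C • V).a₂))
        + C.r = (C • V).a₂ / ((C • V).a₃ / (C • V).a₂ - (C • V).a₁) *
        ((C • V).a₂ / ((C • V).a₃ / (C • V).a₂ - (C • V).a₁) + (C • V).a₃ / (C • V).a₂) + x₀ := by
      simp [C]
    rw! [e5] at n' ⊢
    exact ⟨_, n', rfl⟩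

end Form

/-! ### The normal form at an inertia fixed point -/

section Place

variable {W : WeierstrassCurve ℤ} {A : ValuationSubring (AlgebraicClosure ℚ)} {ℓ : ℕ}

/-- An inertia fixed element of positive value has value at least one. -/
theorem ge_one_of_fixed (hℓ : ℓ.Prime) (hA : A.LiesOverPrime ℓ) {z : AlgebraicClosure ℚ}
    (hfix : ∀ σ ∈ A.inertiaSubgroupIn ℚ, σ z = z) (h : (valOf hℓ hA).Gt 0 z) :
    (valOf hℓ hA).Ge 1 z := by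
  by_cases hz : z = 0
  · rw [hz]
    exact ge_zero _
  obtain ⟨n, hn⟩ := val_int_of_inertia_fixed hℓ hA hz hfix
  have h2 := hn.lt_of_gt h
  refine hn.ge.mono ?_
  have h3 : (0 : ℤ) < n := by exact_mod_cast h2
  have h4 : (1 : ℤ) ≤ n := h3
  exact_mod_cast h4

theorem gt_of_sq {K : Type*} [Field K] {w : QVal K} {z : K} (h : w.Gt 0 (z ^ 2)) : w.Gt 0 z := by
  by_contra hcon
  obtain ⟨h0, h1⟩ := not_gt_iff.mp hcon
  have h2 := (Is.of_ne h0 : w.Is (w.val z) z).sq.lt_of_gt h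
  linarith

/-- **The cusp.** A torsion point of order `N ≥ 5`, `ℓ ∤ N`, fixed by inertia at a place above `ℓ`
of additive reduction gives a reducing change of variables over the maximal unramified
extension. -/
theorem exists_isReducible (hΔ0 : W.Δ ≠ 0) (hℓ : ℓ.Prime) (hA : A.LiesOverPrime ℓ)
    (hΔ : (ℓ : ℤ) ∣ W.Δ) (hc : (ℓ : ℤ) ∣ W.c₄) {P : (EQ W).Point} {N : ℕ}
    (hN : addOrderOf P = N) (hN5 : 5 ≤ N) (hℓN : ¬ ℓ ∣ N)
    (hfix : ∀ σ ∈ A.inertiaSubgroupIn ℚ, σ • P = P) :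
    ∃ r s t : AlgebraicClosure ℚ, r ∈ A ∧ s ∈ A ∧ t ∈ A ∧
      (∀ σ ∈ A.inertiaSubgroupIn ℚ, σ r = r ∧ σ s = s ∧ σ t = t) ∧
      IsReducible (valOf hℓ hA) (EQ W) r s t := by
  classical
  obtain ⟨c, hcA, hcen⟩ := exists_center hℓ hA hΔ hc
  have hNP : N • P = 0 := by rw [← hN]; exact addOrderOf_nsmul_eq_zero P
  have hk0 : ∀ k : ℕ, 0 < k → k < 5 → k • P ≠ 0 := by
    intro k hk1 hk2 h0
    have h1 := addOrderOf_dvd_iff_nsmul_eq_zero.mpr h0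
    rw [hN] at h1
    have := Nat.le_of_dvd hk1 h1
    omega
  have hP0 : P ≠ 0 := by
    have := hk0 1 one_pos (by norm_num)
    rwa [one_nsmul] at this
  obtain ⟨x₀, y₀, hxy, rfl⟩ : ∃ x₀ y₀ h, P = Point.some x₀ y₀ h := ⟨_, _, exists_eq_some hP0⟩
  have hΔ' : (EQ W).Δ ≠ 0 := by
    rw [EQ_Δ]
    exact_mod_cast hΔ0
  obtain ⟨s, hs, hform⟩ := exists_form hΔ' hxy (hk0 2 (by norm_num) (by norm_num))
    (hk0 3 (by norm_num) (by norm_num)) (hk0 4 (by norm_num) (by norm_num))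
  obtain ⟨i3, i2, it, ⟨y₂, n₂, e₂⟩, ⟨y₃, n₃, e₃⟩, ⟨y₄, n₄, e₄⟩⟩ := hform _ _ _ rfl rfl rfl
  set a₁ := (EQ W).a₁ + 2 * s with ha₁
  set a₂ := (EQ W).a₂ - s * (EQ W).a₁ + 3 * x₀ - s ^ 2 with ha₂
  set a₃ := (EQ W).a₃ + x₀ * (EQ W).a₁ + 2 * y₀ with ha₃
  set w := valOf hℓ hA with hw
  -- the centre
  obtain ⟨hx₀, hy₀, gx, gη⟩ := hcen N hℓN x₀ y₀ hxy hNP
  have hkN : ∀ (k : ℕ) (x y : AlgebraicClosure ℚ) (h' : (EQ W).Nonsingular x y),
      k • Point.some x₀ y₀ hxy = Point.some x y h' → x ∈ A ∧ w.Gt 0 (x - x₀) := by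
    intro k x y h' hk
    obtain ⟨hx, -, g, -⟩ := hcen N hℓN x y h' (by
      rw [← hk, ← mul_smul, mul_comm, mul_smul, hNP, nsmul_zero])
    refine ⟨hx, ?_⟩
    have := g.sub gx
    rwa [sub_sub_sub_cancel_right] at this
  obtain ⟨m₂, g₂⟩ := hkN 2 _ _ _ e₂
  obtain ⟨-, g₃⟩ := hkN 3 _ _ _ e₃
  obtain ⟨-, g₄⟩ := hkN 4 _ _ _ e₄
  rw [add_sub_cancel_right] at g₂ g₃ g₄
  have g₂' : w.Gt 0 a₂ := by
    have := g₂.neg
    rwa [neg_neg] at this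
  have gi : ∀ m : ℤ, w.Ge 0 (m : AlgebraicClosure ℚ) := fun m => by
    rw [valOf_ge_zero_iff]
    exact intCast_mem A m
  have g3 : w.Gt 0 a₃ := by
    refine gt_of_sq ?_
    have e : a₃ ^ 2 = (2 * y₀ + (EQ W).a₁ * x₀ + (EQ W).a₃) ^ 2 := by rw [ha₃]; ring
    rw [e]
    exact gη
  -- `a₁`
  have gc : w.Gt 0 ((W.c₄ : ℤ) : AlgebraicClosure ℚ) := by
    have h := (Mazur.Cusp.ge_intCast_iff hℓ hA (n := 1) (m := W.c₄)).mpr (by rwa [pow_one])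
    exact (by exact_mod_cast h : w.Ge 1 ((W.c₄ : ℤ) : AlgebraicClosure ℚ)).gt zero_lt_one
  have hη : s * a₃ = 3 * x₀ ^ 2 + 2 * (EQ W).a₂ * x₀ + (EQ W).a₄ - (EQ W).a₁ * y₀ := hs
  have heq := (Affine.equation_iff _ _).mp hxy.1
  have gn : ∀ n : ℕ, w.Ge 0 (n : AlgebraicClosure ℚ) := fun n => QVal.ge_natCast n
  -- `s` is integral
  have ga1 : w.Ge 0 (EQ W).a₁ := by rw [EQ_a₁]; exact gi _
  have ga2 : w.Ge 0 (EQ W).a₂ := by rw [EQ_a₂]; exact gi _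
  have ga3 : w.Ge 0 (EQ W).a₃ := by rw [EQ_a₃]; exact gi _
  have gx0 : w.Ge 0 x₀ := (valOf_ge_zero_iff hℓ hA).mpr hx₀
  have gs : w.Ge 0 s := by
    by_contra hcon
    obtain ⟨h0, h1⟩ := not_ge_iff.mp hcon
    have h2 : w.Is (w.val s) s := Is.of_ne h0
    have h3 : w.Ge 0 (s ^ 2 + (EQ W).a₁ * s) := by
      have e : s ^ 2 + (EQ W).a₁ * s = (EQ W).a₂ + 3 * x₀ - a₂ := by rw [ha₂]; ring
      rw [e]
      have h3 : w.Ge 0 (3 * x₀) := by
        have := (gn 3).mul gx0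
        rw [add_zero] at this
        exact_mod_cast this
      exact (ga2.add h3).sub g₂'.ge
    have h4 : w.Gt (2 * w.val s) ((EQ W).a₁ * s) := (ga1.mul h2.ge).gt (by linarith)
    have h5 := (h2.sq.add_gt h4).le_of_ge h3
    linarith
  have g1 : w.Gt 0 a₁ := by
    have gb2 : w.Gt 0 (a₁ ^ 2 + 4 * a₂) := by
      refine gt_of_sq ?_
      have e : (a₁ ^ 2 + 4 * a₂) ^ 2 = ((W.c₄ : ℤ) : AlgebraicClosure ℚ) + 24 * (a₁ * a₃) := by
        rw [← EQ_c₄]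
        simp only [WeierstrassCurve.c₄, WeierstrassCurve.b₂, WeierstrassCurve.b₄, ha₁, ha₂, ha₃]
        rw [ha₃] at hη
        linear_combination -48 * hη
      rw [e]
      have ga : w.Ge 0 a₁ := by
        have h3 : w.Ge 0 (2 * s) := by
          have := (gn 2).mul gs
          rw [add_zero] at this
          exact_mod_cast this
        exact ga1.add h3
      have h3 : w.Gt 0 (24 * (a₁ * a₃)) := by
        have h4 := ga.mul_gt g3
        rw [add_zero] at h4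
        have := (gn 24).mul_gt h4
        rw [add_zero] at this
        exact_mod_cast this
      exact gc.add h3
    refine gt_of_sq ?_
    have e : a₁ ^ 2 = (a₁ ^ 2 + 4 * a₂) - 4 * a₂ := by ring
    rw [e]
    have h3 : w.Gt 0 (4 * a₂) := by
      have := (gn 4).mul_gt g₂'
      rw [add_zero] at this
      exact_mod_cast this
    exact gb2.sub h3
  -- inertia
  have hσ : ∀ σ ∈ A.inertiaSubgroupIn ℚ, σ x₀ = x₀ ∧ σ y₀ = y₀ := by
    intro σ hσ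
    have h1 := hfix σ hσ
    rw [Point.algEquiv_smul_def, Point.map_some, Point.some.injEq] at h1
    exact h1
  have hσs : ∀ σ ∈ A.inertiaSubgroupIn ℚ, σ s = s := by
    intro σ hσ'
    obtain ⟨h1, h2⟩ := hσ σ hσ'
    have h3 := congrArg σ hη
    rw [ha₃] at h3
    simp only [map_mul, map_add, map_sub, map_pow, h1, h2, EQ_a₁, EQ_a₂, EQ_a₃, EQ_a₄, map_intCast,
      map_ofNat] at h3
    have h4 : σ s * a₃ = s * a₃ := by
      rw [hη, ha₃]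
      simp only [EQ_a₁, EQ_a₂, EQ_a₃, EQ_a₄]
      exact h3
    exact mul_right_cancel₀ i3 h4
  have f1 : ∀ σ ∈ A.inertiaSubgroupIn ℚ, σ a₁ = a₁ := by
    intro σ hσ'
    rw [ha₁, map_add, map_mul, hσs σ hσ', EQ_a₁, map_intCast, map_ofNat]
  have f2 : ∀ σ ∈ A.inertiaSubgroupIn ℚ, σ a₂ = a₂ := by
    intro σ hσ'
    rw [ha₂]
    simp only [map_mul, map_add, map_sub, map_pow, (hσ σ hσ').1, hσs σ hσ', EQ_a₁, EQ_a₂,
      map_intCast, map_ofNat]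
  have f3 : ∀ σ ∈ A.inertiaSubgroupIn ℚ, σ a₃ = a₃ := by
    intro σ hσ'
    rw [ha₃]
    simp only [map_mul, map_add, (hσ σ hσ').1, (hσ σ hσ').2, EQ_a₁, EQ_a₃, map_intCast,
      map_ofNat]
  -- the values
  have j1 := ge_one_of_fixed hℓ hA f1 g1
  have kt := Mazur.Cusp.gt_zero_of_mul_sub g1 g₃
  have k1 := ge_one_of_fixed hℓ hA (z := a₃ / a₂) (fun σ hσ' => by
    rw [map_div₀, f2 σ hσ', f3 σ hσ']) kt
  have k2 := k1.sub j1
  have ks := Mazur.Cusp.gt_zero_of_mul_sub (a := -(a₃ / a₂)) kt.neg (by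
    rw [sub_neg_eq_add]; exact g₄)
  have k3 := ge_one_of_fixed hℓ hA (z := a₂ / (a₃ / a₂ - a₁)) (fun σ hσ' => by
    rw [map_div₀ σ a₂ (a₃ / a₂ - a₁), map_sub σ (a₃ / a₂) a₁, map_div₀ σ a₃ a₂, f1 σ hσ', f2 σ hσ',
      f3 σ hσ']) ks
  have l2 : w.Ge 2 a₂ := by
    have h := (k3.mul k2).mono (show (2 : ℚ) ≤ 1 + 1 by norm_num)
    rwa [div_mul_cancel₀ _ it] at h
  have l3 : w.Ge 3 a₃ := by
    have h := (k1.mul l2).mono (show (3 : ℚ) ≤ 1 + 2 by norm_num)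
    rwa [div_mul_cancel₀ _ i2] at h
  refine ⟨x₀, s, y₀, hx₀, (valOf_ge_zero_iff hℓ hA).mp gs, hy₀,
    fun σ hσ' => ⟨(hσ σ hσ').1, hσs σ hσ', (hσ σ hσ').2⟩, j1, l2, l3, ?_, ?_⟩
  · convert ge_zero (w := w) 4 using 1
    rw [ha₃] at hη
    linear_combination -hη
  · convert ge_zero (w := w) 6 using 1
    linear_combination -heq

end Place

end Fermat.Agent.Cor.NOS
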