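import Fermat.Agent.Corollaries.NOS.Crit

/-!
# Raynaud's criterion for the points of order three

`W` minimal at `ℓ ≠ 3`, `A` a place above `ℓ`. If the inertia group of `A` acts trivially on the
points of order three (two independent ones suffice), then `W` is not additive at `ℓ`
(`not_isAdditiveAt_of_three`, `not_isAdditiveAt_of_three_torsion`).
At a flex `P` fixed by inertia the equation becomes `y² + a₁xy + a₃y = x³`; a second point of order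
three has an abscissa `x` with `3x³ + a₁²x² + 3a₁a₃x + 3a₃² = 0`, and if `a₁`, `a₃`, `x` have
integral positive values, this forces the value of `a₃` to be at least three.
-/

set_option autoImplicit false
set_option linter.style.haveILetI false

noncomputable section

open WeierstrassCurve WeierstrassCurve.Affine
open FermatAgent.ECVal FermatAgent.ECVal.QVal Fermat.Agent.ECRed

namespace Fermat.Agent.Cor.NOS

/-- The normal form at a flex, and the abscissa of a second point of order three. -/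
theorem three_form {K : Type*} [Field K] (h4 : (4 : K) ≠ 0) (V : WeierstrassCurve K)
    {x₀ y₀ x₁ s : K}
    (heq : y₀ ^ 2 + V.a₁ * x₀ * y₀ + V.a₃ * y₀ = x₀ ^ 3 + V.a₂ * x₀ ^ 2 + V.a₄ * x₀ + V.a₆)
    (hs : s * (V.a₃ + x₀ * V.a₁ + 2 * y₀) = 3 * x₀ ^ 2 + 2 * V.a₂ * x₀ + V.a₄ - V.a₁ * y₀)
    (h0 : V.Ψ₃.eval x₀ = 0) (h1 : V.Ψ₃.eval x₁ = 0) (hη : V.a₃ + x₀ * V.a₁ + 2 * y₀ ≠ 0)
    (hne : x₁ - x₀ ≠ 0) :
    V.a₂ - s * V.a₁ + 3 * x₀ - s ^ 2 = 0 ∧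
      3 * (x₁ - x₀) ^ 3 + (V.a₁ + 2 * s) ^ 2 * (x₁ - x₀) ^ 2 +
        3 * (V.a₁ + 2 * s) * (V.a₃ + x₀ * V.a₁ + 2 * y₀) * (x₁ - x₀) +
        3 * (V.a₃ + x₀ * V.a₁ + 2 * y₀) ^ 2 = 0 := by
  obtain ⟨a₃, ha₃⟩ : ∃ a₃, a₃ = V.a₃ + x₀ * V.a₁ + 2 * y₀ := ⟨_, rfl⟩
  have B2 : V.b₂ + 12 * x₀ = (V.a₁ + 2 * s) ^ 2 + 4 * (V.a₂ - s * V.a₁ + 3 * x₀ - s ^ 2) := by
    rw [WeierstrassCurve.b₂]; ring
  have B4 : V.b₄ + x₀ * V.b₂ + 6 * x₀ ^ 2 = (V.a₁ + 2 * s) * a₃ := by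
    rw [WeierstrassCurve.b₄, WeierstrassCurve.b₂, ha₃]
    linear_combination -2 * hs
  have B6 : V.b₆ + 2 * x₀ * V.b₄ + x₀ ^ 2 * V.b₂ + 4 * x₀ ^ 3 = a₃ ^ 2 := by
    rw [WeierstrassCurve.b₆, WeierstrassCurve.b₄, WeierstrassCurve.b₂, ha₃]
    linear_combination -4 * heq
  have e : ∀ x : K, V.Ψ₃.eval x =
      3 * x ^ 4 + V.b₂ * x ^ 3 + 3 * V.b₄ * x ^ 2 + 3 * V.b₆ * x + V.b₈ := by
    intro x
    simp only [WeierstrassCurve.Ψ₃, Polynomial.eval_add, Polynomial.eval_mul,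
      Polynomial.eval_C, Polynomial.eval_pow, Polynomial.eval_X, Polynomial.eval_ofNat]
  rw [e] at h0 h1
  have hrel := V.b_relation
  have B8 : 4 * (3 * x₀ ^ 4 + V.b₂ * x₀ ^ 3 + 3 * V.b₄ * x₀ ^ 2 + 3 * V.b₆ * x₀ + V.b₈) =
      4 * ((V.a₂ - s * V.a₁ + 3 * x₀ - s ^ 2) * a₃ ^ 2) := by
    have e1 : 4 * (3 * x₀ ^ 4 + V.b₂ * x₀ ^ 3 + 3 * V.b₄ * x₀ ^ 2 + 3 * V.b₆ * x₀ + V.b₈) =
        (V.b₂ + 12 * x₀) * (V.b₆ + 2 * x₀ * V.b₄ + x₀ ^ 2 * V.b₂ + 4 * x₀ ^ 3) -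
          (V.b₄ + x₀ * V.b₂ + 6 * x₀ ^ 2) ^ 2 := by
      linear_combination hrel
    rw [e1, B2, B4, B6]
    ring
  rw [← ha₃] at hη ⊢
  have hA2 : V.a₂ - s * V.a₁ + 3 * x₀ - s ^ 2 = 0 := by
    rw [h0, mul_zero] at B8
    rcases mul_eq_zero.mp B8.symm with h | h
    · exact absurd h h4
    · rcases mul_eq_zero.mp h with h | h
      · exact h
      · exact absurd ((pow_eq_zero_iff two_ne_zero).mp h) hη
  refine ⟨hA2, ?_⟩
  rw [hA2, mul_zero, add_zero] at B2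
  refine mul_left_cancel₀ hne ?_
  rw [mul_zero]
  have e2 : 3 * x₁ ^ 4 + V.b₂ * x₁ ^ 3 + 3 * V.b₄ * x₁ ^ 2 + 3 * V.b₆ * x₁ + V.b₈ =
      3 * (x₁ - x₀) ^ 4 + (V.b₂ + 12 * x₀) * (x₁ - x₀) ^ 3 +
        3 * (V.b₄ + x₀ * V.b₂ + 6 * x₀ ^ 2) * (x₁ - x₀) ^ 2 +
        3 * (V.b₆ + 2 * x₀ * V.b₄ + x₀ ^ 2 * V.b₂ + 4 * x₀ ^ 3) * (x₁ - x₀) +
        (3 * x₀ ^ 4 + V.b₂ * x₀ ^ 3 + 3 * V.b₄ * x₀ ^ 2 + 3 * V.b₆ * x₀ + V.b₈) := by ring
  rw [h1, h0, B2, B4, B6] at e2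
  linear_combination -e2

/-- The valuations: if `a₁`, `a₃`, `x` have integral values at least one, then `3 ≤ w(a₃)`. -/
theorem ge_three_of_cubic {K : Type*} [Field K] {w : QVal K} {a₁ a₃ x : K} (h3 : w.Is 0 (3 : K))
    (h : 3 * x ^ 3 + a₁ ^ 2 * x ^ 2 + 3 * a₁ * a₃ * x + 3 * a₃ ^ 2 = 0) (h1 : w.Ge 1 a₁)
    {m n : ℤ} (hm : 1 ≤ m) (hn : 1 ≤ n) (hx : w.Is (m : ℚ) x) (ha : w.Is (n : ℚ) a₃) :
    w.Ge 3 a₃ := by
  by_contra hcon
  have hn2 : n ≤ 2 := by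
    by_contra hn3
    apply hcon
    refine ha.ge.mono ?_
    have : (3 : ℤ) ≤ n := by omega
    exact_mod_cast this
  have hmQ : (1 : ℚ) ≤ m := by exact_mod_cast hm
  have hnQ : (1 : ℚ) ≤ n := by exact_mod_cast hn
  have hx1 : w.Ge 1 x := hx.ge.mono hmQ
  -- `w(3 a₃²) = 2 n`
  have L : w.Is (2 * (n : ℚ)) (3 * a₃ ^ 2) := by
    have := h3.mul ha.sq
    rwa [zero_add] at this
  have R : w.Is (3 * (m : ℚ)) (3 * x ^ 3) := by
    have := h3.mul (hx.sq.mul hx)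
    have e : (3 : K) * (x ^ 2 * x) = 3 * x ^ 3 := by ring
    rw [e] at this
    convert this using 1
    ring
  have M2 : w.Ge (2 + 2 * (m : ℚ)) (a₁ ^ 2 * x ^ 2) := by
    have := (h1.sq).mul hx.sq.ge
    refine this.mono ?_
    linarith
  have M1 : w.Ge (1 + n + m) (3 * a₁ * a₃ * x) := by
    have := ((h3.ge.mul h1).mul ha.ge).mul hx.ge
    refine this.mono ?_
    linarith
  rcases (by omega : n = 1 ∨ n = 2) with rfl | rfl
  · -- `2 n = 2`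
    have hgt : w.Gt 2 (3 * x ^ 3 + a₁ ^ 2 * x ^ 2 + 3 * a₁ * a₃ * x) := by
      have g1 : w.Gt 2 (3 * x ^ 3) := R.ge.gt (by linarith)
      have g2 : w.Gt 2 (a₁ ^ 2 * x ^ 2) := M2.gt (by linarith)
      have g3 : w.Gt 2 (3 * a₁ * a₃ * x) := M1.gt (by push_cast; linarith)
      exact (g1.add g2).add g3
    have e : 3 * a₃ ^ 2 = -(3 * x ^ 3 + a₁ ^ 2 * x ^ 2 + 3 * a₁ * a₃ * x) := by
      linear_combination h
    rw [e] at L
    have := L.lt_of_gt hgt.neg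
    push_cast at this
    linarith
  · rcases eq_or_lt_of_le hm with rfl | hm2
    · -- `m = 1`
      have hgt : w.Gt 3 (a₁ ^ 2 * x ^ 2 + 3 * a₁ * a₃ * x + 3 * a₃ ^ 2) := by
        have g1 : w.Gt 3 (3 * a₃ ^ 2) := L.ge.gt (by push_cast; linarith)
        have g2 : w.Gt 3 (a₁ ^ 2 * x ^ 2) := M2.gt (by push_cast; linarith)
        have g3 : w.Gt 3 (3 * a₁ * a₃ * x) := M1.gt (by push_cast; linarith)
        exact (g2.add g3).add g1
      have e : 3 * x ^ 3 = -(a₁ ^ 2 * x ^ 2 + 3 * a₁ * a₃ * x + 3 * a₃ ^ 2) := by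
        linear_combination h
      rw [e] at R
      have := R.lt_of_gt hgt.neg
      push_cast at this
      linarith
    · have hm2Q : (2 : ℚ) ≤ m := by
        have : (2 : ℤ) ≤ m := by omega
        exact_mod_cast this
      have hgt : w.Gt 4 (3 * x ^ 3 + a₁ ^ 2 * x ^ 2 + 3 * a₁ * a₃ * x) := by
        have g1 : w.Gt 4 (3 * x ^ 3) := R.ge.gt (by linarith)
        have g2 : w.Gt 4 (a₁ ^ 2 * x ^ 2) := M2.gt (by linarith)
        have g3 : w.Gt 4 (3 * a₁ * a₃ * x) := M1.gt (by push_cast; linarith)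
        exact (g1.add g2).add g3
      have e : 3 * a₃ ^ 2 = -(3 * x ^ 3 + a₁ ^ 2 * x ^ 2 + 3 * a₁ * a₃ * x) := by
        linear_combination h
      rw [e] at L
      have := L.lt_of_gt hgt.neg
      push_cast at this
      linarith

variable {W : WeierstrassCurve ℤ} {A : ValuationSubring (AlgebraicClosure ℚ)} {ℓ : ℕ}

/-- Two independent points of order three which are fixed by inertia. -/
theorem exists_isReducible_three (hℓ : ℓ.Prime) (hℓ3 : ℓ ≠ 3)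
    (hA : A.LiesOverPrime ℓ) (hΔ : (ℓ : ℤ) ∣ W.Δ) (hc : (ℓ : ℤ) ∣ W.c₄) {P Q : (EQ W).Point}
    (hP0 : P ≠ 0) (hQ0 : Q ≠ 0) (hP3 : 3 • P = 0) (hQ3 : 3 • Q = 0) (hQP : Q ≠ P) (hQP' : Q ≠ -P)
    (hfixP : ∀ σ ∈ A.inertiaSubgroupIn ℚ, σ • P = P)
    (hfixQ : ∀ σ ∈ A.inertiaSubgroupIn ℚ, σ • Q = Q) :
    ∃ r s t : AlgebraicClosure ℚ, r ∈ A ∧ s ∈ A ∧ t ∈ A ∧
      (∀ σ ∈ A.inertiaSubgroupIn ℚ, σ r = r ∧ σ s = s ∧ σ t = t) ∧
      IsReducible (valOf hℓ hA) (EQ W) r s t := by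
  classical
  obtain ⟨c, hcA, hcen⟩ := exists_center hℓ hA hΔ hc
  have hℓ3' : ¬ ℓ ∣ 3 := fun h => hℓ3 ((Nat.prime_dvd_prime_iff_eq hℓ Nat.prime_three).mp h)
  obtain ⟨x₀, y₀, hxy, rfl⟩ : ∃ x₀ y₀ h, P = Point.some x₀ y₀ h := ⟨_, _, exists_eq_some hP0⟩
  obtain ⟨x₁, y₁, hxy₁, rfl⟩ : ∃ x₀ y₀ h, Q = Point.some x₀ y₀ h := ⟨_, _, exists_eq_some hQ0⟩
  set w := valOf hℓ hA with hw
  have heq := (Affine.equation_iff _ _).mp hxy.1
  have heq₁ := (Affine.equation_iff _ _).mp hxy₁.1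
  -- the abscissas are different
  have hne : x₁ - x₀ ≠ 0 := by
    intro h
    have hx : x₁ = x₀ := sub_eq_zero.mp h
    subst hx
    rcases Affine.Y_eq_of_X_eq hxy₁.1 hxy.1 rfl with h1 | h1
    · subst h1
      exact hQP rfl
    · subst h1
      apply hQP'
      rw [Point.neg_some]
  -- the flex
  have hη : (EQ W).a₃ + x₀ * (EQ W).a₁ + 2 * y₀ ≠ 0 := by
    intro h0
    have h2 : 2 • Point.some x₀ y₀ hxy = 0 := by
      rw [two_nsmul]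
      exact Point.add_of_Y_eq rfl (by simp only [Affine.negY]; linear_combination h0)
    apply hP0
    have h3 : 3 • Point.some x₀ y₀ hxy = 2 • Point.some x₀ y₀ hxy + Point.some x₀ y₀ hxy :=
      succ_nsmul _ 2
    rw [hP3, h2, zero_add] at h3
    exact h3.symm
  obtain ⟨s, hs⟩ : ∃ s, s * ((EQ W).a₃ + x₀ * (EQ W).a₁ + 2 * y₀) =
      3 * x₀ ^ 2 + 2 * (EQ W).a₂ * x₀ + (EQ W).a₄ - (EQ W).a₁ * y₀ :=
    ⟨_, div_mul_cancel₀ _ hη⟩
  have hΨ : ∀ (x y : AlgebraicClosure ℚ) (h : (EQ W).Nonsingular x y),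
      3 • Point.some x y h = 0 → (EQ W).Ψ₃.eval x = 0 := by
    intro x y h h0
    have h1 := (Fermat.Agent.Torsion.nsmul_eq_zero_iff h 3).mp h0
    have h2 : (EQ W).ΨSq ((3 : ℕ) : ℤ) = (EQ W).Ψ₃ ^ 2 := ΨSq_three _
    rw [h2, Polynomial.eval_pow] at h1
    exact (pow_eq_zero_iff two_ne_zero).mp h1
  obtain ⟨hA2, hcub⟩ := three_form (by norm_num) (EQ W) heq hs (hΨ _ _ hxy hP3) (hΨ _ _ hxy₁ hQ3)
    hη hne
  set a₁ := (EQ W).a₁ + 2 * s with ha₁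
  set a₃ := (EQ W).a₃ + x₀ * (EQ W).a₁ + 2 * y₀ with ha₃
  -- the centre
  obtain ⟨hx₀, hy₀, gx, gη⟩ := hcen 3 hℓ3' x₀ y₀ hxy hP3
  obtain ⟨hx₁, hy₁, gx₁, -⟩ := hcen 3 hℓ3' x₁ y₁ hxy₁ hQ3
  have gx' : w.Gt 0 (x₁ - x₀) := by
    have := gx₁.sub gx
    rwa [sub_sub_sub_cancel_right] at this
  have gi : ∀ m : ℤ, w.Ge 0 (m : AlgebraicClosure ℚ) := fun m => by
    rw [valOf_ge_zero_iff]
    exact intCast_mem A m
  have g3 : w.Gt 0 a₃ := by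
    refine gt_of_sq ?_
    have e : a₃ ^ 2 = (2 * y₀ + (EQ W).a₁ * x₀ + (EQ W).a₃) ^ 2 := by rw [ha₃]; ring
    rw [e]
    exact gη
  have gc : w.Gt 0 ((W.c₄ : ℤ) : AlgebraicClosure ℚ) := by
    have h := (Mazur.Cusp.ge_intCast_iff hℓ hA (n := 1) (m := W.c₄)).mpr (by rwa [pow_one])
    exact (by exact_mod_cast h : w.Ge 1 ((W.c₄ : ℤ) : AlgebraicClosure ℚ)).gt zero_lt_one
  have gn : ∀ n : ℕ, w.Ge 0 (n : AlgebraicClosure ℚ) := fun n => QVal.ge_natCast n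
  have ga1 : w.Ge 0 (EQ W).a₁ := by rw [EQ_a₁]; exact gi _
  have ga2 : w.Ge 0 (EQ W).a₂ := by rw [EQ_a₂]; exact gi _
  have gx0 : w.Ge 0 x₀ := (valOf_ge_zero_iff hℓ hA).mpr hx₀
  have gs : w.Ge 0 s := by
    by_contra hcon
    obtain ⟨h0, h1⟩ := not_ge_iff.mp hcon
    have h2 : w.Is (w.val s) s := Is.of_ne h0
    have h3 : w.Ge 0 (s ^ 2 + (EQ W).a₁ * s) := by
      have e : s ^ 2 + (EQ W).a₁ * s = (EQ W).a₂ + 3 * x₀ := by linear_combination -hA2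
      rw [e]
      have h3 : w.Ge 0 (3 * x₀) := by
        have := (gn 3).mul gx0
        rw [add_zero] at this
        exact_mod_cast this
      exact ga2.add h3
    have h4 : w.Gt (2 * w.val s) ((EQ W).a₁ * s) := (ga1.mul h2.ge).gt (by linarith)
    have h5 := (h2.sq.add_gt h4).le_of_ge h3
    linarith
  have g1 : w.Gt 0 a₁ := by
    refine gt_of_sq (gt_of_sq ?_)
    have e : (a₁ ^ 2) ^ 2 = ((W.c₄ : ℤ) : AlgebraicClosure ℚ) + 24 * (a₁ * a₃) := by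
      rw [← EQ_c₄]
      simp only [WeierstrassCurve.c₄, WeierstrassCurve.b₂, WeierstrassCurve.b₄, ha₁, ha₃]
      rw [ha₃] at hs
      have hA2' : (EQ W).a₂ = s * (EQ W).a₁ - 3 * x₀ + s ^ 2 := by linear_combination hA2
      rw [hA2'] at hs ⊢
      linear_combination -48 * hs
    rw [e]
    have ga : w.Ge 0 a₁ := by
      have h3 : w.Ge 0 (2 * s) := by
        have := (gn 2).mul gs
        rw [add_zero] at this
        exact_mod_cast this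
      exact ga1.add h3
    have h3 : w.Gt 0 (24 * (a₁ * a₃)) := by
      have h4 := ga.mul_gt g3
      rw [add_zero] at h4
      have := (gn 24).mul_gt h4
      rw [add_zero] at this
      exact_mod_cast this
    exact gc.add h3
  -- inertia
  have hσ : ∀ σ ∈ A.inertiaSubgroupIn ℚ, σ x₀ = x₀ ∧ σ y₀ = y₀ := by
    intro σ hσ
    have h1 := hfixP σ hσ
    rw [Point.algEquiv_smul_def, Point.map_some, Point.some.injEq] at h1
    exact h1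
  have hσ₁ : ∀ σ ∈ A.inertiaSubgroupIn ℚ, σ x₁ = x₁ := by
    intro σ hσ
    have h1 := hfixQ σ hσ
    rw [Point.algEquiv_smul_def, Point.map_some, Point.some.injEq] at h1
    exact h1.1
  have hσs : ∀ σ ∈ A.inertiaSubgroupIn ℚ, σ s = s := by
    intro σ hσ'
    obtain ⟨h1, h2⟩ := hσ σ hσ'
    have h3 := congrArg σ hs
    rw [ha₃] at h3
    simp only [map_mul, map_add, map_sub, map_pow, h1, h2, EQ_a₁, EQ_a₂, EQ_a₃, EQ_a₄, map_intCast,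
      map_ofNat] at h3
    have h4 : σ s * a₃ = s * a₃ := by
      rw [hs, ha₃]
      simp only [EQ_a₁, EQ_a₂, EQ_a₃, EQ_a₄]
      exact h3
    exact mul_right_cancel₀ hη h4
  have f1 : ∀ σ ∈ A.inertiaSubgroupIn ℚ, σ a₁ = a₁ := by
    intro σ hσ'
    rw [ha₁, map_add, map_mul, hσs σ hσ', EQ_a₁, map_intCast, map_ofNat]
  have f3 : ∀ σ ∈ A.inertiaSubgroupIn ℚ, σ a₃ = a₃ := by
    intro σ hσ'
    rw [ha₃]
    simp only [map_mul, map_add, (hσ σ hσ').1, (hσ σ hσ').2, EQ_a₁, EQ_a₃, map_intCast,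
      map_ofNat]
  -- the values
  have j1 := ge_one_of_fixed hℓ hA f1 g1
  have hpos : ∀ z : AlgebraicClosure ℚ, z ≠ 0 → (∀ σ ∈ A.inertiaSubgroupIn ℚ, σ z = z) →
      w.Gt 0 z → ∃ n : ℤ, 1 ≤ n ∧ w.Is (n : ℚ) z := by
    intro z hz hfz hgz
    obtain ⟨n, hn⟩ := val_int_of_inertia_fixed hℓ hA hz hfz
    have h2 := hn.lt_of_gt hgz
    exact ⟨n, by exact_mod_cast h2, hn⟩
  obtain ⟨m, hm1, hm⟩ := hpos (x₁ - x₀) hne (fun σ hσ' => by
    rw [map_sub, hσ₁ σ hσ', (hσ σ hσ').1]) gx'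
  obtain ⟨n, hn1, hn⟩ := hpos a₃ hη f3 g3
  have h3u : w.Is 0 (3 : AlgebraicClosure ℚ) := by
    have h1 : w.Ge 0 ((3 : ℕ) : AlgebraicClosure ℚ) := gn 3
    have h2 : ¬ w.Gt 0 ((3 : ℕ) : AlgebraicClosure ℚ) := by
      rw [hw, valOf_gt_zero_iff]
      intro h
      have h4 := valuation_natCast_eq_one hℓ hA hℓ3'
      rw [ValuationSubring.mem_nonunits_iff, h4] at h
      exact lt_irrefl _ h
    obtain ⟨h0, h5⟩ := not_gt_iff.mp h2
    have h6 : w.val ((3 : ℕ) : AlgebraicClosure ℚ) = 0 := le_antisymm h5 (h1.resolve_left h0)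
    have h7 : w.Is (w.val ((3 : ℕ) : AlgebraicClosure ℚ)) ((3 : ℕ) : AlgebraicClosure ℚ) :=
      Is.of_ne h0
    rw [h6] at h7
    exact_mod_cast h7
  have l3 : w.Ge 3 a₃ := ge_three_of_cubic h3u hcub j1 hm1 hn1 hm hn
  refine ⟨x₀, s, y₀, hx₀, (valOf_ge_zero_iff hℓ hA).mp gs, hy₀,
    fun σ hσ' => ⟨(hσ σ hσ').1, hσs σ hσ', (hσ σ hσ').2⟩, j1, ?_, l3, ?_, ?_⟩
  · convert ge_zero (w := w) 2 using 1
  · convert ge_zero (w := w) 4 using 1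
    rw [ha₃] at hs
    linear_combination -hs
  · convert ge_zero (w := w) 6 using 1
    linear_combination -heq

open Fermat.Agent.Cor.Mazur in
/-- **Raynaud's criterion for the points of order three**: if inertia at `ℓ ≠ 3` fixes two
independent points of order three, then `W` (minimal at `ℓ`) is not additive at `ℓ`. -/
theorem not_isAdditiveAt_of_three (hℓ : ℓ.Prime) (hℓ3 : ℓ ≠ 3)
    (hmin : MinimalAt W ℓ) (hA : A.LiesOverPrime ℓ) {P Q : Pt W}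
    (hP0 : P ≠ 0) (hQ0 : Q ≠ 0) (hP3 : 3 • P = 0) (hQ3 : 3 • Q = 0) (hQP : Q ≠ P) (hQP' : Q ≠ -P)
    (hfixP : FixedBy A P) (hfixQ : FixedBy A Q) : ¬ IsAdditiveAt W ℓ := by
  intro h
  obtain ⟨r, s, t, hr, hs, ht, hf, hred⟩ := exists_isReducible_three hℓ hℓ3 hA h.1 h.2 hP0 hQ0
    hP3 hQ3 hQP hQP' hfixP hfixQ
  exact not_minimalAt_of_isReducible hℓ hA hr hs ht hf hred hmin

open Fermat.Agent.Cor.Mazur in
/-- If inertia at `ℓ ≠ 3` acts trivially on the points of order three, then `W` (minimal at `ℓ`) is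
not additive at `ℓ`. -/
theorem not_isAdditiveAt_of_three_torsion (hΔ0 : W.Δ ≠ 0) (hℓ : ℓ.Prime) (hℓ3 : ℓ ≠ 3)
    (hmin : MinimalAt W ℓ) (hA : A.LiesOverPrime ℓ)
    (h : ∀ P : Pt W, 3 • P = 0 → FixedBy A P) : ¬ IsAdditiveAt W ℓ := by
  classical
  obtain ⟨P, hP⟩ := exists_addOrderOf hΔ0 Nat.prime_three 1
  rw [pow_one] at hP
  have hP3 : 3 • P = 0 := by rw [← hP]; exact addOrderOf_nsmul_eq_zero P
  have hP0 : P ≠ 0 := by
    rintro rfl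
    rw [addOrderOf_zero] at hP
    omega
  have hN3 : 3 • (-P) = 0 := by rw [neg_nsmul, hP3, neg_zero]
  have hcard := card_torsion hΔ0 (n := 3) (by norm_num)
  obtain ⟨Q, hQ3, hQ0, hQP, hQP'⟩ : ∃ Q : Pt W, 3 • Q = 0 ∧ Q ≠ 0 ∧ Q ≠ P ∧ Q ≠ -P := by
    by_contra hcon
    push Not at hcon
    have hfin : Finite {P : Pt W // 3 • P = 0} :=
      Nat.finite_of_card_ne_zero (by rw [hcard]; norm_num)
    have hsub : (Set.univ : Set {P : Pt W // 3 • P = 0}) ⊆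
        {⟨0, nsmul_zero 3⟩, ⟨P, hP3⟩, ⟨-P, hN3⟩} := by
      rintro ⟨Q, hQ⟩ -
      by_cases h0 : Q = 0
      · left; exact Subtype.ext h0
      by_cases h1 : Q = P
      · right; left; exact Subtype.ext h1
      · right; right; exact Subtype.ext (hcon Q hQ h0 h1)
    have h1 := Set.ncard_le_ncard hsub (Set.toFinite _)
    rw [Set.ncard_univ, hcard] at h1
    have h2 := Set.ncard_insert_le (⟨0, nsmul_zero 3⟩ : {P : Pt W // 3 • P = 0})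
      {⟨P, hP3⟩, ⟨-P, hN3⟩}
    have h3 := Set.ncard_insert_le (⟨P, hP3⟩ : {P : Pt W // 3 • P = 0})
      {⟨-P, hN3⟩}
    rw [Set.ncard_singleton] at h3
    omega
  exact not_isAdditiveAt_of_three hℓ hℓ3 hmin hA hP0 hQ0 hP3 hQ3 hQP hQP' (h P hP3) (h Q hQ3)

end Fermat.Agent.Cor.NOS
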